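import Mathlib.NumberTheory.EllipticDivisibilitySequence
import Fermat.Agent.S05.XiData

/-!
# (DIV) multiples of a point and the normalised EDS (division polynomials), abstractly over `XiData`
-/

set_option autoImplicit false

namespace Fermat.Agent.S13

open Fermat.Agent.S05

universe u v

variable {K : Type u} [Field K] {G : Type v} [AddCommGroup G] (D : XiData K G)

/-- `Ψ₃` for `ψ² = 4ξ³ + Bξ² + 4cξ`  (b₂ = B, b₄ = 2c, b₆ = 0, b₈ = -c²) -/
def psi3 (x : K) : K := 3 * x ^ 4 + D.B * x ^ 3 + 6 * D.c * x ^ 2 - D.c ^ 2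

/-- `preΨ₄` -/
def prePsi4 (x : K) : K :=
  2 * x ^ 6 + D.B * x ^ 5 + 10 * D.c * x ^ 4 - 10 * D.c ^ 2 * x ^ 2 - D.B * D.c ^ 2 * x - 2 * D.c ^ 3

/-- value of the `k`-th division polynomial at `P` -/
noncomputable def dv (P : G) (k : ℤ) : K :=
  normEDS (D.ψ P) (psi3 D (D.ξ P)) (prePsi4 D (D.ξ P)) k

/-- the symmetric biquadratic form -/
def Gq (X u v : K) : K :=
  X ^ 2 * (u - v) ^ 2 - X * (2 * (u + v) * (u * v + D.c) + D.B * (u * v)) + (u * v - D.c) ^ 2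

lemma Gq_symm (X u v : K) : Gq D X u v = Gq D u v X := by
  simp only [Gq]; ring

lemma Gq_formula {Q R : G} (hQ : Q ≠ 0) (hR : R ≠ 0) (hne : D.ξ Q ≠ D.ξ R) (X : K) :
    (X - D.ξ (Q + R)) * (X - D.ξ (Q - R)) * (D.ξ Q - D.ξ R) ^ 2 = Gq D X (D.ξ Q) (D.ξ R) := by
  have h1 := D.sum_formula hQ hR hne
  have h2 := D.prod_formula hQ hR hne
  simp only [Gq]
  linear_combination (-X) * h1 + h2

omit [AddCommGroup G] in
lemma alg_step (d1 d2 d3 d4 d5 d6 A Bb Bm Bp Sp Spp Spm D0 Dp Dm : K)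
    (h1 : d1 * Sp ^ 2 = Spp * Spm) (h2 : d2 * D0 ^ 2 = Dp * Dm) (h3 : d6 * Bb ^ 2 = Bp * Bm)
    (h4 : d3 * A ^ 2 * Bb ^ 2 = -(Sp * D0)) (h5 : d5 * A ^ 2 * Bm ^ 2 = -(Spm * Dp))
    (hG : d1 * d2 * d3 ^ 2 = d4 * d5 * d6 ^ 2)
    (n1 : Spm ≠ 0) (n2 : Dp ≠ 0) (n3 : Sp ≠ 0) (n4 : D0 ≠ 0) (n5 : Bm ≠ 0) :
    d4 * A ^ 2 * Bp ^ 2 = -(Spp * Dm) := by
  have e1 : d1 * d2 * d3 ^ 2 * (Sp ^ 2 * D0 ^ 2 * A ^ 4 * Bb ^ 4 * Bm ^ 2) =
      (d1 * Sp ^ 2) * (d2 * D0 ^ 2) * (d3 * A ^ 2 * Bb ^ 2) ^ 2 * Bm ^ 2 := by ring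
  rw [h1, h2, h4] at e1
  have e2 : d4 * d5 * d6 ^ 2 * (Sp ^ 2 * D0 ^ 2 * A ^ 4 * Bb ^ 4 * Bm ^ 2) =
      d4 * (d5 * A ^ 2 * Bm ^ 2) * (d6 * Bb ^ 2) ^ 2 * (A ^ 2 * Sp ^ 2 * D0 ^ 2) := by ring
  rw [h5, h3] at e2
  have hT : (d4 * A ^ 2 * Bp ^ 2 + Spp * Dm) * (Spm * Dp * Sp ^ 2 * D0 ^ 2 * Bm ^ 2) = 0 := by
    linear_combination (Sp ^ 2 * D0 ^ 2 * A ^ 4 * Bb ^ 4 * Bm ^ 2) * hG - e1 + e2
  have hne : Spm * Dp * Sp ^ 2 * D0 ^ 2 * Bm ^ 2 ≠ 0 := by positivity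
  have := (mul_eq_zero.mp hT).resolve_right hne
  linear_combination this

omit [AddCommGroup G] in
lemma alg_two (d1 d2 d3 e f A Ap Dp U Dd : K)
    (r1 : d1 * Ap ^ 2 = U * A) (r2 : d2 * Dp ^ 2 = A * Dd) (r3 : d3 * A ^ 2 = Ap * Dp)
    (hG : d1 * d2 * d3 ^ 2 = f * e)
    (n1 : Ap ≠ 0) (n2 : Dp ≠ 0) (n3 : A ≠ 0) :
    e * A ^ 2 * f = U * Dd := by
  have e1 : d1 * d2 * d3 ^ 2 * (Ap ^ 2 * Dp ^ 2 * A ^ 4) =
      (d1 * Ap ^ 2) * (d2 * Dp ^ 2) * (d3 * A ^ 2) ^ 2 := by ring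
  rw [r1, r2, r3] at e1
  have hT : (e * A ^ 2 * f - U * Dd) * (Ap ^ 2 * Dp ^ 2 * A ^ 2) = 0 := by
    linear_combination (-(Ap ^ 2 * Dp ^ 2 * A ^ 4)) * hG + e1
  have hne : Ap ^ 2 * Dp ^ 2 * A ^ 2 ≠ 0 := by positivity
  have := (mul_eq_zero.mp hT).resolve_right hne
  linear_combination this

/-- auxiliary sequence -/
noncomputable def Wp (P : G) : ℕ → K
  | 0 => 0
  | 1 => 1
  | 2 => D.ψ P
  | (k + 3) => (D.ξ P - D.ξ ((k + 2) • P)) * Wp P (k + 2) ^ 2 / Wp P (k + 1)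

section

variable {D} {P : G} {N : ℕ} (h : ∀ k : ℕ, 1 ≤ k → k ≤ N → k • P ≠ 0)

include h

lemma X_ne {a b d u : ℕ} (hb : 1 ≤ b) (hd : 1 ≤ d) (ha : a = b + d) (hu : u = a + b)
    (huN : u ≤ N) : D.ξ (a • P) ≠ D.ξ (b • P) := by
  intro heq
  rcases D.eq_or_neg _ _ (h a (by omega) (by omega)) (h b hb (by omega)) heq with h1 | h1
  · apply h d hd (by omega)
    rw [ha, add_nsmul] at h1
    have : d • P = (b • P + d • P) - b • P := by abel
    rw [this, h1, sub_self]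
  · apply h u (by omega) huN
    rw [hu, add_nsmul, h1, neg_add_cancel]

lemma Gq_nsmul {a b d u : ℕ} (hb : 1 ≤ b) (hd : 1 ≤ d) (ha : a = b + d) (hu : u = a + b)
    (huN : u ≤ N) (X : K) :
    (X - D.ξ (u • P)) * (X - D.ξ (d • P)) * (D.ξ (a • P) - D.ξ (b • P)) ^ 2 =
      Gq D X (D.ξ (a • P)) (D.ξ (b • P)) := by
  have := Gq_formula D (h a (by omega) (by omega)) (h b hb (by omega)) (X_ne h hb hd ha hu huN) X
  rw [← add_nsmul, ← hu] at this
  have e : a • P - b • P = d • P := by rw [ha, add_nsmul]; abel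
  rw [e] at this
  exact this

lemma Wp_ne_zero : ∀ k : ℕ, 1 ≤ k → k ≤ N → Wp D P k ≠ 0 := by
  intro k
  induction k using Nat.strong_induction_on with
  | _ k ih =>
    intro h1 hN
    match k, h1, hN, ih with
    | 1, _, _, _ => simp [Wp]
    | 2, _, hN, _ =>
      simp only [Wp]
      intro h0
      have hP : P ≠ 0 := by simpa using h 1 le_rfl (by omega)
      have := (D.ψ_eq_zero_iff P hP).mpr h0
      apply h 2 (by omega) hN
      rw [two_nsmul]; exact this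
    | (k + 3), _, hN, ih =>
      simp only [Wp]
      have hx : D.ξ ((k + 2) • P) ≠ D.ξ (1 • P) :=
        X_ne h (a := k + 2) (b := 1) (d := k + 1) (u := k + 3) le_rfl (by omega) (by omega)
          (by omega) hN
      rw [one_smul] at hx
      exact div_ne_zero (mul_ne_zero (sub_ne_zero.mpr (Ne.symm hx))
        (pow_ne_zero 2 (ih (k + 2) (by omega) (by omega) (by omega))))
        (ih (k + 1) (by omega) (by omega) (by omega))

/-- the defining relation -/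
lemma R1 {k km kp : ℕ} (hkN : k ≤ N) (hkp : kp = k + 1) (hkm : k = km + 1) :
    (D.ξ P - D.ξ (k • P)) * Wp D P k ^ 2 = Wp D P kp * Wp D P km := by
  subst hkp hkm
  match km with
  | 0 => simp [Wp]
  | (j + 1) =>
    have hne := Wp_ne_zero (D := D) h (j + 1) (by omega) (by omega)
    show _ = ((D.ξ P - D.ξ ((j + 2) • P)) * Wp D P (j + 2) ^ 2 / Wp D P (j + 1)) * Wp D P (j + 1)
    rw [div_mul_cancel₀ _ hne]

/-- the relation (*) -/
lemma star : ∀ b : ℕ, 1 ≤ b → ∀ a u d : ℕ, 1 ≤ d → a = b + d → u = a + b → u ≤ N + 1 →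
    (D.ξ (a • P) - D.ξ (b • P)) * Wp D P a ^ 2 * Wp D P b ^ 2 = -(Wp D P u * Wp D P d) := by
  intro b
  induction b using Nat.strong_induction_on with
  | _ b ih =>
    intro hb a u d hd ha hu huN
    have hW := Wp_ne_zero (D := D) h
    rcases Nat.lt_or_ge b 2 with hb1 | hb2
    · have hb' : b = 1 := by omega
      subst hb'
      have := R1 (D := D) h (k := a) (kp := u) (km := d) (by omega) (by omega) (by omega)
      simp only [one_smul, Wp, one_pow, mul_one]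
      linear_combination -this
    rcases Nat.lt_or_ge b 3 with hb3 | hb3
    · have hb' : b = 2 := by omega
      subst hb'
      have hP : P ≠ 0 := by simpa using h 1 le_rfl (by omega)
      have h2P : P + P ≠ 0 := by
        have := h 2 (by omega) (by omega)
        rwa [two_nsmul] at this
      have hdbl := D.dbl_formula P hP h2P
      have hsq := D.ψ_sq P hP
      have hG1 := Gq_nsmul (D := D) h (a := a) (b := 1) (d := d + 1) (u := a + 1) le_rfl (by omega)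
        (by omega) rfl (by omega) (D.ξ P)
      rw [one_smul, Gq_symm] at hG1
      have hGd : Gq D (D.ξ (a • P)) (D.ξ P) (D.ξ P) =
          D.ψ P ^ 2 * (D.ξ (2 • P) - D.ξ (a • P)) := by
        rw [two_nsmul]
        simp only [Gq]
        linear_combination (D.ξ (a • P)) * hsq - hdbl
      rw [hGd] at hG1
      have r1 := R1 (D := D) h (k := a + 1) (kp := u) (km := a) (by omega) (by omega) rfl
      have r2 := R1 (D := D) h (k := d + 1) (kp := a) (km := d) (by omega) (by omega) rfl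
      have r3 := R1 (D := D) h (k := a) (kp := a + 1) (km := d + 1) (by omega) rfl (by omega)
      have hG2 : (D.ξ P - D.ξ ((a + 1) • P)) * (D.ξ P - D.ξ ((d + 1) • P)) *
          (D.ξ P - D.ξ (a • P)) ^ 2 = D.ψ P ^ 2 * (D.ξ (2 • P) - D.ξ (a • P)) := by
        rw [← hG1]; ring
      have := alg_two _ _ _ _ _ _ _ _ _ _ r1 r2 r3 hG2 (hW _ (by omega) (by omega))
        (hW _ (by omega) (by omega)) (hW _ (by omega) (by omega))
      simp only [Wp]
      linear_combination -this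
    · obtain ⟨c, rfl⟩ : ∃ c, b = c + 3 := ⟨b - 3, by omega⟩
      have h1 := R1 (D := D) h (k := a + (c + 2)) (kp := u) (km := a + (c + 1)) (by omega)
        (by omega) (by omega)
      have h2 := R1 (D := D) h (k := d + 1) (kp := d + 2) (km := d) (by omega) rfl rfl
      have h3 := R1 (D := D) h (k := c + 2) (kp := c + 3) (km := c + 1) (by omega) rfl rfl
      have h4 := ih (c + 2) (by omega) (by omega) a (a + (c + 2)) (d + 1) (by omega) (by omega) rfl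
        (by omega)
      have h5 := ih (c + 1) (by omega) (by omega) a (a + (c + 1)) (d + 2) (by omega) (by omega) rfl
        (by omega)
      have hG1 := Gq_nsmul (D := D) h (a := a) (b := c + 2) (d := d + 1) (u := a + (c + 2))
        (by omega) (by omega) (by omega) rfl (by omega) (D.ξ P)
      have hG2 := Gq_nsmul (D := D) h (a := c + 2) (b := 1) (d := c + 1) (u := c + 3)
        le_rfl (by omega) (by omega) rfl (by omega) (D.ξ (a • P))
      rw [one_smul] at hG2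
      rw [Gq_symm, ← hG2] at hG1
      have hG : (D.ξ P - D.ξ ((a + (c + 2)) • P)) * (D.ξ P - D.ξ ((d + 1) • P)) *
          (D.ξ (a • P) - D.ξ ((c + 2) • P)) ^ 2 =
          (D.ξ (a • P) - D.ξ ((c + 3) • P)) * (D.ξ (a • P) - D.ξ ((c + 1) • P)) *
          (D.ξ P - D.ξ ((c + 2) • P)) ^ 2 := by
        rw [hG1]; ring
      exact alg_step _ _ _ _ _ _ _ _ _ _ _ _ _ _ _ _ h1 h2 h3 h4 h5 hG
        (hW _ (by omega) (by omega)) (hW _ (by omega) (by omega)) (hW _ (by omega) (by omega))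
        (hW _ (by omega) (by omega)) (hW _ (by omega) (by omega))

lemma Wp_odd (j : ℕ) (hj : 2 * j + 3 ≤ N + 1) :
    Wp D P (2 * j + 3) =
      Wp D P (j + 3) * Wp D P (j + 1) ^ 3 - Wp D P j * Wp D P (j + 2) ^ 3 := by
  have s := star (D := D) h (j + 1) (by omega) (j + 2) (2 * j + 3) 1 le_rfl rfl (by omega) hj
  have ra := R1 (D := D) h (k := j + 2) (kp := j + 3) (km := j + 1) (by omega) rfl rfl
  have rb := R1 (D := D) h (k := j + 1) (kp := j + 2) (km := j) (by omega) rfl rfl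
  have w1 : Wp D P 1 = 1 := rfl
  rw [w1, mul_one] at s
  linear_combination s - Wp D P (j + 2) ^ 2 * rb + Wp D P (j + 1) ^ 2 * ra

lemma Wp_even (j : ℕ) (hj : 2 * j + 4 ≤ N + 1) :
    Wp D P (2 * j + 4) * D.ψ P =
      Wp D P (j + 1) ^ 2 * Wp D P (j + 2) * Wp D P (j + 4) -
        Wp D P j * Wp D P (j + 2) * Wp D P (j + 3) ^ 2 := by
  have s := star (D := D) h (j + 1) (by omega) (j + 3) (2 * j + 4) 2 (by omega) rfl (by omega) hj
  have ra := R1 (D := D) h (k := j + 3) (kp := j + 4) (km := j + 2) (by omega) rfl rfl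
  have rb := R1 (D := D) h (k := j + 1) (kp := j + 2) (km := j) (by omega) rfl rfl
  have w2 : Wp D P 2 = D.ψ P := rfl
  rw [w2] at s
  linear_combination s - Wp D P (j + 3) ^ 2 * rb + Wp D P (j + 1) ^ 2 * ra

lemma Wp_three (hN : 2 ≤ N) : Wp D P 3 = psi3 D (D.ξ P) := by
  have hP : P ≠ 0 := by simpa using h 1 le_rfl (by omega)
  have h2P : P + P ≠ 0 := by
    have := h 2 (by omega) (by omega)
    rwa [two_nsmul] at this
  have hdbl := D.dbl_formula P hP h2P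
  have hsq := D.ψ_sq P hP
  show (D.ξ P - D.ξ ((0 + 2) • P)) * Wp D P (0 + 2) ^ 2 / Wp D P (0 + 1) = _
  have w1 : Wp D P (0 + 1) = 1 := rfl
  have w2 : Wp D P (0 + 2) = D.ψ P := rfl
  rw [w1, w2, div_one, zero_add, two_nsmul]
  simp only [psi3]
  linear_combination (D.ξ P) * hsq - hdbl

lemma Wp_four (hN : 3 ≤ N) : Wp D P 4 = prePsi4 D (D.ξ P) * D.ψ P := by
  have hP : P ≠ 0 := by simpa using h 1 le_rfl (by omega)
  have h2P' := h 2 (by omega) (by omega)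
  have h2P : P + P ≠ 0 := by rwa [two_nsmul] at h2P'
  have hdbl := D.dbl_formula P hP h2P
  have hsq := D.ψ_sq P hP
  have hψ : D.ψ P ≠ 0 := fun h0 => h2P ((D.ψ_eq_zero_iff P hP).mpr h0)
  have hne : D.ξ (2 • P) ≠ D.ξ (1 • P) :=
    X_ne h (a := 2) (b := 1) (d := 1) (u := 3) le_rfl le_rfl rfl rfl hN
  rw [one_smul] at hne
  have hs := D.sum_formula h2P' hP hne
  have e3 : 2 • P + P = 3 • P := by rw [← succ_nsmul]
  have e1 : 2 • P - P = P := by rw [two_nsmul]; abel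
  rw [e3, e1, two_nsmul] at hs
  have hs' : (D.ξ (3 • P) + D.ξ P) * ((D.ξ P ^ 2 - D.c) ^ 2 - D.ξ P * D.ψ P ^ 2) ^ 2 =
      2 * ((D.ξ P ^ 2 - D.c) ^ 2 + D.ξ P * D.ψ P ^ 2) *
        ((D.ξ P ^ 2 - D.c) ^ 2 * D.ξ P + D.c * D.ψ P ^ 2) +
      D.B * ((D.ξ P ^ 2 - D.c) ^ 2) * D.ξ P * D.ψ P ^ 2 := by
    have : (D.ξ (3 • P) + D.ξ P) * ((D.ξ (P + P) * D.ψ P ^ 2) - D.ξ P * D.ψ P ^ 2) ^ 2 =
        2 * ((D.ξ (P + P) * D.ψ P ^ 2) + D.ξ P * D.ψ P ^ 2) *
          ((D.ξ (P + P) * D.ψ P ^ 2) * D.ξ P + D.c * D.ψ P ^ 2) +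
        D.B * (D.ξ (P + P) * D.ψ P ^ 2) * D.ξ P * D.ψ P ^ 2 := by
      linear_combination (D.ψ P ^ 2) ^ 2 * hs
    rwa [hdbl] at this
  show (D.ξ P - D.ξ ((1 + 2) • P)) * Wp D P (1 + 2) ^ 2 / Wp D P (1 + 1) = _
  have w2 : Wp D P (1 + 1) = D.ψ P := rfl
  have w3 : Wp D P (1 + 2) = psi3 D (D.ξ P) := Wp_three h (by omega)
  rw [w2, w3, div_eq_iff hψ]
  have e12 : (1 + 2) • P = 3 • P := rfl
  rw [e12]
  rw [hsq] at hs'
  have : prePsi4 D (D.ξ P) * D.ψ P * D.ψ P = prePsi4 D (D.ξ P) * D.ψ P ^ 2 := by ring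
  rw [this, hsq]
  simp only [psi3, prePsi4]
  linear_combination -hs'

lemma dv_eq_Wp : ∀ n : ℕ, n ≤ N + 1 → dv D P (n : ℤ) = Wp D P n := by
  intro n
  induction n using normEDSRec' with
  | zero => intro _; simp [dv, Wp]
  | one => intro _; simp [dv, Wp]
  | two => intro _; simp [dv, Wp]
  | three => intro hn; rw [Wp_three h (by omega)]; simp [dv]
  | four => intro hn; rw [Wp_four h (by omega)]; simp [dv]
  | even m ih =>
    intro hn
    have hP : P ≠ 0 := by simpa using h 1 le_rfl (by omega)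
    have h2P : P + P ≠ 0 := by
      have := h 2 (by omega) (by omega)
      rwa [two_nsmul] at this
    have hψ : D.ψ P ≠ 0 := fun h0 => h2P ((D.ψ_eq_zero_iff P hP).mpr h0)
    have hev := normEDS_even (D.ψ P) (psi3 D (D.ξ P)) (prePsi4 D (D.ξ P)) ((m : ℤ) + 3)
    have c0 : (2 * ((m : ℤ) + 3)) = ((2 * (m + 3) : ℕ) : ℤ) := by push_cast; ring
    have c1 : ((m : ℤ) + 3 - 1) = ((m + 2 : ℕ) : ℤ) := by push_cast; ring
    have c2 : ((m : ℤ) + 3) = ((m + 3 : ℕ) : ℤ) := by push_cast; ring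
    have c3 : ((m : ℤ) + 3 + 2) = ((m + 5 : ℕ) : ℤ) := by push_cast; ring
    have c4 : ((m : ℤ) + 3 - 2) = ((m + 1 : ℕ) : ℤ) := by push_cast; ring
    have c5 : ((m : ℤ) + 3 + 1) = ((m + 4 : ℕ) : ℤ) := by push_cast; ring
    rw [c0, c1, c3, c4, c5, c2] at hev
    have i1 := ih (m + 2) (by omega) (by omega)
    have i2 := ih (m + 3) (by omega) (by omega)
    have i3 := ih (m + 5) (by omega) (by omega)
    have i4 := ih (m + 1) (by omega) (by omega)
    have i5 := ih (m + 4) (by omega) (by omega)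
    simp only [dv] at i1 i2 i3 i4 i5 ⊢
    rw [i1, i2, i3, i4, i5] at hev
    have hW := Wp_even (D := D) h (m + 1) (by omega)
    have e : 2 * (m + 1) + 4 = 2 * (m + 3) := by ring
    rw [e] at hW
    apply mul_right_cancel₀ hψ
    rw [hev, hW]
  | odd m ih =>
    intro hn
    have hod := normEDS_odd (D.ψ P) (psi3 D (D.ξ P)) (prePsi4 D (D.ξ P)) ((m : ℤ) + 2)
    have c0 : (2 * ((m : ℤ) + 2) + 1) = ((2 * (m + 2) + 1 : ℕ) : ℤ) := by push_cast; ring
    have c1 : ((m : ℤ) + 2 + 2) = ((m + 4 : ℕ) : ℤ) := by push_cast; ring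
    have c2 : ((m : ℤ) + 2) = ((m + 2 : ℕ) : ℤ) := by push_cast; ring
    have c3 : ((m : ℤ) + 2 - 1) = ((m + 1 : ℕ) : ℤ) := by push_cast; ring
    have c4 : ((m : ℤ) + 2 + 1) = ((m + 3 : ℕ) : ℤ) := by push_cast; ring
    rw [c0, c1, c3, c4, c2] at hod
    have i1 := ih (m + 4) (by omega) (by omega)
    have i2 := ih (m + 2) (by omega) (by omega)
    have i3 := ih (m + 1) (by omega) (by omega)
    have i4 := ih (m + 3) (by omega) (by omega)
    simp only [dv] at i1 i2 i3 i4 ⊢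
    rw [i1, i2, i3, i4] at hod
    have hW := Wp_odd (D := D) h (m + 1) (by omega)
    have e : 2 * (m + 1) + 3 = 2 * (m + 2) + 1 := by ring
    rw [e] at hW
    rw [hod, hW]

end

theorem dv_rel (P : G) (N : ℕ) (h : ∀ k : ℕ, 1 ≤ k → k ≤ N → k • P ≠ 0) :
    ∀ k : ℕ, 1 ≤ k → k ≤ N → dv D P k ≠ 0 ∧
      (D.ξ P - D.ξ (k • P)) * dv D P k ^ 2 = dv D P (k + 1) * dv D P (k - 1) := by
  intro k h1 hN
  obtain ⟨j, rfl⟩ : ∃ j, k = j + 1 := ⟨k - 1, by omega⟩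
  have e0 := dv_eq_Wp (D := D) h (j + 1) (by omega)
  have e1 := dv_eq_Wp (D := D) h (j + 2) (by omega)
  have e2 := dv_eq_Wp (D := D) h j (by omega)
  have c1 : (((j + 1 : ℕ) : ℤ) + 1) = ((j + 2 : ℕ) : ℤ) := by push_cast; ring
  have c2 : (((j + 1 : ℕ) : ℤ) - 1) = ((j : ℕ) : ℤ) := by push_cast; ring
  rw [c1, c2, e0, e1, e2]
  exact ⟨Wp_ne_zero h _ h1 hN, R1 h hN rfl rfl⟩

/-- a point of exact order `n ≥ 3` is a zero of the `n`-th division polynomial -/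
theorem dv_eq_zero_of_order (P : G) (n : ℕ) (hn : 3 ≤ n)
    (h : ∀ k : ℕ, 1 ≤ k → k < n → k • P ≠ 0) (hn0 : n • P = 0) : dv D P n = 0 := by
  obtain ⟨m, rfl⟩ : ∃ m, n = m + 2 := ⟨n - 2, by omega⟩
  have hr := dv_rel D P (m + 1) (fun k h1 h2 => h k h1 (by omega))
  have h1 := (hr (m + 1) (by omega) le_rfl).2
  have h2 := (hr m (by omega) (by omega)).1
  have e : (m + 1) • P = -P := by
    have : (m + 1) • P + P = 0 := by rw [← succ_nsmul]; exact hn0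
    exact eq_neg_of_add_eq_zero_left this
  rw [e, D.ξ_neg, sub_self, zero_mul] at h1
  have c1 : (((m + 1 : ℕ) : ℤ) + 1) = ((m + 2 : ℕ) : ℤ) := by push_cast; ring
  have c2 : (((m + 1 : ℕ) : ℤ) - 1) = ((m : ℕ) : ℤ) := by push_cast; ring
  rw [c1, c2] at h1
  exact (mul_eq_zero.mp h1.symm).resolve_right h2

/-- a zero of the `n`-th division polynomial is killed by some `1 ≤ k ≤ n` -/
theorem exists_nsmul_eq_zero_of_dv (P : G) (n : ℕ) (hn : 1 ≤ n) (h : dv D P n = 0) :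
    ∃ k : ℕ, 1 ≤ k ∧ k ≤ n ∧ k • P = 0 := by
  by_contra hcon
  push Not at hcon
  exact (dv_rel D P n (fun k h1 h2 => hcon k h1 h2) n hn le_rfl).1 h

end Fermat.Agent.S13
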