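import Mathlib.NumberTheory.EllipticDivisibilitySequence
import Mathlib.Tactic

/-!
# (PRE) `preNormEDS 0 c d n` for odd `n` is `± c ^ j`
-/

set_option autoImplicit false

namespace Fermat.Agent.S13

lemma prenorm_aux {R : Type*} [CommRing R] (c d : R) (n : ℕ) (hn : Odd n) :
    ∃ j : ℕ, preNormEDS' 0 c d n = c ^ j ∨ preNormEDS' 0 c d n = - c ^ j := by
  induction n using Nat.strong_induction_on with
  | _ n ih =>
    obtain ⟨k, rfl⟩ := hn
    rcases k with _ | _ | m
    · exact ⟨0, Or.inl (by simp)⟩
    · exact ⟨1, Or.inl (by simp)⟩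
    · have e : 2 * (m + 1 + 1) + 1 = 2 * (m + 2) + 1 := rfl
      rw [e, preNormEDS'_odd]
      by_cases hm : Even m
      · obtain ⟨j₁, h₁⟩ := ih (m + 1) (by omega) hm.add_one
        obtain ⟨j₂, h₂⟩ := ih (m + 3) (by omega) (by
          have : Odd (m + 1 + 2) := hm.add_one.add_even even_two
          exact this)
        refine ⟨j₁ + 3 * j₂, ?_⟩
        simp only [if_pos hm, mul_zero, mul_one, zero_sub]
        rcases h₁ with h₁ | h₁ <;> rcases h₂ with h₂ | h₂ <;> rw [h₁, h₂]
        · right; ring
        · left; ring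
        · left; ring
        · right; ring
      · have hm' : Odd m := Nat.not_even_iff_odd.mp hm
        obtain ⟨j₁, h₁⟩ := ih (m + 4) (by omega) (hm'.add_even (by decide))
        obtain ⟨j₂, h₂⟩ := ih (m + 2) (by omega) (hm'.add_even even_two)
        refine ⟨j₁ + 3 * j₂, ?_⟩
        simp only [if_neg hm, mul_zero, mul_one, sub_zero]
        rcases h₁ with h₁ | h₁ <;> rcases h₂ with h₂ | h₂ <;> rw [h₁, h₂]
        · left; ring
        · right; ring
        · right; ring
        · left; ring

theorem preNormEDS_zero_odd {R : Type*} [CommRing R] (c d : R) (n : ℕ) (hn : Odd n) :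
    ∃ j : ℕ, preNormEDS 0 c d n = c ^ j ∨ preNormEDS 0 c d n = - c ^ j := by
  simpa only [preNormEDS_ofNat] using prenorm_aux c d n hn

end Fermat.Agent.S13
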