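import Mathlib.RingTheory.Valuation.ValuationSubring
import Mathlib.Algebra.Polynomial.Roots
import Mathlib.Algebra.Polynomial.Splits
import Mathlib.FieldTheory.IsAlgClosed.Basic
import Mathlib.Tactic

/-!
# (ROOT) non-integral roots of a polynomial with integral coefficients
-/

set_option autoImplicit false

namespace Fermat.Agent.S13

open Polynomial

variable {K : Type*} [Field K] (A : ValuationSubring K)

/-- dividing out an integral root -/
theorem coeff_mem_of_mul_X_sub_C {g h : K[X]} {s : K} (hg : ∀ i, g.coeff i ∈ A)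
    (hgh : g = (X - C s) * h) (hs : s ∈ A) : ∀ i, h.coeff i ∈ A := by
  have key : ∀ k i, h.natDegree < i + k → h.coeff i ∈ A := by
    intro k
    induction k with
    | zero =>
      intro i hi
      rw [coeff_eq_zero_of_natDegree_lt (by simpa using hi)]
      exact A.zero_mem
    | succ k ih =>
      intro i hi
      have h1 : g.coeff (i + 1) = h.coeff i - s * h.coeff (i + 1) := by
        rw [hgh, coeff_X_sub_C_mul]
      have h2 : h.coeff i = g.coeff (i + 1) + s * h.coeff (i + 1) := by
        rw [h1]; ring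
      rw [h2]
      exact A.add_mem _ _ (hg _) (A.mul_mem _ _ hs (ih (i + 1) (by omega)))
  intro i
  exact key (h.natDegree + 1) i (by omega)

/-- dividing out a non-integral root:  `g_i = h_{i-1} - s h_i`, so `s h_i = s⁻¹ (s h_{i-1}) - g_i`. -/
theorem coeff_mem_of_mul_X_sub_C' {g h : K[X]} {s : K} (hg : ∀ i, g.coeff i ∈ A)
    (hgh : g = (X - C s) * h) (hs : s ∉ A) : ∀ i, (C s * h).coeff i ∈ A := by
  have hs0 : s ≠ 0 := by rintro rfl; exact hs A.zero_mem
  have hsinv : s⁻¹ ∈ A := (A.mem_or_inv_mem s).resolve_left hs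
  intro i
  rw [coeff_C_mul]
  induction i with
  | zero =>
    have h1 : g.coeff 0 = - (s * h.coeff 0) := by
      rw [hgh, mul_coeff_zero]; simp
    have h2 : s * h.coeff 0 = - g.coeff 0 := by rw [h1]; ring
    rw [h2]
    exact A.neg_mem _ (hg 0)
  | succ i ih =>
    have h1 : g.coeff (i + 1) = h.coeff i - s * h.coeff (i + 1) := by
      rw [hgh, coeff_X_sub_C_mul]
    have h2 : s * h.coeff (i + 1) = s⁻¹ * (s * h.coeff i) - g.coeff (i + 1) := by
      rw [h1]; field_simp; ring
    rw [h2]
    exact A.sub_mem (A.mul_mem _ _ hsinv ih) (hg _)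

/-- (ROOT) if `a ∏_{s ∈ S} (X - s)` has coefficients in `A`, then `a ∏_{s ∈ S, s ∉ A} s ∈ A`. -/
theorem mul_prod_nonintegral_mem [DecidableEq K] (S : Finset K) (a : K)
    (h : ∀ i, (C a * ∏ s ∈ S, (X - C s)).coeff i ∈ A) [DecidablePred (fun s : K => s ∉ A)] :
    a * ∏ s ∈ S.filter (fun s => s ∉ A), s ∈ A := by
  induction S using Finset.induction_on generalizing a with
  | empty =>
    have := h 0
    simpa using this
  | insert s S hsS ih =>
    have e : C a * ∏ t ∈ insert s S, (X - C t) = (X - C s) * (C a * ∏ t ∈ S, (X - C t)) := by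
      rw [Finset.prod_insert hsS]; ring
    by_cases hs : s ∈ A
    · have h' := coeff_mem_of_mul_X_sub_C A h e hs
      have := ih a h'
      rwa [Finset.filter_insert, if_neg (by simpa using hs)]
    · have h' := coeff_mem_of_mul_X_sub_C' A h e hs
      have e2 : C s * (C a * ∏ t ∈ S, (X - C t)) = C (a * s) * ∏ t ∈ S, (X - C t) := by
        rw [C_mul]; ring
      rw [e2] at h'
      have := ih (a * s) h'
      rw [Finset.filter_insert, if_pos hs, Finset.prod_insert (by
        intro hmem; exact hsS (Finset.mem_filter.mp hmem).1)]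
      rwa [← mul_assoc]

/-- a root of a polynomial with coefficients in `A` and unit leading coefficient lies in `A` -/
theorem root_mem_of_leadingCoeff_unit {g : K[X]} (hg : ∀ i, g.coeff i ∈ A)
    (hlc : A.valuation g.leadingCoeff = 1) {s : K} (hs : g.eval s = 0) : s ∈ A := by
  by_contra hsA
  obtain ⟨h, hgh⟩ : (X - C s) ∣ g := dvd_iff_isRoot.mpr hs
  have h' := coeff_mem_of_mul_X_sub_C' A hg hgh hsA h.natDegree
  rw [coeff_C_mul, coeff_natDegree] at h'
  have hl : g.leadingCoeff = h.leadingCoeff := by
    rw [hgh, leadingCoeff_mul, leadingCoeff_X_sub_C, one_mul]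
  rw [← hl, ← A.valuation_le_one_iff, map_mul, hlc, mul_one, A.valuation_le_one_iff] at h'
  exact hsA h'

/-- if all roots of a split polynomial with non-unit leading coefficient are integral then all its values at
integral arguments are non-units -/
theorem exists_root_not_mem [IsAlgClosed K] {g : K[X]} (hlc : g.leadingCoeff ∈ A.nonunits)
    {e : K} (he : e ∈ A) (hge : g.eval e ∉ A.nonunits) : ∃ s, g.eval s = 0 ∧ s ∉ A := by
  by_contra hcon
  push Not at hcon
  apply hge
  rw [(IsAlgClosed.splits g).eval_eq_prod_roots e]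
  have hprod : (g.roots.map (e - ·)).prod ∈ A := by
    apply multiset_prod_mem
    intro c hc
    obtain ⟨s, hs, rfl⟩ := Multiset.mem_map.mp hc
    exact A.sub_mem he (hcon s (isRoot_of_mem_roots hs))
  rw [A.mem_nonunits_iff] at hlc ⊢
  rw [map_mul]
  exact mul_lt_one_of_lt_of_le hlc ((A.valuation_le_one_iff _).mpr hprod)

end Fermat.Agent.S13
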