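import Mathlib
import Fermat.Agent.S05.Curve
import Fermat.Agent.S13.DivPoly
import Fermat.Agent.S13.PreNorm
import Fermat.Agent.S13.RootLemma

/-!
# (DC) division polynomials of Mathlib and torsion points, for Weierstrass curves with `b₆ = 0`
-/
set_option autoImplicit false
set_option linter.unusedSectionVars false

namespace Fermat.Agent.S13

open WeierstrassCurve WeierstrassCurve.Affine Fermat.Agent.S05 Polynomial

variable {K : Type*} [Field K] [DecidableEq K] (W : WeierstrassCurve.Affine K)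

/-- the `XiData` of a curve with `b₆ = 0` w.r.t. the 2-torsion abscissa `0` -/
noncomputable def xi0 (h2 : (2 : K) ≠ 0) (hb6 : W.b₆ = 0) : XiData K W.Point :=
  xiDataOfCurve W h2 0 (W.b₄ / 2) (by rw [hb6]; ring) (by field_simp; ring)

lemma xi0_ξ (h2 : (2 : K) ≠ 0) (hb6 : W.b₆ = 0) (Q : W.Point) : (xi0 W h2 hb6).ξ Q = xc Q := by
  show xc Q - 0 = xc Q
  rw [sub_zero]

lemma xi0_ψ (h2 : (2 : K) ≠ 0) (hb6 : W.b₆ = 0) (Q : W.Point) : (xi0 W h2 hb6).ψ Q = ps Q := rfl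

lemma xi0_B (h2 : (2 : K) ≠ 0) (hb6 : W.b₆ = 0) : (xi0 W h2 hb6).B = W.b₂ := by
  show 12 * 0 + W.b₂ = W.b₂
  ring

lemma xi0_c (h2 : (2 : K) ≠ 0) (hb6 : W.b₆ = 0) : (xi0 W h2 hb6).c = W.b₄ / 2 := rfl

lemma eval_preΨ_eq (x : K) (n : ℤ) : (W.preΨ n).eval x =
    preNormEDS ((W.Ψ₂Sq.eval x) ^ 2) (W.Ψ₃.eval x) (W.preΨ₄.eval x) n := by
  have := map_preNormEDS (evalRingHom x) (W.Ψ₂Sq ^ 2) W.Ψ₃ W.preΨ₄ n
  rw [map_pow] at this
  exact this

theorem dv_eq (h2 : (2 : K) ≠ 0) (hb6 : W.b₆ = 0) (Q : W.Point) (hQ : Q ≠ 0) (n : ℤ) :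
    dv (xi0 W h2 hb6) Q n = (W.preΨ n).eval (xc Q) * (if Even n then ps Q else 1) := by
  have h40 : (4 : K) ≠ 0 := by
    intro h; apply h2
    have h' : (2 : K) * 2 = 0 := by linear_combination h
    exact (mul_self_eq_zero.mp h')
  have hb8 : W.b₈ = - (W.b₄ / 2) ^ 2 := by
    have := W.b_relation
    rw [hb6] at this
    field_simp
    linear_combination this
  rw [eval_preΨ_eq, dv, normEDS, xi0_ψ, xi0_ξ]
  congr 2
  · have := ps_sq hQ
    rw [WeierstrassCurve.Ψ₂Sq]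
    simp only [eval_add, eval_mul, eval_C, eval_pow, eval_X]
    rw [← this]; ring
  · rw [WeierstrassCurve.Ψ₃, psi3, xi0_B, xi0_c]
    simp only [eval_add, eval_mul, eval_C, eval_pow, eval_X, eval_ofNat]
    rw [hb6, hb8]; field_simp; ring
  · rw [WeierstrassCurve.preΨ₄, prePsi4, xi0_B, xi0_c]
    simp only [eval_add, eval_mul, eval_C, eval_pow, eval_X, eval_ofNat]
    rw [hb6, hb8]; field_simp; ring

/-- (DC1) -/
theorem eval_preΨ_of_order (h2 : (2 : K) ≠ 0) (hb6 : W.b₆ = 0) (Q : W.Point) (n : ℕ) (hn : 3 ≤ n)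
    (h : ∀ k : ℕ, 1 ≤ k → k < n → k • Q ≠ 0) (hn0 : n • Q = 0) :
    (W.preΨ n).eval (xc Q) = 0 := by
  have hQ : Q ≠ 0 := by
    have := h 1 le_rfl (by omega)
    rwa [one_smul] at this
  have h0 := dv_eq_zero_of_order (xi0 W h2 hb6) Q n hn h hn0
  rw [dv_eq W h2 hb6 Q hQ] at h0
  rcases mul_eq_zero.mp h0 with h0 | h0
  · exact h0
  · exfalso
    split_ifs at h0 with he
    · have h2Q := h 2 (by omega) (by omega)
      rw [two_smul] at h2Q
      exact h2Q ((add_self_eq_zero_iff hQ).mpr h0)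
    · exact one_ne_zero h0

/-- (DC2) -/
theorem exists_nsmul_eq_zero_of_eval_preΨ (h2 : (2 : K) ≠ 0) (hb6 : W.b₆ = 0) (Q : W.Point)
    (hQ : Q ≠ 0) (n : ℕ) (hn : 1 ≤ n) (h : (W.preΨ n).eval (xc Q) = 0) :
    ∃ k : ℕ, 1 ≤ k ∧ k ≤ n ∧ k • Q = 0 := by
  apply exists_nsmul_eq_zero_of_dv (xi0 W h2 hb6) Q n hn
  rw [dv_eq W h2 hb6 Q hQ, h, zero_mul]

lemma nsmul_ne_zero_of_prime {G : Type*} [AddCommGroup G] {p : ℕ} (hp : p.Prime) {Q : G}
    (hQ : Q ≠ 0) (hpQ : p • Q = 0) : ∀ k : ℕ, 1 ≤ k → k < p → k • Q ≠ 0 := by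
  intro k hk1 hkp hk
  have hcop : Nat.Coprime k p :=
    Nat.Coprime.symm ((Nat.Prime.coprime_iff_not_dvd hp).mpr (Nat.not_dvd_of_pos_of_lt hk1 hkp))
  have h1 : addOrderOf Q ∣ k := addOrderOf_dvd_of_nsmul_eq_zero hk
  have h2 : addOrderOf Q ∣ p := addOrderOf_dvd_of_nsmul_eq_zero hpQ
  have h3 : addOrderOf Q ∣ 1 := by
    have := Nat.dvd_gcd h1 h2
    rwa [hcop] at this
  exact hQ (AddMonoid.addOrderOf_eq_one_iff.mp (Nat.dvd_one.mp h3))

lemma eval_preΨ_of_torsion [CharZero K] (hb6 : W.b₆ = 0) {p : ℕ} (hp : p.Prime) (hp2 : p ≠ 2)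
    {Q : W.Point} (hQ : Q ≠ 0) (hpQ : p • Q = 0) : (W.preΨ p).eval (xc Q) = 0 :=
  eval_preΨ_of_order W two_ne_zero hb6 Q p (by have := hp.two_le; omega)
    (nsmul_ne_zero_of_prime hp hQ hpQ) hpQ

lemma card_le_two_mul_card_image_xc (s : Finset W.Point) (hs : ∀ Q ∈ s, Q ≠ 0) :
    s.card ≤ 2 * (s.image xc).card := by
  classical
  apply Finset.card_le_mul_card_image
  intro b hb
  obtain ⟨Q₀, hQ₀, rfl⟩ := Finset.mem_image.mp hb
  have hsub : s.filter (fun a => xc a = xc Q₀) ⊆ {Q₀, -Q₀} := by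
    intro Q hQ
    rw [Finset.mem_filter] at hQ
    rcases eq_or_eq_neg_of_xc_eq (hs Q hQ.1) (hs Q₀ hQ₀) hQ.2 with h | h
    · simp [h]
    · simp [h]
  exact (Finset.card_le_card hsub).trans Finset.card_le_two

lemma natDegree_preΨ_prime [CharZero K] {p : ℕ} (hp : p.Prime) (hp2 : p ≠ 2) :
    (W.preΨ p).natDegree = (p ^ 2 - 1) / 2 := by
  have hodd : ¬ Even (p : ℤ) := by
    rw [Int.even_coe_nat, Nat.not_even_iff_odd]
    exact hp.odd_of_ne_two hp2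
  have h0 : (((p : ℤ) : K)) ≠ 0 := by
    rw [Int.cast_natCast]; exact Nat.cast_ne_zero.mpr hp.ne_zero
  rw [WeierstrassCurve.natDegree_preΨ W h0, if_neg hodd, Int.natAbs_natCast]

lemma leadingCoeff_preΨ_prime [CharZero K] {p : ℕ} (hp : p.Prime) (hp2 : p ≠ 2) :
    (W.preΨ p).leadingCoeff = (p : K) := by
  have hodd : ¬ Even (p : ℤ) := by
    rw [Int.even_coe_nat, Nat.not_even_iff_odd]
    exact hp.odd_of_ne_two hp2
  have h0 : (((p : ℤ) : K)) ≠ 0 := by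
    rw [Int.cast_natCast]; exact Nat.cast_ne_zero.mpr hp.ne_zero
  rw [WeierstrassCurve.leadingCoeff_preΨ W h0, if_neg hodd, Int.cast_natCast]

lemma preΨ_prime_ne_zero [CharZero K] {p : ℕ} (hp : p.Prime) : W.preΨ p ≠ 0 := by
  have h0 : (((p : ℤ) : K)) ≠ 0 := by
    rw [Int.cast_natCast]; exact Nat.cast_ne_zero.mpr hp.ne_zero
  exact WeierstrassCurve.preΨ_ne_zero W h0

lemma two_mul_half_sq {p : ℕ} (hp : p.Prime) (hp2 : p ≠ 2) : 2 * ((p ^ 2 - 1) / 2) + 1 = p ^ 2 := by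
  obtain ⟨k, rfl⟩ := hp.odd_of_ne_two hp2
  have : (2 * k + 1) ^ 2 - 1 = 2 * (2 * k ^ 2 + 2 * k) := by
    have : (2 * k + 1) ^ 2 = 2 * (2 * k ^ 2 + 2 * k) + 1 := by ring
    omega
  rw [this, Nat.mul_div_cancel_left _ (by norm_num)]
  ring

/-- (DC3) -/
theorem card_torsion_le [CharZero K] (hb6 : W.b₆ = 0) {p : ℕ} (hp : p.Prime) (hp2 : p ≠ 2) :
    {Q : W.Point | p • Q = 0}.Finite ∧ {Q : W.Point | p • Q = 0}.ncard ≤ p ^ 2 := by
  classical
  set R : Finset K := (W.preΨ p).roots.toFinset with hR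
  have hmemR : ∀ Q : W.Point, Q ≠ 0 → p • Q = 0 → xc Q ∈ R := by
    intro Q hQ hpQ
    rw [hR, Multiset.mem_toFinset, mem_roots (preΨ_prime_ne_zero W hp)]
    exact eval_preΨ_of_torsion W hb6 hp hp2 hQ hpQ
  have hfin : {Q : W.Point | p • Q = 0}.Finite := by
    have hsub : {Q : W.Point | p • Q = 0} ⊆
        {0} ∪ ⋃ x ∈ R, {Q : W.Point | Q ≠ 0 ∧ xc Q = x} := by
      intro Q hQ
      by_cases h0 : Q = 0
      · left; exact h0
      · right
        simp only [Set.mem_iUnion]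
        exact ⟨xc Q, hmemR Q h0 hQ, h0, rfl⟩
    refine Set.Finite.subset ?_ hsub
    refine (Set.finite_singleton _).union (Set.Finite.biUnion R.finite_toSet ?_)
    intro x _
    by_cases hex : ∃ Q₀ : W.Point, Q₀ ≠ 0 ∧ xc Q₀ = x
    · obtain ⟨Q₀, hQ₀, hx⟩ := hex
      refine Set.Finite.subset (Set.toFinite {Q₀, -Q₀}) ?_
      rintro Q ⟨hQ, hQx⟩
      rcases eq_or_eq_neg_of_xc_eq hQ hQ₀ (hQx.trans hx.symm) with h | h
      · simp [h]
      · simp [h]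
    · refine Set.Finite.subset Set.finite_empty ?_
      rintro Q ⟨hQ, hQx⟩
      exact hex ⟨Q, hQ, hQx⟩
  refine ⟨hfin, ?_⟩
  rw [Set.ncard_eq_toFinset_card _ hfin]
  set Tf := hfin.toFinset with hTf
  have h0mem : (0 : W.Point) ∈ Tf := by simp [hTf]
  have hcard : Tf.card = (Tf.erase 0).card + 1 := by
    rw [Finset.card_erase_of_mem h0mem]
    have : 0 < Tf.card := Finset.card_pos.mpr ⟨0, h0mem⟩
    omega
  have h1 := card_le_two_mul_card_image_xc W (Tf.erase 0) (fun Q hQ => (Finset.mem_erase.mp hQ).1)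
  have h2 : ((Tf.erase 0).image xc).card ≤ (p ^ 2 - 1) / 2 := by
    calc ((Tf.erase 0).image xc).card ≤ R.card := by
          apply Finset.card_le_card
          intro x hx
          obtain ⟨Q, hQ, rfl⟩ := Finset.mem_image.mp hx
          rw [Finset.mem_erase] at hQ
          exact hmemR Q hQ.1 (by simpa [hTf] using hQ.2)
      _ ≤ Multiset.card (W.preΨ p).roots := Multiset.toFinset_card_le _
      _ ≤ (W.preΨ p).natDegree := card_roots' _
      _ = (p ^ 2 - 1) / 2 := natDegree_preΨ_prime W hp hp2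
  have h3 := two_mul_half_sq hp hp2
  omega

/-- (DC3') if `#W[p] = p²` then `preΨ_p = p ∏_{s ∈ x(W[p] ∖ 0)} (X - s)`. -/
theorem preΨ_eq_prod [CharZero K] (hb6 : W.b₆ = 0) {p : ℕ} (hp : p.Prime) (hp2 : p ≠ 2)
    (hcard : {Q : W.Point | p • Q = 0}.ncard = p ^ 2) (S : Finset K)
    (hS : ∀ s, s ∈ S ↔ ∃ Q : W.Point, Q ≠ 0 ∧ p • Q = 0 ∧ xc Q = s) :
    W.preΨ p = C (p : K) * ∏ s ∈ S, (X - C s) := by
  classical
  obtain ⟨hfin, -⟩ := card_torsion_le W hb6 hp hp2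
  rw [Set.ncard_eq_toFinset_card _ hfin] at hcard
  set Tf := hfin.toFinset with hTf
  have h0mem : (0 : W.Point) ∈ Tf := by simp [hTf]
  have hSimg : S = (Tf.erase 0).image xc := by
    ext s
    rw [hS, Finset.mem_image]
    constructor
    · rintro ⟨Q, hQ, hpQ, rfl⟩
      exact ⟨Q, Finset.mem_erase.mpr ⟨hQ, by simpa [hTf] using hpQ⟩, rfl⟩
    · rintro ⟨Q, hQ, rfl⟩
      rw [Finset.mem_erase] at hQ
      exact ⟨Q, hQ.1, by simpa [hTf] using hQ.2, rfl⟩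
  have h1 := card_le_two_mul_card_image_xc W (Tf.erase 0) (fun Q hQ => (Finset.mem_erase.mp hQ).1)
  rw [← hSimg, Finset.card_erase_of_mem h0mem, hcard] at h1
  have h3 := two_mul_half_sq hp hp2
  have hcardS : (p ^ 2 - 1) / 2 ≤ S.card := by omega
  have hle : S.val ≤ (W.preΨ p).roots := by
    rw [Multiset.le_iff_subset S.nodup]
    intro s hs
    obtain ⟨Q, hQ, hpQ, rfl⟩ := (hS s).mp hs
    rw [mem_roots (preΨ_prime_ne_zero W hp)]
    exact eval_preΨ_of_torsion W hb6 hp hp2 hQ hpQ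
  have hdeg := natDegree_preΨ_prime W hp hp2
  have hroots : S.val = (W.preΨ p).roots := by
    apply Multiset.eq_of_le_of_card_le hle
    calc Multiset.card (W.preΨ p).roots ≤ (W.preΨ p).natDegree := card_roots' _
      _ = (p ^ 2 - 1) / 2 := hdeg
      _ ≤ S.card := hcardS
  have hcr : Multiset.card (W.preΨ p).roots = (W.preΨ p).natDegree := by
    apply le_antisymm (card_roots' _)
    rw [← hroots, hdeg]
    exact hcardS
  have := C_leadingCoeff_mul_prod_multiset_X_sub_C hcr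
  rw [leadingCoeff_preΨ_prime W hp hp2, ← hroots] at this
  rw [← this]
  rfl

/-- (DC4) integrality of the coefficients: `W` is the base change of a curve over `A`, `map_preΨ`. -/
theorem coeff_preΨ_mem (A : ValuationSubring K) (h₁ : W.a₁ ∈ A) (h₂ : W.a₂ ∈ A) (h₃ : W.a₃ ∈ A)
    (h₄ : W.a₄ ∈ A) (h₆ : W.a₆ ∈ A) (n : ℤ) (i : ℕ) : (W.preΨ n).coeff i ∈ A := by
  let W' : WeierstrassCurve A := ⟨⟨W.a₁, h₁⟩, ⟨W.a₂, h₂⟩, ⟨W.a₃, h₃⟩, ⟨W.a₄, h₄⟩, ⟨W.a₆, h₆⟩⟩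
  have hW : W'.map A.subtype = W := by
    ext <;> rfl
  have := WeierstrassCurve.map_preΨ W' A.subtype n
  rw [hW] at this
  rw [this, coeff_map]
  exact ((W'.preΨ n).coeff i).2

theorem coeff_Ψ₂Sq_mem (A : ValuationSubring K) (h₁ : W.a₁ ∈ A) (h₂ : W.a₂ ∈ A) (h₃ : W.a₃ ∈ A)
    (h₄ : W.a₄ ∈ A) (h₆ : W.a₆ ∈ A) (i : ℕ) : (W.Ψ₂Sq).coeff i ∈ A := by
  let W' : WeierstrassCurve A := ⟨⟨W.a₁, h₁⟩, ⟨W.a₂, h₂⟩, ⟨W.a₃, h₃⟩, ⟨W.a₄, h₄⟩, ⟨W.a₆, h₆⟩⟩
  have hW : W'.map A.subtype = W := by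
    ext <;> rfl
  have := WeierstrassCurve.map_Ψ₂Sq W' A.subtype
  rw [hW] at this
  rw [this, coeff_map]
  exact ((W'.Ψ₂Sq).coeff i).2

/-- (DC5) a torsion point of order `n` with `n` a unit of `A` (more precisely all `0 < k ≤ n` units) has integral `x`. -/
theorem xc_mem_of_order [CharZero K] (hb6 : W.b₆ = 0) (A : ValuationSubring K) (h₁ : W.a₁ ∈ A)
    (h₂ : W.a₂ ∈ A) (h₃ : W.a₃ ∈ A) (h₄ : W.a₄ ∈ A) (h₆ : W.a₆ ∈ A) (Q : W.Point) (n : ℕ) (hn : 2 ≤ n)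
    (hunit : ∀ k : ℕ, 1 ≤ k → k ≤ n → A.valuation (k : K) = 1) (h4 : A.valuation (4 : K) = 1)
    (h : ∀ k : ℕ, 1 ≤ k → k < n → k • Q ≠ 0) (hn0 : n • Q = 0) : xc Q ∈ A := by
  have hQ : Q ≠ 0 := by
    have := h 1 le_rfl (by omega)
    rwa [one_smul] at this
  rcases Nat.lt_or_ge n 3 with hn3 | hn3
  · have hn2 : n = 2 := by omega
    subst hn2
    rw [two_smul] at hn0
    have hps := (add_self_eq_zero_iff hQ).mp hn0
    have hsq := ps_sq hQ
    rw [hps] at hsq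
    apply root_mem_of_leadingCoeff_unit A (g := W.Ψ₂Sq) (coeff_Ψ₂Sq_mem W A h₁ h₂ h₃ h₄ h₆)
    · rw [WeierstrassCurve.leadingCoeff_Ψ₂Sq W (by norm_num)]
      exact h4
    · rw [WeierstrassCurve.Ψ₂Sq]
      simp only [eval_add, eval_mul, eval_C, eval_pow, eval_X]
      rw [← hsq]; ring
  · apply root_mem_of_leadingCoeff_unit A (g := W.preΨ n) (coeff_preΨ_mem W A h₁ h₂ h₃ h₄ h₆ n)
    · have h0 : (((n : ℤ) : K)) ≠ 0 := by
        rw [Int.cast_natCast]; exact Nat.cast_ne_zero.mpr (by omega)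
      rw [WeierstrassCurve.leadingCoeff_preΨ W h0]
      split_ifs with he
      · have : ((n : ℤ) / 2) = ((n / 2 : ℕ) : ℤ) := by norm_cast
        rw [this, Int.cast_natCast]
        exact hunit (n / 2) (by omega) (by omega)
      · rw [Int.cast_natCast]
        exact hunit n (by omega) le_rfl
    · exact eval_preΨ_of_order W two_ne_zero hb6 Q n hn3 h hn0

/-- over an algebraically closed field every abscissa carries a point -/
lemma exists_point_of_xc [IsAlgClosed K] (h2 : (2 : K) ≠ 0) (hΔ : W.Δ ≠ 0) (s : K) :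
    ∃ Q : W.Point, Q ≠ 0 ∧ xc Q = s := by
  obtain ⟨d, hd⟩ := IsAlgClosed.exists_eq_mul_self
    (4 * s ^ 3 + W.b₂ * s ^ 2 + 2 * W.b₄ * s + W.b₆)
  have h40 : (4 : K) ≠ 0 := by
    intro h; apply h2
    have h' : (2 : K) * 2 = 0 := by linear_combination h
    exact (mul_self_eq_zero.mp h')
  obtain ⟨y, hy⟩ : ∃ y : K, 2 * y + W.a₁ * s + W.a₃ = d :=
    ⟨(d - (W.a₁ * s + W.a₃)) / 2, by field_simp; ring⟩
  have heq : W.Equation s y := by
    rw [equation_iff]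
    simp only [WeierstrassCurve.b₂, WeierstrassCurve.b₄, WeierstrassCurve.b₆] at hd
    apply mul_left_cancel₀ h40
    rw [← hy] at hd
    linear_combination -hd
  exact ⟨Point.some s y ((W.equation_iff_nonsingular_of_Δ_ne_zero hΔ).mp heq),
    Point.some_ne_zero _, rfl⟩

theorem exists_point_of_order [CharZero K] [IsAlgClosed K] (hΔ : W.Δ ≠ 0) (hb6 : W.b₆ = 0)
    (A : ValuationSubring K) (h₁ : W.a₁ ∈ A)
    (h₂ : W.a₂ ∈ A) (h₃ : W.a₃ ∈ A) (h₄ : W.a₄ ∈ A) (h₆ : W.a₆ ∈ A)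
    {p : ℕ} (hp : p.Prime) (hp2 : p ≠ 2) (hpA : (p : K) ∈ A.nonunits)
    (hunit : ∀ k : ℕ, 1 ≤ k → k < p → A.valuation (k : K) = 1)
    (e : K) (heA : e ∈ A) (he : W.Ψ₂Sq.eval e = 0) (he3 : A.valuation (W.Ψ₃.eval e) = 1) :
    ∃ Q : W.Point, Q ≠ 0 ∧ p • Q = 0 := by
  have hp3 : 3 ≤ p := by have := hp.two_le; omega
  have hval : A.valuation ((W.preΨ p).eval e) = 1 := by
    rw [eval_preΨ_eq, he]
    obtain ⟨j, hj | hj⟩ := preNormEDS_zero_odd (W.Ψ₃.eval e) (W.preΨ₄.eval e) p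
      (hp.odd_of_ne_two hp2)
    · rw [zero_pow two_ne_zero, hj, map_pow, he3, one_pow]
    · rw [zero_pow two_ne_zero, hj, Valuation.map_neg, map_pow, he3, one_pow]
  obtain ⟨s, hs0, hsA⟩ := exists_root_not_mem A (g := W.preΨ p)
    (by rw [leadingCoeff_preΨ_prime W hp hp2]; exact hpA) heA
    (by rw [ValuationSubring.mem_nonunits_iff, hval]; exact lt_irrefl _)
  obtain ⟨Q, hQ, hxQ⟩ := exists_point_of_xc W two_ne_zero hΔ s
  refine ⟨Q, hQ, ?_⟩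
  obtain ⟨k, hk1, hkp, hk⟩ := exists_nsmul_eq_zero_of_eval_preΨ W two_ne_zero hb6 Q hQ p
    (by omega) (by rw [hxQ]; exact hs0)
  have hdvd : addOrderOf Q ∣ k := addOrderOf_dvd_of_nsmul_eq_zero hk
  have hle : addOrderOf Q ≤ k := Nat.le_of_dvd (by omega) hdvd
  have hpos : 0 < addOrderOf Q := Nat.pos_of_dvd_of_pos hdvd (by omega)
  have hne1 : addOrderOf Q ≠ 1 := fun h => hQ (AddMonoid.addOrderOf_eq_one_iff.mp h)
  rcases Nat.lt_or_ge (addOrderOf Q) p with hlt | hge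
  · exfalso
    apply hsA
    rw [← hxQ]
    apply xc_mem_of_order W hb6 A h₁ h₂ h₃ h₄ h₆ Q (addOrderOf Q) (by omega)
      (fun k hk1 hk2 => hunit k hk1 (by omega))
    · have h2v := hunit 2 (by omega) (by omega)
      have : (4 : K) = ((2 : ℕ) : K) * ((2 : ℕ) : K) := by norm_num
      rw [this, map_mul, h2v, one_mul]
    · intro k hk1 hk2
      exact nsmul_ne_zero_of_lt_addOrderOf (by omega) hk2
    · exact addOrderOf_nsmul_eq_zero Q
  · have : addOrderOf Q = p := by omega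
    rw [← this]
    exact addOrderOf_nsmul_eq_zero Q

end Fermat.Agent.S13
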