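import Fermat.Agent.S13.Iface

/-!
# (IV) elements of the decomposition group preserve the valuation; rational numbers in `A`
-/

set_option autoImplicit false

namespace Fermat.Agent.S13

open Fermat.Agent.S05

open scoped Pointwise in
/-- elements of the inertia group stabilise `A` -/
lemma iv_mem_iff (A : ValuationSubring Kb) {σ : GalQ} (hσ : σ ∈ A.inertiaSubgroupIn ℚ)
    (z : Kb) : σ z ∈ A ↔ z ∈ A := by
  obtain ⟨g, -, rfl⟩ := Subgroup.mem_map.mp hσ
  have hg : (g : GalQ) • A = A := g.2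
  have h := ValuationSubring.smul_mem_pointwise_smul_iff (g := (g : GalQ)) (S := A) (x := z)
  rw [hg] at h
  exact h

lemma iv_nonunits_iff (A : ValuationSubring Kb) {σ : GalQ} (hσ : σ ∈ A.inertiaSubgroupIn ℚ)
    (z : Kb) : σ z ∈ A.nonunits ↔ z ∈ A.nonunits := by
  rw [A.mem_nonunits_iff_or, A.mem_nonunits_iff_or, ← map_inv₀, iv_mem_iff A hσ, map_eq_zero]

lemma iv_lt (A : ValuationSubring Kb) {σ : GalQ} (hσ : σ ∈ A.inertiaSubgroupIn ℚ)
    {x y : Kb} (h : A.valuation x < A.valuation y) : A.valuation (σ x) < A.valuation (σ y) := by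
  have hy : y ≠ 0 := by
    rintro rfl
    rw [map_zero] at h
    exact not_lt_zero h
  have hσy : σ y ≠ 0 := by rwa [ne_eq, map_eq_zero]
  have hvy : 0 < A.valuation y := by rw [zero_lt_iff, ne_eq, map_eq_zero]; exact hy
  have hvσy : 0 < A.valuation (σ y) := by rw [zero_lt_iff, ne_eq, map_eq_zero]; exact hσy
  have h1 : x / y ∈ A.nonunits := by
    rw [A.mem_nonunits_iff, map_div₀]
    exact (div_lt_one₀ hvy).mpr h
  have h2 : σ (x / y) ∈ A.nonunits := (iv_nonunits_iff A hσ _).mpr h1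
  rw [map_div₀, A.mem_nonunits_iff, map_div₀] at h2
  exact (div_lt_one₀ hvσy).mp h2

lemma iv_isIntegral [alg : Algebra ℚ (AlgebraicClosure ℚ)] (z : AlgebraicClosure ℚ) :
    IsIntegral ℚ z := by
  obtain rfl : alg = AlgebraicClosure.instAlgebra ℚ := Subsingleton.elim _ _
  exact (Algebra.IsAlgebraic.isAlgebraic z).isIntegral

/-- every element of `ℚ̄` has a finite orbit under `σ` -/
lemma iv_exists_pow_fix (σ : GalQ) (z : Kb) : ∃ n : ℕ, 0 < n ∧ (σ ^ n) z = z := by
  have hz : IsIntegral ℚ z := iv_isIntegral z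
  have hfin : ((minpoly ℚ z).rootSet Kb).Finite := Polynomial.rootSet_finite _ _
  have hmem : ∀ k : ℕ, (σ ^ k) z ∈ (minpoly ℚ z).rootSet Kb := by
    intro k
    rw [Polynomial.mem_rootSet]
    refine ⟨minpoly.ne_zero hz, ?_⟩
    have := Polynomial.aeval_algHom_apply ((σ ^ k : GalQ) : Kb →ₐ[ℚ] Kb) z (minpoly ℚ z)
    rw [minpoly.aeval, map_zero] at this
    exact this
  have : Finite ((minpoly ℚ z).rootSet Kb) := hfin
  obtain ⟨i, j, hij, he⟩ := Finite.exists_ne_map_eq_of_infinite
    (fun k : ℕ => (⟨(σ ^ k) z, hmem k⟩ : (minpoly ℚ z).rootSet Kb))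
  have he' : (σ ^ i) z = (σ ^ j) z := congrArg Subtype.val he
  have key : ∀ i j : ℕ, i < j → (σ ^ i) z = (σ ^ j) z → ∃ n : ℕ, 0 < n ∧ (σ ^ n) z = z := by
    intro i j hlt h
    refine ⟨j - i, by omega, ?_⟩
    have hj : j = i + (j - i) := by omega
    rw [hj, pow_add, AlgEquiv.mul_apply] at h
    exact ((σ ^ i).injective h).symm
  rcases lt_or_gt_of_ne hij with h | h
  · exact key i j h he'
  · exact key j i h he'.symm

theorem valuation_inertia_eq (A : ValuationSubring Kb) {σ : GalQ} (hσ : σ ∈ A.inertiaSubgroupIn ℚ)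
    (z : Kb) : A.valuation (σ z) = A.valuation z := by
  obtain ⟨n, hn, hfix⟩ := iv_exists_pow_fix σ z
  have hsucc : ∀ k : ℕ, (σ ^ (k + 1)) z = σ ((σ ^ k) z) := by
    intro k
    rw [pow_succ', AlgEquiv.mul_apply]
  rcases lt_trichotomy (A.valuation (σ z)) (A.valuation z) with h | h | h
  · exfalso
    have hanti : StrictAnti (fun k : ℕ => A.valuation ((σ ^ k) z)) := by
      apply strictAnti_nat_of_succ_lt
      intro k
      induction k with
      | zero => simpa using h
      | succ k ih =>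
        rw [hsucc (k + 1), hsucc k]
        rw [hsucc k] at ih
        exact iv_lt A hσ ih
    have := hanti hn
    simp only [hfix, pow_zero, AlgEquiv.one_apply, lt_self_iff_false] at this
  · exact h
  · exfalso
    have hmono : StrictMono (fun k : ℕ => A.valuation ((σ ^ k) z)) := by
      apply strictMono_nat_of_lt_succ
      intro k
      induction k with
      | zero => simpa using h
      | succ k ih =>
        rw [hsucc (k + 1), hsucc k]
        rw [hsucc k] at ih
        exact iv_lt A hσ ih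
    have := hmono hn
    simp only [hfix, pow_zero, AlgEquiv.one_apply, lt_self_iff_false] at this

lemma iv_val_intCast_eq_one (A : ValuationSubring Kb) {q : ℕ} (hq : q.Prime)
    (hA : A.LiesOverPrime q) {n : ℤ} (hn : ¬ (q : ℤ) ∣ n) : A.valuation (n : Kb) = 1 := by
  rw [val_eq_one_iff]
  exact ⟨intCast_mem A n, fun h => hn ((intCast_mem_nonunits_iff A hq hA n).mp h)⟩

lemma iv_ratCast_eq (r : ℚ) : (r : Kb) = (r.num : Kb) / ((r.den : ℤ) : Kb) := by
  conv_lhs => rw [← Rat.num_div_den r]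
  push_cast
  rfl

lemma iv_not_dvd_num {q : ℕ} (hq : q.Prime) {r : ℚ} (h : q ∣ r.den) : ¬ (q : ℤ) ∣ r.num := by
  intro hnum
  have h1 : q ∣ r.num.natAbs := Int.natCast_dvd.mp hnum
  have h2 := Nat.dvd_gcd h1 h
  rw [r.reduced] at h2
  exact hq.one_lt.ne' (Nat.dvd_one.mp h2)

/-- a rational number lies in `A` iff its denominator is prime to the residue characteristic -/
theorem ratCast_mem_iff (A : ValuationSubring Kb) {q : ℕ} (hq : q.Prime) (hA : A.LiesOverPrime q)
    (r : ℚ) : (r : Kb) ∈ A ↔ ¬ q ∣ r.den := by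
  constructor
  · intro hr hd
    have hnum := iv_val_intCast_eq_one A hq hA (iv_not_dvd_num hq hd)
    have hden : ((r.den : ℤ) : Kb) ∈ A.nonunits :=
      (intCast_mem_nonunits_iff A hq hA _).mpr (by exact_mod_cast hd)
    have hden0 : ((r.den : ℤ) : Kb) ≠ 0 := by exact_mod_cast r.den_nz
    apply not_nonunits_of_val_eq_one A hnum
    have : (r.num : Kb) = ((r.den : ℤ) : Kb) * (r : Kb) := by
      rw [iv_ratCast_eq r]; field_simp
    rw [this]
    exact nonunits_mul_mem A hden hr
  · intro hd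
    have hden := iv_val_intCast_eq_one A hq hA (n := (r.den : ℤ)) (by exact_mod_cast hd)
    rw [iv_ratCast_eq r, div_eq_mul_inv]
    exact mul_mem (intCast_mem A _) (inv_mem_of_val_eq_one A hden)

/-- `v(r) ≤ v(q)⁻¹`-type statement: a non-integral rational `r` has `(q r)⁻¹ ∈ A` -/
theorem inv_mul_ratCast_mem (A : ValuationSubring Kb) {q : ℕ} (hq : q.Prime)
    (hA : A.LiesOverPrime q) {r : ℚ} (hr : (r : Kb) ∉ A) : ((q : Kb) * (r : Kb))⁻¹ ∈ A := by
  have hd : q ∣ r.den := by
    by_contra h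
    exact hr ((ratCast_mem_iff A hq hA r).mpr h)
  have hnum := iv_val_intCast_eq_one A hq hA (iv_not_dvd_num hq hd)
  obtain ⟨d, hd'⟩ := hd
  have hq0 : (q : Kb) ≠ 0 := by exact_mod_cast hq.ne_zero
  have hd0 : (d : Kb) ≠ 0 := by
    have := r.den_nz
    rw [hd'] at this
    exact_mod_cast (right_ne_zero_of_mul this)
  have hn0 : (r.num : Kb) ≠ 0 := val_ne_zero_of_eq_one A hnum
  have : ((q : Kb) * (r : Kb))⁻¹ = (d : Kb) * (r.num : Kb)⁻¹ := by
    rw [iv_ratCast_eq r, hd']
    push_cast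
    field_simp
  rw [this]
  exact mul_mem (natCast_mem A d) (inv_mem_of_val_eq_one A hnum)

end Fermat.Agent.S13
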