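import Fermat.Agent.S05.XiData
import Fermat.Agent.S05.Val

/-!
# (EONE) the kernel of reduction `E₁ = {0} ∪ {ξ ∉ A}` is a subgroup
-/

set_option autoImplicit false

namespace Fermat.Agent.S13

open Fermat.Agent.S05

universe u v

variable {K : Type u} [Field K] {G : Type v} [AddCommGroup G] (D : XiData K G)
  (A : ValuationSubring K)

lemma eone_inv_mem_nonunits {x : K} (hx : x ∉ A) : x⁻¹ ∈ A.nonunits := by
  rw [A.mem_nonunits_iff, map_inv₀]
  rw [← A.valuation_le_one_iff, not_le] at hx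
  exact inv_lt_one_of_one_lt₀ hx

lemma eone_ne_zero {x : K} (hx : x ∉ A) : x ≠ 0 := by
  rintro rfl; exact hx A.zero_mem

lemma eone_add_nonunits {x y : K} (hx : x ∈ A.nonunits) (hy : y ∈ A.nonunits) :
    x + y ∈ A.nonunits := by
  rw [A.mem_nonunits_iff] at hx hy ⊢
  exact lt_of_le_of_lt (A.valuation.map_add x y) (max_lt hx hy)

lemma eone_dbl (hB : D.B ∈ A) (hc : D.c ∈ A) {P : G} (hP0 : P ≠ 0)
    (hP : D.ξ P ∉ A) (h2 : P + P ≠ 0) : D.ξ (P + P) ∉ A := by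
  intro hmem
  have hx0 := eone_ne_zero A hP
  have hωm := eone_inv_mem_nonunits A hP
  have h1 := D.dbl_formula P hP0 h2
  rw [D.ψ_sq P hP0] at h1
  obtain ⟨ω, hωdef⟩ : ∃ ω, ω = (D.ξ P)⁻¹ := ⟨_, rfl⟩
  rw [← hωdef] at hωm
  have hω := mem_of_nonunits A hωm
  have hxω : D.ξ P * ω = 1 := by rw [hωdef]; exact mul_inv_cancel₀ hx0
  have key : D.ξ (P + P) * (ω * (4 + D.B * ω + 4 * D.c * ω ^ 2)) = (1 - ω * (D.c * ω)) ^ 2 := by
    have e1 : D.ξ (P + P) * (ω * (4 + D.B * ω + 4 * D.c * ω ^ 2)) =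
        D.ξ (P + P) * (4 * D.ξ P ^ 3 + D.B * D.ξ P ^ 2 + 4 * D.c * D.ξ P) * ω ^ 4 := by
      linear_combination (-(D.ξ (P + P)) * (4 * ω * (1 + D.ξ P * ω + (D.ξ P * ω) ^ 2)
        + D.B * ω ^ 2 * (1 + D.ξ P * ω) + 4 * D.c * ω ^ 3)) * hxω
    rw [e1, h1]
    linear_combination (ω ^ 2 * (D.ξ P ^ 2 - D.c) + (1 - D.c * ω ^ 2)) * (D.ξ P * ω + 1) * hxω
  have hL : D.ξ (P + P) * (ω * (4 + D.B * ω + 4 * D.c * ω ^ 2)) ∈ A.nonunits :=
    mem_mul_nonunits A hmem (nonunits_mul_mem A hωm (by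
      apply_rules [add_mem, mul_mem, sub_mem, pow_mem, one_mem, ofNat_mem, natCast_mem, neg_mem]))
  rw [key] at hL
  have := nonunits_of_pow A hL
  exact not_nonunits_of_val_eq_one A (val_one_sub A (nonunits_mul_mem A hωm (by
      apply_rules [add_mem, mul_mem, sub_mem, pow_mem, one_mem, ofNat_mem, natCast_mem, neg_mem]))) this

lemma eone_add_generic (hB : D.B ∈ A) (hc : D.c ∈ A) {P Q : G} (hP0 : P ≠ 0) (hQ0 : Q ≠ 0)
    (hP : D.ξ P ∉ A) (hQ : D.ξ Q ∉ A) (hne : D.ξ P ≠ D.ξ Q) :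
    D.ξ (P + Q) ∉ A := by
  intro hmem
  have hx0 := eone_ne_zero A hP
  have hy0 := eone_ne_zero A hQ
  have hωm := eone_inv_mem_nonunits A hP
  have hηm := eone_inv_mem_nonunits A hQ
  have h1 := D.sum_formula hP0 hQ0 hne
  have h2 := D.prod_formula hP0 hQ0 hne
  obtain ⟨ω, hωdef⟩ : ∃ ω, ω = (D.ξ P)⁻¹ := ⟨_, rfl⟩
  obtain ⟨η, hηdef⟩ : ∃ η, η = (D.ξ Q)⁻¹ := ⟨_, rfl⟩
  rw [← hωdef] at hωm
  rw [← hηdef] at hηm
  have hω := mem_of_nonunits A hωm
  have hη := mem_of_nonunits A hηm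
  have hx : D.ξ P = ω⁻¹ := by rw [hωdef, inv_inv]
  have hy : D.ξ Q = η⁻¹ := by rw [hηdef, inv_inv]
  have hω0 : ω ≠ 0 := by rw [hωdef]; exact inv_ne_zero hx0
  have hη0 : η ≠ 0 := by rw [hηdef]; exact inv_ne_zero hy0
  obtain ⟨z, hz⟩ : ∃ z, z = D.ξ (P + Q) := ⟨_, rfl⟩
  obtain ⟨z', hz'⟩ : ∃ z', z' = D.ξ (P - Q) := ⟨_, rfl⟩
  rw [← hz] at hmem h1 h2
  rw [← hz'] at h1 h2
  rw [hx, hy] at h1 h2
  have key : (1 - ω * (D.c * η)) ^ 2 =
      z * ((ω * (2 * (1 + D.c * ω * η) + D.B * η - (ω - 2 * η) * z)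
        + η * (2 * (1 + D.c * ω * η) - η * z))) := by
    have h1' : (z + z') * (η - ω) ^ 2 = 2 * (ω + η) * (1 + D.c * ω * η) + D.B * ω * η := by
      field_simp at h1
      linear_combination h1
    have h2' : (z * z') * (η - ω) ^ 2 = (1 - D.c * ω * η) ^ 2 := by
      field_simp at h2
      linear_combination h2
    linear_combination (-1 : K) * h2' + z * h1'
  have hL : z * ((ω * (2 * (1 + D.c * ω * η) + D.B * η - (ω - 2 * η) * z)
        + η * (2 * (1 + D.c * ω * η) - η * z))) ∈ A.nonunits :=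
    mem_mul_nonunits A hmem (eone_add_nonunits A
      (nonunits_mul_mem A hωm (by
        apply_rules [add_mem, mul_mem, sub_mem, pow_mem, one_mem, ofNat_mem, natCast_mem, neg_mem]))
      (nonunits_mul_mem A hηm (by
        apply_rules [add_mem, mul_mem, sub_mem, pow_mem, one_mem, ofNat_mem, natCast_mem, neg_mem])))
  rw [← key] at hL
  have := nonunits_of_pow A hL
  exact not_nonunits_of_val_eq_one A (val_one_sub A (nonunits_mul_mem A hωm (by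
      apply_rules [add_mem, mul_mem, sub_mem, pow_mem, one_mem, ofNat_mem, natCast_mem, neg_mem]))) this

theorem E1_add (hB : D.B ∈ A) (hc : D.c ∈ A) {P Q : G}
    (hP : P = 0 ∨ D.ξ P ∉ A) (hQ : Q = 0 ∨ D.ξ Q ∉ A) :
    P + Q = 0 ∨ D.ξ (P + Q) ∉ A := by
  rcases hP with rfl | hP
  · rw [zero_add]; exact hQ
  rcases hQ with rfl | hQ
  · rw [add_zero]; exact Or.inr hP
  by_cases hP0 : P = 0
  · rw [hP0, zero_add]; exact Or.inr hQ
  by_cases hQ0 : Q = 0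
  · rw [hQ0, add_zero]; exact Or.inr hP
  by_cases hne : D.ξ P = D.ξ Q
  · rcases D.eq_or_neg P Q hP0 hQ0 hne with h | h
    · subst h
      by_cases h2 : P + P = 0
      · exact Or.inl h2
      · exact Or.inr (eone_dbl D A hB hc hP0 hP h2)
    · left; rw [h]; simp
  · exact Or.inr (eone_add_generic D A hB hc hP0 hQ0 hP hQ hne)

/-- The kernel of reduction. -/
def E1 (hB : D.B ∈ A) (hc : D.c ∈ A) : AddSubgroup G where
  carrier := {P | P = 0 ∨ D.ξ P ∉ A}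
  add_mem' := fun hP hQ => E1_add D A hB hc hP hQ
  zero_mem' := Or.inl rfl
  neg_mem' := by
    rintro P (h | h)
    · left; simp [h]
    · right; rwa [D.ξ_neg]

lemma mem_E1 (hB : D.B ∈ A) (hc : D.c ∈ A) {P : G} :
    P ∈ E1 D A hB hc ↔ P = 0 ∨ D.ξ P ∉ A := Iff.rfl

end Fermat.Agent.S13
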