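import Fermat.Agent.S05.EZero
import Fermat.Agent.S05.Integral
import Fermat.Agent.S13.EOne

/-!
# (LOC) action of inertia on points, abstractly over `XiData`, ANY residue characteristic

`η := (ψ - a₁ ξ)/2` is the `y`-coordinate of the model `η² + a₁ ξ η = ξ³ + a₂ ξ² + c ξ`, `B = a₁² + 4 a₂`.
(For residue characteristic 2 take the honest `a₁ = 1`; for odd residue characteristic `a₁ = 0`, `a₂ = B/4` will do.)
-/

set_option autoImplicit false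

namespace Fermat.Agent.S13

open Fermat.Agent.S05

universe u v

variable {K : Type u} [Field K] {G : Type v} [AddCommGroup G] (D : XiData K G)
  (A : ValuationSubring K)

/-- a root of a monic quadratic with integral coefficients is integral -/
lemma loc_mem_of_quadratic {t b d : K} (hb : b ∈ A) (hd : d ∈ A) (h : t ^ 2 + b * t = d) : t ∈ A := by
  by_contra ht
  have ht0 : t ≠ 0 := by
    rintro rfl
    exact ht A.zero_mem
  have hinv : t⁻¹ ∈ A := nu_mem A (nu_inv_of_not_mem A ht)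
  apply ht
  have : t = d * t⁻¹ - b := by
    rw [← h]; field_simp; ring
  rw [this]
  exact sub_mem (mul_mem hd hinv) hb

lemma loc_four_ne (D : XiData K G) : (4 : K) ≠ 0 := by
  have := D.two_ne
  intro h; apply this
  have h' : (2 : K) * 2 = 0 := by linear_combination h
  exact (mul_self_eq_zero.mp h')

/-- addition formula in terms of `η = (ψ - a₁ξ)/2` (no denominators `4`) -/
theorem sub_formula_eta {a₁ a₂ : K} (hBa : D.B = a₁ ^ 2 + 4 * a₂) {P Q : G} (hP : P ≠ 0) (hQ : Q ≠ 0)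
    (h : D.ξ P ≠ D.ξ Q) {η₁ η₂ : K} (h₁ : D.ψ P = 2 * η₁ + a₁ * D.ξ P)
    (h₂ : D.ψ Q = 2 * η₂ + a₁ * D.ξ Q) :
    D.ξ (P - Q) * (D.ξ P - D.ξ Q) ^ 2 =
      (η₁ + η₂ + a₁ * D.ξ Q) ^ 2 + a₁ * (η₁ + η₂ + a₁ * D.ξ Q) * (D.ξ P - D.ξ Q)
        - (a₂ + D.ξ P + D.ξ Q) * (D.ξ P - D.ξ Q) ^ 2 := by
  have h0 := D.sub_formula hP hQ h
  rw [h₁, h₂, hBa] at h0
  apply mul_left_cancel₀ (loc_four_ne D)
  linear_combination h0

/-- the `η`-coordinate and its equation -/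
lemma loc_eta_eq {a₁ a₂ : K} (hBa : D.B = a₁ ^ 2 + 4 * a₂) {P : G} (hP : P ≠ 0) {η : K}
    (h₁ : D.ψ P = 2 * η + a₁ * D.ξ P) :
    η ^ 2 + (a₁ * D.ξ P) * η = D.ξ P ^ 3 + a₂ * D.ξ P ^ 2 + D.c * D.ξ P := by
  have h0 := D.ψ_sq P hP
  rw [h₁, hBa] at h0
  apply mul_left_cancel₀ (loc_four_ne D)
  linear_combination h0

theorem sub_mem_E1 (σ : K →+* K) (τ : G →+ G) (hσ : ∀ a ∈ A, σ a - a ∈ A.nonunits)
    (hτξ : ∀ P, P ≠ 0 → D.ξ (τ P) = σ (D.ξ P)) (hτψ : ∀ P, P ≠ 0 → D.ψ (τ P) = σ (D.ψ P))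
    (hτ0 : ∀ P, P ≠ 0 → τ P ≠ 0)
    {a₁ a₂ : K} (ha₁ : a₁ ∈ A) (ha₂ : a₂ ∈ A) (hσa₁ : σ a₁ = a₁) (hBa : D.B = a₁ ^ 2 + 4 * a₂)
    (hc : D.c ∈ A) {P : G} (hP : P ≠ 0) (hx : D.ξ P ∈ A) (hψ : A.valuation (D.ψ P) = 1) :
    τ P - P = 0 ∨ D.ξ (τ P - P) ∉ A := by
  have h2 := D.two_ne
  obtain ⟨η, hη⟩ : ∃ η, D.ψ P = 2 * η + a₁ * D.ξ P :=
    ⟨(D.ψ P - a₁ * D.ξ P) / 2, by field_simp; ring⟩
  have hηeq := loc_eta_eq D hBa hP hη
  have hηA : η ∈ A := loc_mem_of_quadratic A (mul_mem ha₁ hx) (by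
    apply_rules [add_mem, mul_mem, sub_mem, pow_mem, one_mem, ofNat_mem, natCast_mem, neg_mem]) hηeq
  have hση : D.ψ (τ P) = 2 * σ η + a₁ * D.ξ (τ P) := by
    rw [hτψ P hP, hτξ P hP, hη]
    rw [map_add, map_mul, map_mul, hσa₁, map_ofNat]
  have hε : σ η - η ∈ A.nonunits := hσ η hηA
  have hψu : D.ψ P ∉ A.nonunits := not_nonunits_of_val_eq_one A hψ
  by_cases hδ : D.ξ (τ P) = D.ξ P
  · rcases D.eq_or_neg (τ P) P (hτ0 P hP) hP hδ with h | h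
    · left; rw [h, sub_self]
    · exfalso
      apply hψu
      have h3 : D.ψ (τ P) = - D.ψ P := by rw [h, D.ψ_neg]
      rw [hση, hδ] at h3
      have h4 : D.ψ P = -(σ η - η) := by
        apply mul_left_cancel₀ h2
        linear_combination h3 + hη
      rw [h4]
      exact neg_mem hε
  · right
    intro hmem
    have hf := sub_formula_eta D hBa (hτ0 P hP) hP hδ hση hη
    have hδm : D.ξ (τ P) - D.ξ P ∈ A.nonunits := by
      rw [hτξ P hP]; exact hσ _ hx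
    have hσx : D.ξ (τ P) ∈ A := nu_mem_of_sub A hx hδm
    have hσηA : σ η ∈ A := nu_mem_of_sub A hηA hε
    obtain ⟨δ, hδdef⟩ : ∃ δ, δ = D.ξ (τ P) - D.ξ P := ⟨_, rfl⟩
    obtain ⟨num, hnum⟩ : ∃ num, num = σ η + η + a₁ * D.ξ P := ⟨_, rfl⟩
    rw [← hδdef] at hf hδm
    rw [← hnum] at hf
    have hδA := nu_mem A hδm
    have hnumA : num ∈ A := by
      rw [hnum]
      apply_rules [add_mem, mul_mem, sub_mem, pow_mem, one_mem, ofNat_mem, natCast_mem, neg_mem]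
    have hn2 : num ^ 2 ∈ A.nonunits := by
      have : num ^ 2 = δ * (D.ξ (τ P - P) * δ - a₁ * num + (a₂ + D.ξ (τ P) + D.ξ P) * δ) := by
        linear_combination (-1 : K) * hf
      rw [this]
      apply nu_mul A hδm
      apply_rules [add_mem, mul_mem, sub_mem, pow_mem, one_mem, ofNat_mem, natCast_mem, neg_mem]
    have hn := nu_of_pow A hn2
    apply hψu
    have : D.ψ P = num - (σ η - η) := by rw [hnum, hη]; ring
    rw [this]
    exact sub_mem hn hε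

theorem sub_mem_E0 (σ : K →+* K) (τ : G →+ G) (hσ : ∀ a ∈ A, σ a - a ∈ A.nonunits)
    (hσv : ∀ z, A.valuation (σ z) = A.valuation z)
    (hτξ : ∀ P, P ≠ 0 → D.ξ (τ P) = σ (D.ξ P)) (hτψ : ∀ P, P ≠ 0 → D.ψ (τ P) = σ (D.ψ P))
    (hτ0 : ∀ P, P ≠ 0 → τ P ≠ 0)
    {a₁ a₂ : K} (ha₁ : a₁ ∈ A) (ha₂ : a₂ ∈ A) (hσa₁ : σ a₁ = a₁) (hBa : D.B = a₁ ^ 2 + 4 * a₂)
    (hB : A.valuation D.B = 1)
    {P : G} (hP : P ≠ 0) (hx : D.ξ P ∈ A.nonunits) (hx0 : D.ξ P ≠ 0)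
    (hcx : D.c / D.ξ P ∈ A.nonunits) :
    τ P - P = 0 ∨ D.ξ (τ P - P) ∉ A.nonunits := by
  have h2 := D.two_ne
  obtain ⟨η, hη⟩ : ∃ η, D.ψ P = 2 * η + a₁ * D.ξ P :=
    ⟨(D.ψ P - a₁ * D.ξ P) / 2, by field_simp; ring⟩
  have hηeq := loc_eta_eq D hBa hP hη
  have hση : D.ψ (τ P) = 2 * σ η + a₁ * D.ξ (τ P) := by
    rw [hτψ P hP, hτξ P hP, hη]
    rw [map_add, map_mul, map_mul, hσa₁, map_ofNat]
  obtain ⟨x, hxdef⟩ : ∃ x, x = D.ξ P := ⟨_, rfl⟩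
  obtain ⟨e, hedef⟩ : ∃ e, e = D.c / D.ξ P := ⟨_, rfl⟩
  have hσx : D.ξ (τ P) = σ x := by rw [hτξ P hP, hxdef]
  rw [← hedef] at hcx
  rw [← hxdef] at hx hx0 hη hηeq hedef
  rw [hσx] at hση
  have hce : D.c = e * x := by rw [hedef]; field_simp
  have hxA := nu_mem A hx
  have heA := nu_mem A hcx
  obtain ⟨θ, hθ⟩ : ∃ θ, η = θ * x := ⟨η / x, by field_simp⟩
  -- the equation of `θ`
  have hθeq : θ ^ 2 + a₁ * θ = a₂ + x + e := by
    apply mul_left_cancel₀ (pow_ne_zero 2 hx0)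
    rw [hθ, hce] at hηeq
    linear_combination hηeq
  have hθA : θ ∈ A := loc_mem_of_quadratic A ha₁ (by
    apply_rules [add_mem, mul_mem, sub_mem, pow_mem, one_mem, ofNat_mem, natCast_mem, neg_mem]) hθeq
  have hε : σ θ - θ ∈ A.nonunits := hσ θ hθA
  have hσθA : σ θ ∈ A := nu_mem_of_sub A hθA hε
  have hσθeq : σ θ ^ 2 + a₁ * σ θ = a₂ + σ x + σ e + (σ a₂ - a₂) := by
    have := congrArg σ hθeq
    rw [map_add, map_add, map_add, map_pow, map_mul, hσa₁] at this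
    linear_combination this
  have hσa₂ : σ a₂ - a₂ ∈ A.nonunits := hσ a₂ ha₂
  have hσe : σ e ∈ A.nonunits := by
    rw [A.mem_nonunits_iff, hσv]; exact A.mem_nonunits_iff.mp hcx
  -- `κ` is a unit
  obtain ⟨κ, hκ⟩ : ∃ κ, κ = σ θ + θ + a₁ := ⟨_, rfl⟩
  have hκA : κ ∈ A := by
    rw [hκ]
    apply_rules [add_mem, mul_mem, sub_mem, pow_mem, one_mem, ofNat_mem, natCast_mem, neg_mem]
  have hκu : κ ∉ A.nonunits := by
    intro hκm
    apply not_nonunits_of_val_eq_one A hB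
    have : D.B = (κ - (σ θ - θ)) ^ 2 - 4 * x - 4 * e := by
      rw [hBa, hκ]
      linear_combination (-4 : K) * hθeq
    rw [this]
    refine sub_mem (sub_mem ?_ (nu_mul' A (ofNat_mem A 4) hx)) (nu_mul' A (ofNat_mem A 4) hcx)
    rw [pow_two]
    exact mul_mem (sub_mem hκm hε) (sub_mem hκm hε)
  have hσx0 : σ x ≠ 0 := by
    rw [ne_eq, map_eq_zero]; exact hx0
  by_cases hδ : σ x = x
  · rcases D.eq_or_neg (τ P) P (hτ0 P hP) hP (by rw [hσx, hδ, hxdef]) with h | h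
    · left; rw [h, sub_self]
    · exfalso
      apply hκu
      have h3 : D.ψ (τ P) = - D.ψ P := by rw [h, D.ψ_neg]
      rw [hση, hη, hδ, hθ, map_mul, hδ] at h3
      have : κ = 0 := by
        apply mul_left_cancel₀ (mul_ne_zero h2 hx0)
        rw [hκ]
        linear_combination h3
      rw [this]
      exact zero_mem _
  · right
    intro hmem
    have hf := sub_formula_eta D hBa (hτ0 P hP) hP (by rw [hσx, ← hxdef]; exact hδ)
      (by rw [hσx]; exact hση) (by rw [← hxdef]; exact hη)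
    rw [hσx, ← hxdef, hθ, map_mul] at hf
    obtain ⟨s, hs⟩ : ∃ s, s = σ x / x := ⟨_, rfl⟩
    have hsx : σ x = s * x := by rw [hs]; field_simp
    have hsv : A.valuation s = 1 := by
      rw [hs, map_div₀, hσv]
      exact div_self (by rw [ne_eq, map_eq_zero]; exact hx0)
    have hsA := mem_of_val_eq_one A hsv
    obtain ⟨z, hz⟩ : ∃ z, z = D.ξ (τ P - P) := ⟨_, rfl⟩
    rw [← hz] at hf hmem
    have hzA := nu_mem A hmem
    have key : κ ^ 2 * s = z * (s - 1) ^ 2 - κ * (σ θ - θ) * (s - 1)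
        - (σ e + (σ a₂ - a₂) - x) * (s - 1) ^ 2 := by
      apply mul_left_cancel₀ (pow_ne_zero 2 hx0)
      rw [hsx] at hf hσθeq
      rw [hκ]
      linear_combination (-1 : K) * hf - x ^ 2 * (s - 1) ^ 2 * hσθeq
    have hm : κ ^ 2 * s ∈ A.nonunits := by
      rw [key]
      refine sub_mem (sub_mem (nu_mul A hmem ?_) ?_) (nu_mul A ?_ ?_)
      · apply_rules [add_mem, mul_mem, sub_mem, pow_mem, one_mem, ofNat_mem, natCast_mem, neg_mem]
      · exact nu_mul A (nu_mul' A hκA hε) (sub_mem hsA (one_mem A))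
      · exact sub_mem (add_mem hσe hσa₂) hx
      · apply_rules [add_mem, mul_mem, sub_mem, pow_mem, one_mem, ofNat_mem, natCast_mem, neg_mem]
    have hκv : A.valuation κ = 1 := (val_eq_one_iff A).mpr ⟨hκA, hκu⟩
    apply not_nonunits_of_val_eq_one A _ hm
    rw [map_mul, map_pow, hκv, hsv, one_pow, one_mul]

/-- `ψ P` is a unit if `ξ P` and `ξ (2P)` are integral and `P` has non-singular reduction
(copy of the second half of `Fermat.Agent.S05.XiData.ψ_unit`; no hypothesis on the residue characteristic). -/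
theorem ψ_unit' (hB : D.B ∈ A) (hc : D.c ∈ A) (hdisc : A.valuation (D.B ^ 2 - 64 * D.c) = 1)
    {P : G} (hP : P ≠ 0) (h2P : P + P ≠ 0) (hx : D.ξ P ∈ A) (hz : D.ξ (P + P) ∈ A)
    (h : D.ξ P ∉ A.nonunits ∨ D.c ∉ A.nonunits) :
    A.valuation (D.ψ P) = 1 := by
  have hsq := D.ψ_sq P hP
  have hdbl := D.dbl_formula P hP h2P
  obtain ⟨x, hxdef⟩ : ∃ x, x = D.ξ P := ⟨_, rfl⟩
  obtain ⟨z, hzdef⟩ : ∃ z, z = D.ξ (P + P) := ⟨_, rfl⟩
  obtain ⟨y, hydef⟩ : ∃ y, y = D.ψ P := ⟨_, rfl⟩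
  rw [← hxdef] at hx hsq hdbl h
  rw [← hzdef] at hz hdbl
  rw [← hydef] at hsq hdbl ⊢
  have hy2A : y ^ 2 ∈ A := by
    rw [hsq]
    apply_rules [add_mem, mul_mem, sub_mem, pow_mem, one_mem, ofNat_mem, natCast_mem, neg_mem]
  have hyle : A.valuation y ≤ 1 := by
    rw [← A.valuation_le_one_iff, map_pow] at hy2A
    by_contra hlt
    exact absurd hy2A (not_le.mpr (one_lt_pow₀ (not_le.mp hlt) two_ne_zero))
  by_contra hne
  have hym : y ∈ A.nonunits := A.mem_nonunits_iff.mpr (lt_of_le_of_ne hyle hne)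
  have hy2m : y ^ 2 ∈ A.nonunits := by
    rw [pow_two]; exact nonunits_mul_mem A hym (mem_of_nonunits A hym)
  have hμ1 : x ^ 2 - D.c ∈ A.nonunits := by
    apply nonunits_of_pow A (n := 2)
    rw [← hdbl]
    exact mem_mul_nonunits A hz hy2m
  have hxu : x ∉ A.nonunits := by
    intro hxm
    rcases h with h | h
    · exact h hxm
    · apply h
      have : D.c = x * x - (x ^ 2 - D.c) := by ring
      rw [this]
      exact sub_mem (nonunits_mul_mem A hxm hx) hμ1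
  obtain ⟨hx0, hxinv⟩ := (not_nonunits_iff A).mp hxu
  have hμ3 : 4 * x ^ 2 + D.B * x + 4 * D.c ∈ A.nonunits := by
    have : 4 * x ^ 2 + D.B * x + 4 * D.c = y ^ 2 * x⁻¹ := by
      rw [hsq]; field_simp
    rw [this]
    exact nonunits_mul_mem A hy2m hxinv
  obtain ⟨μ1, hμ1def⟩ : ∃ μ, μ = x ^ 2 - D.c := ⟨_, rfl⟩
  obtain ⟨μ3, hμ3def⟩ : ∃ μ, μ = 4 * x ^ 2 + D.B * x + 4 * D.c := ⟨_, rfl⟩
  rw [← hμ1def] at hμ1
  rw [← hμ3def] at hμ3
  have hxv : A.valuation x = 1 := (val_eq_one_iff A).mpr ⟨hx, hxu⟩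
  have hcv : A.valuation D.c = 1 := by
    have : D.c = x ^ 2 * (1 - μ1 * (x⁻¹) ^ 2) := by
      rw [hμ1def]; field_simp; ring
    rw [this, map_mul, map_pow, hxv, one_pow, one_mul]
    apply val_one_sub
    exact nonunits_mul_mem A hμ1 (pow_mem hxinv 2)
  have key : D.c * (D.B ^ 2 - 64 * D.c) =
      μ3 * (μ3 - 4 * μ1 - 16 * D.c) - μ1 * (4 * (μ3 - 4 * μ1 - 16 * D.c) + D.B ^ 2) := by
    rw [hμ1def, hμ3def]; ring
  have hm : D.c * (D.B ^ 2 - 64 * D.c) ∈ A.nonunits := by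
    rw [key]
    have h1 := mem_of_nonunits A hμ1
    have h3 := mem_of_nonunits A hμ3
    apply sub_mem
    · apply nonunits_mul_mem A hμ3
      apply_rules [add_mem, mul_mem, sub_mem, pow_mem, one_mem, ofNat_mem, natCast_mem, neg_mem]
    · apply nonunits_mul_mem A hμ1
      apply_rules [add_mem, mul_mem, sub_mem, pow_mem, one_mem, ofNat_mem, natCast_mem, neg_mem]
  apply not_nonunits_of_val_eq_one A _ hm
  rw [map_mul, hcv, hdisc, one_mul]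

/-- for `n` odd, `n • P = k • (P + P) + P` -/
lemma loc_odd_nsmul {n : ℕ} (hn : Odd n) (P : G) : ∃ k : ℕ, n • P = k • (P + P) + P := by
  obtain ⟨k, rfl⟩ := hn
  exact ⟨k, by rw [add_smul, one_smul, mul_comm, mul_smul, two_nsmul]⟩

lemma loc_dbl_ne_zero {n : ℕ} (hn : Odd n) {P : G} (hnP : n • P = 0) (hP : P ≠ 0) : P + P ≠ 0 := by
  intro h
  obtain ⟨k, hk⟩ := loc_odd_nsmul hn P
  rw [hnP, h, smul_zero, zero_add] at hk
  exact hP hk.symm

/-- a point of odd order outside `E₀` satisfies `0 < v(ξ) < v(c)` -/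
theorem div_mem_nonunits_of_not_E0 (hB : D.B ∈ A) (hc : D.c ∈ A.nonunits)
    {T : G} (hT : T ≠ 0) (hξT : D.ξ T = 0) {n : ℕ} (hn : Odd n)
    {P : G} (hnP : n • P = 0) (hP : P ≠ 0) (hx : D.ξ P ∈ A.nonunits) :
    D.ξ P ≠ 0 ∧ D.c / D.ξ P ∈ A.nonunits := by
  have hTT := D.two_T hT hξT
  have hx0 : D.ξ P ≠ 0 := by
    intro h0
    have hPT := D.eq_T_of_ξ_eq_zero hP hT hξT h0
    apply loc_dbl_ne_zero hn hnP hP
    rw [hPT]; exact hTT
  refine ⟨hx0, ?_⟩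
  have htr := D.trans_formula hP hT hξT hx0
  have : D.c / D.ξ P = D.ξ (P + T) := by
    rw [← htr]; field_simp
  rw [this]
  by_contra hnot
  have hmem : P + T ∈ D.E0 A hB hc := Or.inr hnot
  have h1 : n • (P + T) ∈ D.E0 A hB hc := AddSubgroup.nsmul_mem _ hmem n
  obtain ⟨k, hk⟩ := loc_odd_nsmul hn T
  rw [smul_add, hnP, zero_add, hk, hTT, smul_zero, zero_add] at h1
  rcases h1 with h1 | h1
  · exact hT h1
  · apply h1
    rw [hξT]
    exact zero_mem _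

/-- (LOC-M-i) multiplicative reduction (node at `ξ = 0`): inertia moves odd-order points inside `E₀`. -/
theorem locM_E0 (σ : K →+* K) (τ : G →+ G) (hσ : ∀ a ∈ A, σ a - a ∈ A.nonunits)
    (hσv : ∀ z, A.valuation (σ z) = A.valuation z)
    (hτξ : ∀ P, P ≠ 0 → D.ξ (τ P) = σ (D.ξ P)) (hτψ : ∀ P, P ≠ 0 → D.ψ (τ P) = σ (D.ψ P))
    (hτ0 : ∀ P, P ≠ 0 → τ P ≠ 0)
    {a₁ a₂ : K} (ha₁ : a₁ ∈ A) (ha₂ : a₂ ∈ A) (hσa₁ : σ a₁ = a₁) (hBa : D.B = a₁ ^ 2 + 4 * a₂)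
    (hB : A.valuation D.B = 1) (hc : D.c ∈ A.nonunits)
    {T : G} (hT : T ≠ 0) (hξT : D.ξ T = 0) {n : ℕ} (hn : Odd n)
    {P : G} (hnP : n • P = 0) :
    τ P - P = 0 ∨ D.ξ (τ P - P) ∉ A.nonunits := by
  have hBA := mem_of_val_eq_one A hB
  by_cases hP : P = 0
  · left; rw [hP, map_zero, sub_zero]
  by_cases hx : D.ξ P ∈ A.nonunits
  · obtain ⟨hx0, hcx⟩ := div_mem_nonunits_of_not_E0 D A hBA hc hT hξT hn hnP hP hx
    exact sub_mem_E0 D A σ τ hσ hσv hτξ hτψ hτ0 ha₁ ha₂ hσa₁ hBa hB hP hx hx0 hcx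
  · have h1 : P ∈ D.E0 A hBA hc := Or.inr hx
    have h2 : τ P ∈ D.E0 A hBA hc := by
      right
      rw [hτξ P hP, A.mem_nonunits_iff, hσv, ← A.mem_nonunits_iff]
      exact hx
    exact AddSubgroup.sub_mem _ h2 h1

/-- (LOC-ii) a point `P` of odd order with non-singular reduction: `τ P - P ∈ E₁`.
`h`: either `P ∈ E₀` or the reduction is good. -/
theorem loc_E1 (σ : K →+* K) (τ : G →+ G) (hσ : ∀ a ∈ A, σ a - a ∈ A.nonunits)
    (hσv : ∀ z, A.valuation (σ z) = A.valuation z)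
    (hτξ : ∀ P, P ≠ 0 → D.ξ (τ P) = σ (D.ξ P)) (hτψ : ∀ P, P ≠ 0 → D.ψ (τ P) = σ (D.ψ P))
    (hτ0 : ∀ P, P ≠ 0 → τ P ≠ 0)
    {a₁ a₂ : K} (ha₁ : a₁ ∈ A) (ha₂ : a₂ ∈ A) (hσa₁ : σ a₁ = a₁) (hBa : D.B = a₁ ^ 2 + 4 * a₂)
    (hc : D.c ∈ A) (hdisc : A.valuation (D.B ^ 2 - 64 * D.c) = 1) {n : ℕ} (hn : Odd n)
    {P : G} (hnP : n • P = 0) (h : D.ξ P ∉ A.nonunits ∨ D.c ∉ A.nonunits) :
    τ P - P = 0 ∨ D.ξ (τ P - P) ∉ A := by
  have hBA : D.B ∈ A := by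
    rw [hBa]
    apply_rules [add_mem, mul_mem, sub_mem, pow_mem, one_mem, ofNat_mem, natCast_mem, neg_mem]
  by_cases hP : P = 0
  · left; rw [hP, map_zero, sub_zero]
  by_cases hx : D.ξ P ∈ A
  · have h2P := loc_dbl_ne_zero hn hnP hP
    have hz : D.ξ (P + P) ∈ A := by
      by_contra hz
      have h1 : P + P ∈ E1 D A hBA hc := Or.inr hz
      obtain ⟨k, hk⟩ := loc_odd_nsmul hn P
      have h2 : k • (P + P) ∈ E1 D A hBA hc := AddSubgroup.nsmul_mem _ h1 k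
      have h3 : P = -(k • (P + P)) := by
        rw [hnP] at hk
        exact eq_neg_of_add_eq_zero_right hk.symm
      have h4 : P ∈ E1 D A hBA hc := by
        rw [h3]; exact AddSubgroup.neg_mem _ h2
      rcases h4 with h4 | h4
      · exact hP h4
      · exact h4 hx
    have hψ := ψ_unit' D A hBA hc hdisc hP h2P hx hz h
    exact sub_mem_E1 D A σ τ hσ hτξ hτψ hτ0 ha₁ ha₂ hσa₁ hBa hc hP hx hψ
  · have h1 : P ∈ E1 D A hBA hc := Or.inr hx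
    have h2 : τ P ∈ E1 D A hBA hc := by
      right
      rw [hτξ P hP, ← A.valuation_le_one_iff, hσv, A.valuation_le_one_iff]
      exact hx
    exact AddSubgroup.sub_mem _ h2 h1

/-- (LOC-UNIP) multiplicative reduction, `p` a unit: inertia acts unipotently on `p`-torsion. -/
theorem loc_unipotent (σ : K →+* K) (τ : G →+ G) (hσ : ∀ a ∈ A, σ a - a ∈ A.nonunits)
    (hσv : ∀ z, A.valuation (σ z) = A.valuation z)
    (hτξ : ∀ P, P ≠ 0 → D.ξ (τ P) = σ (D.ξ P)) (hτψ : ∀ P, P ≠ 0 → D.ψ (τ P) = σ (D.ψ P))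
    (hτ0 : ∀ P, P ≠ 0 → τ P ≠ 0)
    {a₁ a₂ : K} (ha₁ : a₁ ∈ A) (ha₂ : a₂ ∈ A) (hσa₁ : σ a₁ = a₁) (hBa : D.B = a₁ ^ 2 + 4 * a₂)
    (hB : A.valuation D.B = 1) (hc : D.c ∈ A.nonunits)
    {T : G} (hT : T ≠ 0) (hξT : D.ξ T = 0)
    {p : ℕ} (hp : p.Prime) (hp2 : p ≠ 2) (hpA : (p : K) ∉ A.nonunits)
    {P : G} (hpP : p • P = 0) :
    τ (τ P - P) = τ P - P := by
  have hBA := mem_of_val_eq_one A hB
  have hcA := nu_mem A hc
  have hodd : Odd p := hp.odd_of_ne_two hp2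
  have hτp : ∀ Q : G, p • Q = 0 → p • (τ Q - Q) = 0 := by
    intro Q hQ
    rw [smul_sub, ← map_nsmul, hQ, map_zero, sub_zero]
  have hdisc : A.valuation (D.B ^ 2 - 64 * D.c) = 1 := by
    have : D.B ^ 2 - 64 * D.c = D.B ^ 2 * (1 - 64 * D.c * (D.B⁻¹) ^ 2) := by
      have := val_ne_zero_of_eq_one A hB
      field_simp
    rw [this, map_mul, map_pow, hB, one_pow, one_mul]
    apply val_one_sub
    exact nu_mul A (nu_mul' A (ofNat_mem A 64) hc) (pow_mem (inv_mem_of_val_eq_one A hB) 2)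
  obtain ⟨Q, hQ⟩ : ∃ Q, Q = τ P - P := ⟨_, rfl⟩
  rw [← hQ]
  have hpQ : p • Q = 0 := by rw [hQ]; exact hτp P hpP
  have hQ0 : Q = 0 ∨ D.ξ Q ∉ A.nonunits := by
    rw [hQ]
    exact locM_E0 D A σ τ hσ hσv hτξ hτψ hτ0 ha₁ ha₂ hσa₁ hBa hB hc hT hξT hodd hpP
  rcases hQ0 with h0 | h0
  · rw [h0, map_zero]
  · rcases loc_E1 D A σ τ hσ hσv hτξ hτψ hτ0 ha₁ ha₂ hσa₁ hBa hcA hdisc hodd hpQ (Or.inl h0)
      with h1 | h1
    · exact sub_eq_zero.mp h1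
    · by_contra hne
      apply h1
      exact D.ξ_mem_of_torsion A hBA hcA hp hp2 hpA (sub_ne_zero.mpr hne) (hτp Q hpQ)

end Fermat.Agent.S13
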