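import Fermat.Agent.S13.FreyFacts
import Fermat.Agent.S13.InertiaVal
import Fermat.Agent.S13.Local
import Fermat.Agent.S13.DivCurve
import Fermat.Agent.Lib.Frobenius

/-!
# (FP) the Frey curve at the prime `p`
-/

set_option autoImplicit false

namespace Fermat.Agent.S13

open WeierstrassCurve WeierstrassCurve.Affine WeierstrassCurve.Affine.Point Fermat.Agent.S05

variable (P : FreyPackage)

/-- an integer prime to the residue characteristic is a unit -/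
lemma freyP_val_intCast (A : ValuationSubring Kb) {q : ℕ} (hq : q.Prime)
    (hA : A.LiesOverPrime q) {n : ℤ} (hn : ¬ (q : ℤ) ∣ n) : A.valuation (n : Kb) = 1 := by
  rw [val_eq_one_iff]
  exact ⟨intCast_mem A n, fun h => hn ((intCast_mem_nonunits_iff A hq hA n).mp h)⟩

lemma freyP_val_natCast (A : ValuationSubring Kb) {q : ℕ} (hq : q.Prime)
    (hA : A.LiesOverPrime q) {n : ℕ} (hn : ¬ q ∣ n) : A.valuation (n : Kb) = 1 := by
  have := freyP_val_intCast A hq hA (n := (n : ℤ)) (by exact_mod_cast hn)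
  simpa using this

lemma freyP_val_two (A : ValuationSubring Kb) (hA : A.LiesOverPrime P.p) :
    A.valuation (2 : Kb) = 1 := by
  have := freyP_val_natCast A P.pp hA (n := 2) (by
    intro h
    have h5 := P.hp5
    have := Nat.le_of_dvd (by norm_num) h
    omega)
  simpa using this

lemma freyP_val_four (A : ValuationSubring Kb) (hA : A.LiesOverPrime P.p) :
    A.valuation (4 : Kb) = 1 := by
  have : (4 : Kb) = 2 * 2 := by norm_num
  rw [this, map_mul, freyP_val_two P A hA, one_mul]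

lemma freyP_val_sixteen (A : ValuationSubring Kb) (hA : A.LiesOverPrime P.p) :
    A.valuation (16 : Kb) = 1 := by
  have : (16 : Kb) = 4 * 4 := by norm_num
  rw [this, map_mul, freyP_val_four P A hA, one_mul]

lemma frey_b₂_Kb : (P.freyCurve⁄Kb).b₂ = (P.b : Kb) ^ P.p - (P.a : Kb) ^ P.p := by
  have : (P.freyCurve⁄Kb).b₂ = algebraMap ℚ Kb P.freyCurve.b₂ := WeierstrassCurve.map_b₂ _ _
  rw [this, frey_b₂]
  simp

lemma frey_b₄_Kb : (P.freyCurve⁄Kb).b₄ = -((P.a : Kb) ^ P.p * (P.b : Kb) ^ P.p) / 8 := by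
  have : (P.freyCurve⁄Kb).b₄ = algebraMap ℚ Kb P.freyCurve.b₄ := WeierstrassCurve.map_b₄ _ _
  rw [this, frey_b₄]
  simp

lemma frey_b₈_Kb : (P.freyCurve⁄Kb).b₈ = -((P.a : Kb) ^ P.p * (P.b : Kb) ^ P.p / 16) ^ 2 := by
  have : (P.freyCurve⁄Kb).b₈ = algebraMap ℚ Kb P.freyCurve.b₈ := WeierstrassCurve.map_b₈ _ _
  have h8 : P.freyCurve.b₈ = -((P.a : ℚ) ^ P.p * (P.b : ℚ) ^ P.p / 16) ^ 2 := by
    simp only [FreyPackage.freyCurve, WeierstrassCurve.b₈]; ring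
  rw [this, h8]
  simp

lemma frey_FLT_Kb : (P.a : Kb) ^ P.p + (P.b : Kb) ^ P.p = (P.c : Kb) ^ P.p := by
  exact_mod_cast congrArg (Int.cast : ℤ → Kb) P.hFLT

/-- (V1) `E[p] ≠ 0`.  `exists_point_of_order` with a place `A` over `p` and
`e = 0` (if `p ∤ ab`; `Ψ₃(0) = b₈ = -a₄²`), `e = a^p/4` (if `p ∤ ac`; `Ψ₃(e) = -(a^p c^p/16)²`),
`e = -b^p/4` (if `p ∤ bc`; `Ψ₃(e) = -(b^p c^p/16)²`). -/
theorem frey_exists_torsion : ∃ Q : Pt P, Q ≠ 0 ∧ P.p • Q = 0 := by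
  obtain ⟨A, hA⟩ := Fermat.Agent.Lib.Frobenius.exists_liesOverPrime (K := Kb) P.p P.pp
  obtain ⟨h₁, h₂, h₃, h₄, h₆⟩ := frey_coeff_mem P A
  have hp2 : P.p ≠ 2 := by have := P.hp5; omega
  have hunit : ∀ k : ℕ, 1 ≤ k → k < P.p → A.valuation (k : Kb) = 1 := by
    intro k hk1 hkp
    exact freyP_val_natCast A P.pp hA (Nat.not_dvd_of_pos_of_lt hk1 hkp)
  have hv4 := freyP_val_four P A hA
  have hv16 := freyP_val_sixteen P A hA
  have h40 : (4 : Kb) ≠ 0 := val_ne_zero_of_eq_one A hv4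
  have hpow : ∀ n : ℤ, ¬ (P.p : ℤ) ∣ n → A.valuation ((n : Kb) ^ P.p) = 1 := by
    intro n hn
    rw [map_pow, freyP_val_intCast A P.pp hA hn, one_pow]
  have hint : ∀ n : ℤ, ((n : Kb) ^ P.p) ∈ A := fun n => pow_mem (intCast_mem A n) _
  have hdiv4 : ∀ z : Kb, z ∈ A → z / 4 ∈ A := by
    intro z hz
    rw [div_eq_mul_inv]
    exact mul_mem hz (inv_mem_of_val_eq_one A hv4)
  have hF := frey_FLT_Kb P
  have key : ∀ e : Kb, e ∈ A → (P.freyCurve⁄Kb).Ψ₂Sq.eval e = 0 →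
      A.valuation ((P.freyCurve⁄Kb).Ψ₃.eval e) = 1 → ∃ Q : Pt P, Q ≠ 0 ∧ P.p • Q = 0 :=
    fun e heA he he3 => exists_point_of_order (P.freyCurve⁄Kb) (frey_Δ_Kb_ne_zero P) (frey_b₆_Kb P)
      A h₁ h₂ h₃ h₄ h₆ P.pp hp2 hA hunit e heA he he3
  have hsq : ∀ x y : Kb, A.valuation x = 1 → A.valuation y = 1 →
      A.valuation (-(x * y / 16) ^ 2) = 1 := by
    intro x y hx hy
    rw [Valuation.map_neg, map_pow, map_div₀, map_mul, hx, hy, hv16]
    simp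
  rcases frey_not_dvd_two_of P P.p P.pp with ⟨ha, hb⟩ | ⟨ha, hc⟩ | ⟨hb, hc⟩
  · refine key 0 (zero_mem A) ?_ ?_
    · simp [WeierstrassCurve.Ψ₂Sq, frey_b₆_Kb P]
    · have : (P.freyCurve⁄Kb).Ψ₃.eval 0 = -((P.a : Kb) ^ P.p * (P.b : Kb) ^ P.p / 16) ^ 2 := by
        simp [WeierstrassCurve.Ψ₃, frey_b₈_Kb P]
      rw [this]
      exact hsq _ _ (hpow _ ha) (hpow _ hb)
  · refine key ((P.a : Kb) ^ P.p / 4) (hdiv4 _ (hint _)) ?_ ?_
    · simp only [WeierstrassCurve.Ψ₂Sq, Polynomial.eval_add, Polynomial.eval_mul,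
        Polynomial.eval_C, Polynomial.eval_pow, Polynomial.eval_X, frey_b₆_Kb P, frey_b₂_Kb P,
        frey_b₄_Kb P]
      field_simp
      ring
    · have : (P.freyCurve⁄Kb).Ψ₃.eval ((P.a : Kb) ^ P.p / 4) =
          -((P.a : Kb) ^ P.p * (P.c : Kb) ^ P.p / 16) ^ 2 := by
        simp only [WeierstrassCurve.Ψ₃, Polynomial.eval_add, Polynomial.eval_mul,
          Polynomial.eval_C, Polynomial.eval_pow, Polynomial.eval_X, Polynomial.eval_ofNat,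
          frey_b₆_Kb P, frey_b₂_Kb P, frey_b₄_Kb P, frey_b₈_Kb P, ← hF]
        field_simp
        ring
      rw [this]
      exact hsq _ _ (hpow _ ha) (hpow _ hc)
  · refine key (-((P.b : Kb) ^ P.p / 4)) (neg_mem (hdiv4 _ (hint _))) ?_ ?_
    · simp only [WeierstrassCurve.Ψ₂Sq, Polynomial.eval_add, Polynomial.eval_mul,
        Polynomial.eval_C, Polynomial.eval_pow, Polynomial.eval_X, frey_b₆_Kb P, frey_b₂_Kb P,
        frey_b₄_Kb P]
      field_simp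
      ring
    · have : (P.freyCurve⁄Kb).Ψ₃.eval (-((P.b : Kb) ^ P.p / 4)) =
          -((P.b : Kb) ^ P.p * (P.c : Kb) ^ P.p / 16) ^ 2 := by
        simp only [WeierstrassCurve.Ψ₃, Polynomial.eval_add, Polynomial.eval_mul,
          Polynomial.eval_C, Polynomial.eval_pow, Polynomial.eval_X, Polynomial.eval_ofNat,
          frey_b₆_Kb P, frey_b₂_Kb P, frey_b₄_Kb P, frey_b₈_Kb P, ← hF]
        field_simp
        ring
      rw [this]
      exact hsq _ _ (hpow _ hb) (hpow _ hc)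

lemma frey_b₂_Kb_mem (A : ValuationSubring Kb) : (P.freyCurve⁄Kb).b₂ ∈ A := by
  rw [frey_b₂_Kb]
  exact sub_mem (pow_mem (intCast_mem A _) _) (pow_mem (intCast_mem A _) _)

lemma frey_b₄_half_Kb : (P.freyCurve⁄Kb).b₄ / 2 = (P.freyCurve⁄Kb).a₄ := by
  have h3 : (P.freyCurve⁄Kb).a₃ = 0 := by
    show algebraMap ℚ Kb P.freyCurve.a₃ = 0
    simp [FreyPackage.freyCurve]
  simp only [WeierstrassCurve.b₄, h3]
  ring

/-- the kernel of reduction is a subgroup (`E1_add` for `xi0`) -/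
theorem frey_E1_add (A : ValuationSubring Kb) {Q R : Pt P} (hQ : Q = 0 ∨ xc Q ∉ A)
    (hR : R = 0 ∨ xc R ∉ A) : Q + R = 0 ∨ xc (Q + R) ∉ A := by
  have h := E1_add (xi0 (P.freyCurve⁄Kb) two_ne_zero (frey_b₆_Kb P)) A
    (by rw [xi0_B]; exact frey_b₂_Kb_mem P A)
    (by rw [xi0_c, frey_b₄_half_Kb]; exact (frey_coeff_mem P A).2.2.2.1)
    (P := Q) (Q := R) (by rwa [xi0_ξ]) (by rwa [xi0_ξ])
  rwa [xi0_ξ] at h

/-- the common part of the three cases of `frey_local_p` -/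
theorem frey_local_aux (A : ValuationSubring Kb) (hA : A.LiesOverPrime P.p) (e c : Kb)
    (hσe : ∀ σ : GalQ, σ e = e)
    (he : 4 * e ^ 3 + (P.freyCurve⁄Kb).b₂ * e ^ 2 + 2 * (P.freyCurve⁄Kb).b₄ * e +
      (P.freyCurve⁄Kb).b₆ = 0)
    (hc : 2 * c = 6 * e ^ 2 + (P.freyCurve⁄Kb).b₂ * e + (P.freyCurve⁄Kb).b₄)
    (heA : e ∈ A) (hcA : c ∈ A) (hc0 : c ≠ 0)
    (hdisc : A.valuation ((12 * e + (P.freyCurve⁄Kb).b₂) ^ 2 - 64 * c) = 1) :
    ∃ V₀ : AddSubgroup (Pt P), (∀ Q : Pt P, xc Q ∉ A → Q ∈ V₀) ∧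
      ∀ σ ∈ A.inertiaSubgroupIn ℚ, ∀ Q : Pt P, P.p • Q = 0 →
        (σ • Q - Q ∈ V₀ ∧ (Q ∈ V₀ → σ • Q - Q = 0 ∨ xc (σ • Q - Q) ∉ A)) := by
  have h20 : (2 : Kb) ≠ 0 := two_ne_zero
  have hv4 := freyP_val_four P A hA
  have h40 : (4 : Kb) ≠ 0 := val_ne_zero_of_eq_one A hv4
  let D := xiDataOfCurve (P.freyCurve⁄Kb) h20 e c he hc
  have hDξ : ∀ Q : Pt P, D.ξ Q = xc Q - e := fun _ => rfl
  have hDψ : ∀ Q : Pt P, D.ψ Q = ps Q := fun _ => rfl
  have hDB : D.B = 12 * e + (P.freyCurve⁄Kb).b₂ := rfl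
  have hDc : D.c = c := rfl
  have hBA : D.B ∈ A := by
    rw [hDB]
    exact add_mem (mul_mem (ofNat_mem A 12) heA) (frey_b₂_Kb_mem P A)
  have hB4 : D.B / 4 ∈ A := by
    rw [div_eq_mul_inv]
    exact mul_mem hBA (inv_mem_of_val_eq_one A hv4)
  have hBa : D.B = (0 : Kb) ^ 2 + 4 * (D.B / 4) := by field_simp; ring
  have hxc : ∀ Q : Pt P, D.ξ Q ∉ A → xc Q ∉ A := by
    intro Q hQ h
    apply hQ
    rw [hDξ]
    exact sub_mem h heA
  have hxc' : ∀ Q : Pt P, xc Q ∉ A → D.ξ Q ∉ A := by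
    intro Q hQ h
    apply hQ
    have : xc Q = D.ξ Q + e := by rw [hDξ]; ring
    rw [this]
    exact add_mem h heA
  -- the action of `σ`
  have hτξ : ∀ σ : GalQ, ∀ Q : Pt P, Q ≠ 0 →
      D.ξ (Point.map (W' := P.freyCurve) σ.toAlgHom Q) = (σ : Kb →+* Kb) (D.ξ Q) := by
    intro σ Q _
    show xc (Point.map (W' := P.freyCurve) σ.toAlgHom Q) - e = σ (xc Q - e)
    rw [xc_map, map_sub, hσe]
    rfl
  have hτψ : ∀ σ : GalQ, ∀ Q : Pt P, Q ≠ 0 →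
      D.ψ (Point.map (W' := P.freyCurve) σ.toAlgHom Q) = (σ : Kb →+* Kb) (D.ψ Q) := by
    intro σ Q _
    exact ps_map P.freyCurve σ.toAlgHom Q
  have hτ0 : ∀ σ : GalQ, ∀ Q : Pt P, Q ≠ 0 →
      Point.map (W' := P.freyCurve) σ.toAlgHom Q ≠ 0 := by
    intro σ Q hQ h0
    apply hQ
    apply Point.map_injective (W' := P.freyCurve) σ.toAlgHom
    rw [h0, _root_.map_zero]
  have hE1 : ∀ σ ∈ A.inertiaSubgroupIn ℚ, ∀ Q : Pt P, P.p • Q = 0 →
      (D.ξ Q ∉ A.nonunits ∨ D.c ∉ A.nonunits) → σ • Q - Q = 0 ∨ xc (σ • Q - Q) ∉ A := by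
    intro σ hσ Q hQ h
    have := loc_E1 D A (σ : Kb →+* Kb) (Point.map (W' := P.freyCurve) σ.toAlgHom)
      (fun a ha => inertia_sub_mem A hσ ha) (fun z => valuation_inertia_eq A hσ z)
      (hτξ σ) (hτψ σ) (hτ0 σ) (zero_mem A) hB4 (_root_.map_zero _) hBa hcA hdisc P.hp_odd hQ h
    rcases this with h | h
    · exact Or.inl h
    · exact Or.inr (hxc _ h)
  by_cases hcm : c ∈ A.nonunits
  · -- multiplicative reduction
    have hB1 : A.valuation D.B = 1 := by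
      have h64 : (64 : Kb) * c ∈ A.nonunits := mem_mul_nonunits A (ofNat_mem A 64) hcm
      have h1 : A.valuation (D.B ^ 2) = 1 := by
        have e1 : D.B ^ 2 = (D.B ^ 2 - 64 * c) + 64 * c := by ring
        rw [e1, Valuation.map_add_eq_of_lt_left _ (by
          rw [hDB, hdisc]; exact A.mem_nonunits_iff.mp h64), hDB, hdisc]
      rw [map_pow] at h1
      exact (pow_eq_one_iff.mp h1).resolve_right two_ne_zero
    have hcm' : D.c ∈ A.nonunits := hcm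
    obtain ⟨T, hT0, hTe⟩ := exists_T (P.freyCurve⁄Kb) h20 e c he hc hc0
    have hξT : D.ξ T = 0 := by rw [hDξ, hTe, sub_self]
    refine ⟨D.E0 A hBA hcm', ?_, ?_⟩
    · intro Q hQ
      rw [XiData.mem_E0]
      right
      intro h
      exact hxc' Q hQ (mem_of_nonunits A h)
    · intro σ hσ Q hQ
      refine ⟨?_, ?_⟩
      · rw [XiData.mem_E0]
        exact locM_E0 D A (σ : Kb →+* Kb) (Point.map (W' := P.freyCurve) σ.toAlgHom)
          (fun a ha => inertia_sub_mem A hσ ha) (fun z => valuation_inertia_eq A hσ z)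
          (hτξ σ) (hτψ σ) (hτ0 σ) (zero_mem A) hB4 (_root_.map_zero _) hBa hB1 hcm' hT0 hξT P.hp_odd hQ
      · intro hQV
        rw [XiData.mem_E0] at hQV
        rcases hQV with rfl | hQV
        · left
          show (0 : Pt P) - 0 = 0
          exact sub_zero 0
        · exact hE1 σ hσ Q hQ (Or.inl hQV)
  · -- good reduction
    refine ⟨⊤, fun _ _ => AddSubgroup.mem_top _, ?_⟩
    intro σ hσ Q hQ
    exact ⟨AddSubgroup.mem_top _, fun _ => hE1 σ hσ Q hQ (Or.inr hcm)⟩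

/-
(V5a).  Cases:
 * p ∤ abc: good reduction. D = xiDataOfCurve with e = 0, c = a₄ a unit, B² - 64c = c^{2p} a unit.  V₀ := ⊤, `loc_E1`.
 * p ∣ ab:  D as above, c ∈ m, B unit.  V₀ := D.E0 A.  `locM_E0`, `loc_E1`.   T = (0,0).
 * p ∣ c:   D = xiDataOfCurve with e = a^p/4, c = a^p c^p/16 ∈ m, B = 2a^p + b^p unit. V₀ := D.E0 A.
 In all cases take (a₁,a₂) := (0, B/4)  (2 is a unit).
-/
theorem frey_local_p (A : ValuationSubring Kb) (hA : A.LiesOverPrime P.p) :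
    ∃ V₀ : AddSubgroup (Pt P), (∀ Q : Pt P, xc Q ∉ A → Q ∈ V₀) ∧
      ∀ σ ∈ A.inertiaSubgroupIn ℚ, ∀ Q : Pt P, P.p • Q = 0 →
        (σ • Q - Q ∈ V₀ ∧ (Q ∈ V₀ → σ • Q - Q = 0 ∨ xc (σ • Q - Q) ∉ A)) := by
  have hv4 := freyP_val_four P A hA
  have hv16 := freyP_val_sixteen P A hA
  have h40 : (4 : Kb) ≠ 0 := val_ne_zero_of_eq_one A hv4
  have hF := frey_FLT_Kb P
  have hint : ∀ n : ℤ, ((n : Kb) ^ P.p) ∈ A := fun n => pow_mem (intCast_mem A n) _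
  have hpow0 : ∀ n : ℤ, n ≠ 0 → ((n : Kb) ^ P.p) ≠ 0 := fun n hn =>
    pow_ne_zero _ (Int.cast_ne_zero.mpr hn)
  have hpow : ∀ n : ℤ, ¬ (P.p : ℤ) ∣ n → A.valuation (((n : Kb) ^ P.p) ^ 2) = 1 := by
    intro n hn
    rw [map_pow, map_pow, freyP_val_intCast A P.pp hA hn, one_pow, one_pow]
  have hfix : ∀ (n : ℤ) (σ : GalQ), σ ((n : Kb) ^ P.p) = (n : Kb) ^ P.p := by
    intro n σ
    rw [map_pow, map_intCast]
  by_cases hpc : (P.p : ℤ) ∣ P.c
  · have hpb : ¬ (P.p : ℤ) ∣ P.b := by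
      intro h
      have h1 : (P.p : ℤ) ∣ gcd P.b P.c := dvd_gcd h hpc
      rw [P.hgcdbc] at h1
      have h2 : P.p ∣ 1 := by exact_mod_cast h1
      exact P.pp.one_lt.ne' (Nat.dvd_one.mp h2)
    refine frey_local_aux P A hA ((P.a : Kb) ^ P.p / 4) ((P.a : Kb) ^ P.p * (P.c : Kb) ^ P.p / 16)
      ?_ ?_ ?_ ?_ ?_ ?_ ?_
    · intro σ
      rw [map_div₀, hfix, map_ofNat]
    · rw [frey_b₂_Kb, frey_b₄_Kb, frey_b₆_Kb]; field_simp; ring
    · rw [frey_b₂_Kb, frey_b₄_Kb, ← hF]; field_simp; ring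
    · rw [div_eq_mul_inv]
      exact mul_mem (hint _) (inv_mem_of_val_eq_one A hv4)
    · rw [div_eq_mul_inv]
      exact mul_mem (mul_mem (hint _) (hint _)) (inv_mem_of_val_eq_one A hv16)
    · exact div_ne_zero (mul_ne_zero (hpow0 _ P.ha0) (hpow0 _ P.hc0)) (by norm_num)
    · have : (12 * ((P.a : Kb) ^ P.p / 4) + (P.freyCurve⁄Kb).b₂) ^ 2 -
          64 * ((P.a : Kb) ^ P.p * (P.c : Kb) ^ P.p / 16) = ((P.b : Kb) ^ P.p) ^ 2 := by
        rw [frey_b₂_Kb, ← hF]; field_simp; ring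
      rw [this]; exact hpow _ hpb
  · refine frey_local_aux P A hA 0 (-((P.a : Kb) ^ P.p * (P.b : Kb) ^ P.p) / 16)
      ?_ ?_ ?_ ?_ ?_ ?_ ?_
    · intro σ
      exact _root_.map_zero σ
    · rw [frey_b₆_Kb]; ring
    · rw [frey_b₄_Kb]; field_simp; ring
    · exact zero_mem A
    · rw [div_eq_mul_inv]
      exact mul_mem (neg_mem (mul_mem (hint _) (hint _))) (inv_mem_of_val_eq_one A hv16)
    · exact div_ne_zero (neg_ne_zero.mpr (mul_ne_zero (hpow0 _ P.ha0) (hpow0 _ P.hb0)))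
        (by norm_num)
    · have : (12 * (0 : Kb) + (P.freyCurve⁄Kb).b₂) ^ 2 -
          64 * (-((P.a : Kb) ^ P.p * (P.b : Kb) ^ P.p) / 16) = ((P.c : Kb) ^ P.p) ^ 2 := by
        rw [frey_b₂_Kb, ← hF]; field_simp; ring
      rw [this]; exact hpow _ hpc

end Fermat.Agent.S13
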