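import Fermat.Agent.S13.FreyFacts
import Fermat.Agent.S13.InertiaVal
import Fermat.Agent.S13.FreyP
import Fermat.Agent.S13.DivCurve
import Fermat.Agent.S51.Torsion

/-!
# (RP) the product of the `x`-coordinates of a Galois-stable line is rational
-/

set_option autoImplicit false

namespace Fermat.Agent.S13

open WeierstrassCurve WeierstrassCurve.Affine WeierstrassCurve.Affine.Point Fermat.Agent.S05

variable (P : FreyPackage)

lemma rp_coe_tors : ((Submodule.torsionBy ℤ (P.freyCurve⁄Kb).Point P.p :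
    Submodule ℤ (P.freyCurve⁄Kb).Point) : Set (Pt P)) = {Q : Pt P | P.p • Q = 0} := by
  ext Q
  exact mem_tors_iff P Q

lemma rp_p_ne_two : P.p ≠ 2 := by have := P.hp5; omega

/-- (V2) -/
theorem frey_card_le : Finite (Tors P) ∧ Nat.card (Tors P) ≤ P.p ^ 2 := by
  obtain ⟨h1, h2⟩ := card_torsion_le (P.freyCurve⁄Kb) (frey_b₆_Kb P) P.pp (rp_p_ne_two P)
  rw [← rp_coe_tors] at h1 h2
  exact ⟨h1.to_subtype, by rwa [← Nat.card_coe_set_eq] at h2⟩

lemma rp_mul_not_mem (A : ValuationSubring Kb) {x y : Kb} (hx : x ∉ A) (hy : y ∉ A) :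
    x * y ∉ A := by
  intro h
  have hx0 : x ≠ 0 := by rintro rfl; exact hx A.zero_mem
  have hxi : x⁻¹ ∈ A := (A.mem_or_inv_mem x).resolve_left hx
  apply hy
  have : y = x⁻¹ * (x * y) := by field_simp
  rw [this]
  exact A.mul_mem _ _ hxi h

lemma rp_prod_not_mem (A : ValuationSubring Kb) (T : Finset Kb) (hT : T.Nonempty)
    (h : ∀ s ∈ T, s ∉ A) : ∏ s ∈ T, s ∉ A := by
  classical
  induction hT using Finset.Nonempty.cons_induction with
  | singleton a => simpa using h a (by simp)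
  | cons a T ha hT ih =>
    rw [Finset.prod_cons]
    exact rp_mul_not_mem A (h a (by simp)) (ih (fun s hs => h s (by simp [hs])))

lemma rp_nsmul (A : ValuationSubring Kb) {Q : Pt P} (hQ : Q = 0 ∨ xc Q ∉ A) (k : ℕ) :
    k • Q = 0 ∨ xc (k • Q) ∉ A := by
  induction k with
  | zero => left; simp
  | succ k ih => rw [succ_nsmul]; exact frey_E1_add P A ih hQ

/-- dimension count -/
lemma rp_dims (N : Submodule (ZMod P.p) (Tors P)) (hbot : N ≠ ⊥) (htop : N ≠ ⊤) :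
    have : Fact P.p.Prime := ⟨P.pp⟩
    Module.finrank (ZMod P.p) N = 1 ∧ Nat.card (Tors P) = P.p ^ 2 := by
  have : Fact P.p.Prime := ⟨P.pp⟩
  obtain ⟨hfin, hcard⟩ := frey_card_le P
  have : Module.Finite (ZMod P.p) (Tors P) := Module.Finite.of_finite
  have h1 : Nat.card (Tors P) = P.p ^ Module.finrank (ZMod P.p) (Tors P) := by
    rw [Module.natCard_eq_pow_finrank (K := ZMod P.p), Nat.card_zmod]
  have h2 : Module.finrank (ZMod P.p) (Tors P) ≤ 2 := by
    rw [h1] at hcard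
    exact (Nat.pow_le_pow_iff_right P.pp.one_lt).mp hcard
  have h3 : Module.finrank (ZMod P.p) N < Module.finrank (ZMod P.p) (Tors P) :=
    Submodule.finrank_lt htop
  have h4 : Module.finrank (ZMod P.p) N ≠ 0 := by
    intro h; exact hbot (Submodule.finrank_eq_zero.mp h)
  have h5 : Module.finrank (ZMod P.p) (Tors P) = 2 := by omega
  exact ⟨by omega, by rw [h1, h5]⟩

/-- a line is generated by any of its nonzero elements -/
lemma rp_line (N : Submodule (ZMod P.p) (Tors P)) (hbot : N ≠ ⊥) (htop : N ≠ ⊤)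
    {x₀ x : Tors P} (hx₀ : x₀ ∈ N) (h0 : x₀ ≠ 0) (hx : x ∈ N) : ∃ k : ℕ, x = k • x₀ := by
  have : Fact P.p.Prime := ⟨P.pp⟩
  have h1 := (rp_dims P N hbot htop).1
  obtain ⟨c, hc⟩ := (finrank_eq_one_iff_of_nonzero' (⟨x₀, hx₀⟩ : N)
    (by intro h; exact h0 (congrArg Subtype.val h))).mp h1 ⟨x, hx⟩
  refine ⟨c.val, ?_⟩
  have hc' : c • x₀ = x := congrArg Subtype.val hc
  rw [← hc', ← Nat.cast_smul_eq_nsmul (ZMod P.p) c.val x₀, ZMod.natCast_zmod_val]

/-- integrality dichotomy on a line -/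
lemma rp_dichotomy (N : Submodule (ZMod P.p) (Tors P)) (hbot : N ≠ ⊥) (htop : N ≠ ⊤)
    (A : ValuationSubring Kb) :
    (∀ x ∈ N, x ≠ 0 → xc (x : Pt P) ∈ A) ∨ (∀ x ∈ N, x ≠ 0 → xc (x : Pt P) ∉ A) := by
  by_cases h : ∀ x ∈ N, x ≠ 0 → xc (x : Pt P) ∈ A
  · exact Or.inl h
  · right
    push Not at h
    obtain ⟨x₀, hx₀, h0, hA⟩ := h
    intro x hx hx0
    obtain ⟨k, rfl⟩ := rp_line P N hbot htop hx₀ h0 hx
    rcases rp_nsmul P A (Or.inr hA) k with h | h
    · exact absurd (Subtype.ext h) hx0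
    · exact h

theorem frey_ratprod (N : Submodule (ZMod P.p) (Tors P)) (hN : IsGaloisStable ℚ N)
    (hbot : N ≠ ⊥) (htop : N ≠ ⊤) :
    (∀ A : ValuationSubring Kb, A.LiesOverPrime P.p → ∀ x ∈ N, xc (x : Pt P) ∈ A) ∨
    (∀ A : ValuationSubring Kb, A.LiesOverPrime P.p → ∀ x : Tors P, x ≠ 0 →
      (xc (x : Pt P) ∉ A ↔ x ∈ N)) := by
  classical
  have hfin : Finite (Tors P) := (frey_card_le P).1
  let _ : Fintype (Tors P) := Fintype.ofFinite _
  have hcardV := (rp_dims P N hbot htop).2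
  -- the finite sets of abscissas
  set S : Finset Kb := (Finset.univ.filter (fun x : Tors P => x ≠ 0)).image
    (fun x : Tors P => xc (x : Pt P)) with hSdef
  set SN : Finset Kb := (Finset.univ.filter (fun x : Tors P => x ≠ 0 ∧ x ∈ N)).image
    (fun x : Tors P => xc (x : Pt P)) with hSNdef
  have hS : ∀ s, s ∈ S ↔ ∃ Q : Pt P, Q ≠ 0 ∧ P.p • Q = 0 ∧ xc Q = s := by
    intro s
    simp only [hSdef, Finset.mem_image, Finset.mem_filter, Finset.mem_univ, true_and]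
    constructor
    · rintro ⟨x, hx, rfl⟩
      exact ⟨x, fun h => hx (Subtype.ext h), tors_nsmul P x, rfl⟩
    · rintro ⟨Q, hQ, hpQ, rfl⟩
      exact ⟨⟨Q, (mem_tors_iff P Q).mpr hpQ⟩, fun h => hQ (congrArg Subtype.val h), rfl⟩
  have hSN : ∀ s, s ∈ SN ↔ ∃ x : Tors P, x ≠ 0 ∧ x ∈ N ∧ xc (x : Pt P) = s := by
    intro s
    simp only [hSNdef, Finset.mem_image, Finset.mem_filter, Finset.mem_univ, true_and, and_assoc]
  have hSNS : SN ⊆ S := by
    intro s hs
    obtain ⟨x, hx, -, rfl⟩ := (hSN s).mp hs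
    exact (hS _).mpr ⟨x, fun h => hx (Subtype.ext h), tors_nsmul P x, rfl⟩
  have hSNne : SN.Nonempty := by
    obtain ⟨x, hx, hx0⟩ := (Submodule.ne_bot_iff N).mp hbot
    exact ⟨_, (hSN _).mpr ⟨x, hx0, hx, rfl⟩⟩
  -- (1)
  have hone : ∀ A : ValuationSubring Kb,
      (P.p : Kb) * ∏ s ∈ S.filter (fun s => s ∉ A), s ∈ A := by
    intro A
    apply mul_prod_nonintegral_mem A S (P.p : Kb)
    have hncard : {Q : Pt P | P.p • Q = 0}.ncard = P.p ^ 2 := by
      rw [← rp_coe_tors, ← Nat.card_coe_set_eq]; exact hcardV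
    rw [← preΨ_eq_prod (P.freyCurve⁄Kb) (frey_b₆_Kb P) P.pp (rp_p_ne_two P) hncard S hS]
    obtain ⟨h₁, h₂, h₃, h₄, h₆⟩ := frey_coeff_mem P A
    exact fun i => coeff_preΨ_mem (P.freyCurve⁄Kb) A h₁ h₂ h₃ h₄ h₆ _ i
  -- rationality of the product
  obtain ⟨q, hq⟩ : ∃ q : ℚ, (q : Kb) = ∏ s ∈ SN, s := by
    apply Fermat.Agent.S51.exists_rat_of_fixed
    intro σ
    rw [map_prod]
    refine Finset.prod_bij (fun s _ => σ s) ?_ ?_ ?_ ?_
    · intro s hs
      obtain ⟨x, hx, hxN, rfl⟩ := (hSN s).mp hs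
      refine (hSN _).mpr ⟨σ • x, ?_, hN σ x hxN, ?_⟩
      · intro h; exact hx ((smul_eq_zero_iff_eq σ).mp h)
      · rw [coe_smul_tors, xc_smul]
    · intro a _ b _ h; exact σ.injective h
    · intro s hs
      obtain ⟨x, hx, hxN, rfl⟩ := (hSN s).mp hs
      refine ⟨xc ((σ⁻¹ • x : Tors P) : Pt P), (hSN _).mpr ⟨σ⁻¹ • x, ?_, hN σ⁻¹ x hxN, rfl⟩, ?_⟩
      · intro h; exact hx ((smul_eq_zero_iff_eq σ⁻¹).mp h)
      · rw [← xc_smul, ← coe_smul_tors, smul_inv_smul]
    · intro _ _; rfl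
  -- integrality of `r` detects the alternative
  have hra : ∀ A : ValuationSubring Kb, (∀ x ∈ N, x ≠ 0 → xc (x : Pt P) ∈ A) → (q : Kb) ∈ A := by
    intro A h
    rw [hq]
    apply prod_mem
    intro s hs
    obtain ⟨x, hx, hxN, rfl⟩ := (hSN s).mp hs
    exact h x hxN hx
  have hrb : ∀ A : ValuationSubring Kb, (∀ x ∈ N, x ≠ 0 → xc (x : Pt P) ∉ A) → (q : Kb) ∉ A := by
    intro A h
    rw [hq]
    apply rp_prod_not_mem A SN hSNne
    intro s hs
    obtain ⟨x, hx, hxN, rfl⟩ := (hSN s).mp hs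
    exact h x hxN hx
  by_cases hden : P.p ∣ q.den
  · right
    intro A hA x hx0
    have hqA : (q : Kb) ∉ A := fun h => (ratCast_mem_iff A P.pp hA q).mp h hden
    have hb : ∀ x ∈ N, x ≠ 0 → xc (x : Pt P) ∉ A := by
      rcases rp_dichotomy P N hbot htop A with h | h
      · exact absurd (hra A h) hqA
      · exact h
    refine ⟨fun hxA => ?_, fun hxN => hb x hxN hx0⟩
    by_contra hxN
    -- `xc x ∉ SN`
    have hxSN : xc (x : Pt P) ∉ SN := by
      intro hmem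
      obtain ⟨x', hx', hx'N, hxx⟩ := (hSN _).mp hmem
      rcases eq_or_eq_neg_of_xc_eq (fun h => hx' (Subtype.ext h)) (fun h => hx0 (Subtype.ext h))
        hxx with h | h
      · exact hxN ((Subtype.ext h : x' = x) ▸ hx'N)
      · have : x = -x' := by
          apply Subtype.ext
          rw [Submodule.coe_neg, h, neg_neg]
        exact hxN (this ▸ N.neg_mem hx'N)
    set S' := S.filter (fun s => s ∉ A) with hS'
    have hSNS' : SN ⊆ S' := by
      intro s hs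
      refine Finset.mem_filter.mpr ⟨hSNS hs, ?_⟩
      obtain ⟨y, hy, hyN, rfl⟩ := (hSN s).mp hs
      exact hb y hyN hy
    have hxS' : xc (x : Pt P) ∈ S' \ SN := by
      refine Finset.mem_sdiff.mpr ⟨Finset.mem_filter.mpr ⟨?_, hxA⟩, hxSN⟩
      exact (hS _).mpr ⟨x, fun h => hx0 (Subtype.ext h), tors_nsmul P x, rfl⟩
    have h1 := hone A
    rw [← hS', ← Finset.prod_sdiff hSNS', ← hq] at h1
    have hinv := inv_mul_ratCast_mem A P.pp hA hqA
    have hq0 : (q : Kb) ≠ 0 := by intro h; rw [h] at hqA; exact hqA A.zero_mem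
    have hp0 : (P.p : Kb) ≠ 0 := Nat.cast_ne_zero.mpr P.pp.ne_zero
    have h2 : ∏ s ∈ S' \ SN, s ∈ A := by
      have e : ∏ s ∈ S' \ SN, s =
          ((P.p : Kb) * (q : Kb))⁻¹ * ((P.p : Kb) * ((∏ s ∈ S' \ SN, s) * (q : Kb))) := by
        field_simp
      rw [e]
      exact A.mul_mem _ _ hinv h1
    exact rp_prod_not_mem A (S' \ SN) ⟨_, hxS'⟩
      (fun s hs => (Finset.mem_filter.mp (Finset.mem_sdiff.mp hs).1).2) h2
  · left
    intro A hA x hxN
    have hqA : (q : Kb) ∈ A := (ratCast_mem_iff A P.pp hA q).mpr hden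
    by_cases hx0 : x = 0
    · rw [hx0]; exact A.zero_mem
    rcases rp_dichotomy P N hbot htop A with h | h
    · exact h x hxN hx0
    · exact absurd hqA (hrb A h)

end Fermat.Agent.S13
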