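import Fermat.Agent.S13.Iface

/-!
# (FF) arithmetic facts on the Frey curve
-/

set_option autoImplicit false

namespace Fermat.Agent.S13

open WeierstrassCurve WeierstrassCurve.Affine Fermat.Agent.S05 FreyPackage

variable (P : FreyPackage)

lemma frey_b₂ : P.freyCurve.b₂ = (P.b : ℚ) ^ P.p - (P.a : ℚ) ^ P.p := by
  simp only [freyCurve, WeierstrassCurve.b₂]; ring

lemma frey_b₄ : P.freyCurve.b₄ = -((P.a : ℚ) ^ P.p * (P.b : ℚ) ^ P.p) / 8 := by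
  simp only [freyCurve, WeierstrassCurve.b₄]; ring

lemma frey_b₆ : P.freyCurve.b₆ = 0 := by
  simp only [freyCurve, WeierstrassCurve.b₆]; ring

lemma frey_two_dvd_b : (2 : ℤ) ∣ P.b := (ZMod.intCast_zmod_eq_zero_iff_dvd P.b 2).1 P.hb2

lemma frey_odd_a : Odd P.a := by
  have h : ((P.a - 3 : ℤ) : ZMod 4) = 0 := by
    push_cast; rw [P.ha4]; ring
  have h4 : ((4 : ℕ) : ℤ) ∣ P.a - 3 := (ZMod.intCast_zmod_eq_zero_iff_dvd _ 4).1 h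
  obtain ⟨k, hk⟩ := h4
  exact ⟨2 * k + 1, by push_cast at hk; linarith⟩

/-- `a ≡ 3 mod 4`, `p` odd, `b` even, `p ≥ 5`. -/
theorem frey_a₂_int : ∃ n : ℤ, P.freyCurve.a₂ = (n : ℚ) := by
  have h : ((P.b ^ P.p - 1 - P.a ^ P.p : ℤ) : ZMod 4) = 0 := by
    obtain ⟨k, hk⟩ := frey_two_dvd_b P
    have hp : P.p = 2 + (P.p - 2) := by have := P.hp5; omega
    have hb : ((P.b ^ P.p : ℤ) : ZMod 4) = 0 := by
      rw [hk, hp, pow_add, mul_pow]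
      push_cast
      have : (4 : ZMod 4) = 0 := by decide
      rw [this]; ring
    have ha : ((P.a ^ P.p : ℤ) : ZMod 4) = -1 := by
      push_cast
      rw [P.ha4]
      have : (3 : ZMod 4) = -1 := by decide
      rw [this, P.hp_odd.neg_one_pow]
    push_cast at hb ha ⊢
    rw [hb, ha]; ring
  have h4 : ((4 : ℕ) : ℤ) ∣ P.b ^ P.p - 1 - P.a ^ P.p := (ZMod.intCast_zmod_eq_zero_iff_dvd _ 4).1 h
  obtain ⟨n, hn⟩ := h4
  refine ⟨n, ?_⟩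
  have hn' : (P.b : ℚ) ^ P.p - 1 - (P.a : ℚ) ^ P.p = 4 * (n : ℚ) := by exact_mod_cast hn
  simp only [freyCurve]
  rw [hn']; ring

/-- `a₄ = -a^p b^p/16 = ± 2^m * odd`, `m = p v₂(b) - 4 > 0`, `p ∤ m`. -/
theorem frey_a₄_two : ∃ (m : ℕ) (u : ℤ), 0 < m ∧ ¬ P.p ∣ m ∧ Odd u ∧
    P.freyCurve.a₄ = ((2 ^ m * u : ℤ) : ℚ) := by
  have hfin : FiniteMultiplicity (2 : ℤ) P.b :=
    Int.finiteMultiplicity_iff.mpr ⟨by decide, P.hb0⟩
  obtain ⟨b', hb', hnd⟩ := hfin.exists_eq_pow_mul_and_not_dvd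
  obtain ⟨k, hk⟩ : ∃ k, k = multiplicity (2 : ℤ) P.b := ⟨_, rfl⟩
  rw [← hk] at hb'
  have hk0 : k ≠ 0 := by
    rintro rfl
    apply hnd
    rw [pow_zero, one_mul] at hb'
    rw [← hb']
    exact frey_two_dvd_b P
  have hp5 := P.hp5
  have hkp : 5 ≤ k * P.p := by
    have : 1 ≤ k := Nat.one_le_iff_ne_zero.mpr hk0
    nlinarith
  refine ⟨k * P.p - 4, -(P.a ^ P.p * b' ^ P.p), by omega, ?_, ?_, ?_⟩
  · intro hd
    have h1 : P.p ∣ k * P.p := Dvd.intro_left k rfl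
    have h2 : P.p ∣ 4 := by
      have := (Nat.dvd_sub h1 hd)
      have e : k * P.p - (k * P.p - 4) = 4 := by omega
      rwa [e] at this
    have := Nat.le_of_dvd (by norm_num) h2
    omega
  · have hb'odd : Odd b' := by
      rw [← Int.not_even_iff_odd, even_iff_two_dvd]; exact hnd
    exact ((frey_odd_a P).pow.mul hb'odd.pow).neg
  · have e : k * P.p = (k * P.p - 4) + 4 := by omega
    have hbq : (P.b : ℚ) ^ P.p = 2 ^ (k * P.p - 4) * 16 * (b' : ℚ) ^ P.p := by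
      have : (P.b : ℚ) = 2 ^ k * (b' : ℚ) := by exact_mod_cast hb'
      rw [this, mul_pow, ← pow_mul]
      conv_lhs => rw [e, pow_add]
      norm_num
    simp only [freyCurve]
    rw [hbq]
    push_cast
    ring

theorem frey_b₂_odd : ∃ n : ℤ, Odd n ∧ P.freyCurve.b₂ = (n : ℚ) := by
  refine ⟨P.b ^ P.p - P.a ^ P.p, ?_, by rw [frey_b₂]; push_cast; ring⟩
  have hb : Even (P.b ^ P.p) := (even_iff_two_dvd.mpr (frey_two_dvd_b P)).pow_of_ne_zero P.hp0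
  exact hb.sub_odd (frey_odd_a P).pow

/-- `Δ = (abc)^{2p}/2^8 ≠ 0` -/
theorem frey_Δ_ne_zero : P.freyCurve.Δ ≠ 0 := by
  have hFLT : (P.a : ℚ) ^ P.p + (P.b : ℚ) ^ P.p = (P.c : ℚ) ^ P.p := by exact_mod_cast P.hFLT
  have : P.freyCurve.Δ = ((P.a : ℚ) ^ P.p * (P.b : ℚ) ^ P.p * (P.c : ℚ) ^ P.p) ^ 2 / 256 := by
    rw [← hFLT]
    simp only [freyCurve, WeierstrassCurve.Δ, WeierstrassCurve.b₂, WeierstrassCurve.b₄,
      WeierstrassCurve.b₆, WeierstrassCurve.b₈]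
    ring
  rw [this]
  have ha : (P.a : ℚ) ≠ 0 := by exact_mod_cast P.ha0
  have hb : (P.b : ℚ) ≠ 0 := by exact_mod_cast P.hb0
  have hc : (P.c : ℚ) ≠ 0 := by exact_mod_cast P.hc0
  positivity

/-- all coefficients of the Frey curve over `ℚ̄` lie in every valuation subring -/
theorem frey_coeff_mem (A : ValuationSubring Kb) :
    (P.freyCurve⁄Kb).a₁ ∈ A ∧ (P.freyCurve⁄Kb).a₂ ∈ A ∧ (P.freyCurve⁄Kb).a₃ ∈ A ∧
      (P.freyCurve⁄Kb).a₄ ∈ A ∧ (P.freyCurve⁄Kb).a₆ ∈ A := by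
  have h1 : (P.freyCurve⁄Kb).a₁ = algebraMap ℚ Kb P.freyCurve.a₁ := WeierstrassCurve.map_a₁ _ _
  have h2 : (P.freyCurve⁄Kb).a₂ = algebraMap ℚ Kb P.freyCurve.a₂ := WeierstrassCurve.map_a₂ _ _
  have h3 : (P.freyCurve⁄Kb).a₃ = algebraMap ℚ Kb P.freyCurve.a₃ := WeierstrassCurve.map_a₃ _ _
  have h4 : (P.freyCurve⁄Kb).a₄ = algebraMap ℚ Kb P.freyCurve.a₄ := WeierstrassCurve.map_a₄ _ _
  have h6 : (P.freyCurve⁄Kb).a₆ = algebraMap ℚ Kb P.freyCurve.a₆ := WeierstrassCurve.map_a₆ _ _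
  obtain ⟨n, hn⟩ := frey_a₂_int P
  obtain ⟨m, u, -, -, -, hu⟩ := frey_a₄_two P
  refine ⟨?_, ?_, ?_, ?_, ?_⟩
  · rw [h1]
    have : P.freyCurve.a₁ = 1 := rfl
    rw [this, map_one]; exact one_mem A
  · rw [h2, hn, map_intCast]; exact intCast_mem A n
  · rw [h3]
    have : P.freyCurve.a₃ = 0 := rfl
    rw [this, map_zero]; exact zero_mem A
  · rw [h4, hu, map_intCast]; exact intCast_mem A _
  · rw [h6]
    have : P.freyCurve.a₆ = 0 := rfl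
    rw [this, map_zero]; exact zero_mem A

lemma frey_b₆_Kb : (P.freyCurve⁄Kb).b₆ = 0 := by
  have : (P.freyCurve⁄Kb).b₆ = algebraMap ℚ Kb P.freyCurve.b₆ := WeierstrassCurve.map_b₆ _ _
  rw [this, frey_b₆, map_zero]

theorem frey_Δ_Kb_ne_zero : (P.freyCurve⁄Kb).Δ ≠ 0 := by
  have : (P.freyCurve⁄Kb).Δ = algebraMap ℚ Kb P.freyCurve.Δ := WeierstrassCurve.map_Δ _ _
  rw [this]
  exact (map_ne_zero _).mpr (frey_Δ_ne_zero P)

lemma frey_not_dvd_of_gcd {x y : ℤ} (h : gcd x y = 1) (q : ℕ) (hq : q.Prime)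
    (hx : (q : ℤ) ∣ x) : ¬ (q : ℤ) ∣ y := by
  intro hy
  have h1 : (q : ℤ) ∣ gcd x y := dvd_gcd hx hy
  rw [h] at h1
  have h2 : q ∣ 1 := by exact_mod_cast h1
  exact hq.one_lt.ne' (Nat.dvd_one.mp h2)

/-- at most one of `a`, `b`, `c` is divisible by a given prime -/
theorem frey_not_dvd_two_of (q : ℕ) (hq : q.Prime) :
    (¬ (q : ℤ) ∣ P.a ∧ ¬ (q : ℤ) ∣ P.b) ∨ (¬ (q : ℤ) ∣ P.a ∧ ¬ (q : ℤ) ∣ P.c) ∨
      (¬ (q : ℤ) ∣ P.b ∧ ¬ (q : ℤ) ∣ P.c) := by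
  by_cases ha : (q : ℤ) ∣ P.a
  · exact Or.inr (Or.inr ⟨frey_not_dvd_of_gcd P.hgcdab q hq ha, frey_not_dvd_of_gcd P.hgcdac q hq ha⟩)
  · by_cases hb : (q : ℤ) ∣ P.b
    · exact Or.inr (Or.inl ⟨ha, frey_not_dvd_of_gcd P.hgcdbc q hq hb⟩)
    · exact Or.inl ⟨ha, hb⟩

end Fermat.Agent.S13
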