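import Fermat.Agent.S05.EZero
import Fermat.Agent.S05.Integral
import Fermat.Agent.S05.MinElt

/-!
# (NORAT) no rational point of order `p` (2-adic argument), abstractly over `XiData`
-/

set_option autoImplicit false

namespace Fermat.Agent.S13

open Fermat.Agent.S05

universe u v

section core

variable {K : Type u} [Field K] {G : Type v} [AddCommGroup G] (D : XiData K G)

variable {Γ : Type*} [LinearOrderedCommGroupWithZero Γ] (w : Valuation K Γ)

/-- valuation of `ψ²` at a point close to the node (only `w 4 ≤ 1` is needed) -/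
lemma val_ψ_sq' (hB : w D.B = 1) (h4 : w (4 : K) ≤ 1) {R : G} (hR : R ≠ 0)
    (hx0 : D.ξ R ≠ 0) (hx1 : w (D.ξ R) < 1) (hc1 : w D.c < w (D.ξ R)) :
    w (D.ψ R ^ 2) = w (D.ξ R) ^ 2 := by
  have hg0 : 0 < w (D.ξ R) := (w.pos_iff).mpr hx0
  rw [D.ψ_sq R hR]
  have e1 : w (4 * D.ξ R ^ 3) < w (D.ξ R) ^ 2 := by
    rw [map_mul, map_pow]
    calc w 4 * w (D.ξ R) ^ 3 ≤ 1 * w (D.ξ R) ^ 3 := mul_le_mul_left h4 _
      _ = w (D.ξ R) ^ 3 := one_mul _
      _ < w (D.ξ R) ^ 2 := pow_lt_pow_right_of_lt_one₀ hg0 hx1 (by norm_num)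
  have e2 : w (D.B * D.ξ R ^ 2) = w (D.ξ R) ^ 2 := by rw [map_mul, hB, one_mul, map_pow]
  have e3 : w (4 * D.c * D.ξ R) < w (D.ξ R) ^ 2 := by
    rw [map_mul, map_mul, pow_two]
    refine mul_lt_mul_of_pos_right ?_ hg0
    calc w 4 * w D.c ≤ 1 * w D.c := mul_le_mul_left h4 _
      _ = w D.c := one_mul _
      _ < _ := hc1
  have e4 : w (4 * D.ξ R ^ 3 + D.B * D.ξ R ^ 2) = w (D.ξ R) ^ 2 := by
    rw [Valuation.map_add_eq_of_lt_right _ (by rw [e2]; exact e1), e2]
  rw [Valuation.map_add_eq_of_lt_left _ (by rw [e4]; exact e3), e4]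

lemma val_dbl' (hB : w D.B = 1) (h4 : w (4 : K) ≤ 1) {R : G} (hR : R ≠ 0) (hRR : R + R ≠ 0)
    (hx0 : D.ξ R ≠ 0) (hx1 : w (D.ξ R) < 1) (hc1 : w D.c < w (D.ξ R))
    (hc2 : w D.c ≤ w (D.ξ R) ^ 2) (hc3 : w D.c < w (D.ξ (R + R))) :
    w (D.ξ (R + R)) = w (D.ξ R) ^ 2 := by
  have hg0 : 0 < w (D.ξ R) := (w.pos_iff).mpr hx0
  have hψ := val_ψ_sq' D w hB h4 hR hx0 hx1 hc1
  have hd := congrArg w (D.dbl_formula R hR hRR)
  rw [map_mul, hψ, map_pow] at hd
  have hg2 : 0 < w (D.ξ R) ^ 2 := pow_pos hg0 2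
  rcases lt_or_eq_of_le hc2 with h | h
  · have : w (D.ξ R ^ 2 - D.c) = w (D.ξ R) ^ 2 := by
      rw [Valuation.map_sub_eq_of_lt_left _ (by rw [map_pow]; exact h), map_pow]
    rw [this, pow_two (w (D.ξ R) ^ 2)] at hd
    exact mul_right_cancel₀ hg2.ne' hd
  · exfalso
    have : w (D.ξ R ^ 2 - D.c) ≤ w (D.ξ R) ^ 2 :=
      Valuation.map_sub_le _ (by rw [map_pow]) hc2
    have h5 : w (D.ξ (R + R)) * w (D.ξ R) ^ 2 ≤ w (D.ξ R) ^ 2 * w (D.ξ R) ^ 2 := by
      rw [hd, pow_two]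
      exact mul_le_mul' this this
    have h6 : w (D.ξ (R + R)) ≤ w (D.ξ R) ^ 2 := le_of_mul_le_mul_right h5 hg2
    exact absurd (lt_of_lt_of_le hc3 h6) (by rw [h]; exact lt_irrefl _)

lemma val_multiples' (hB : w D.B = 1) (h4 : w (4 : K) ≤ 1) {p : ℕ} {R : G}
    (hx1 : w (D.ξ R) < 1)
    (hgood : ∀ k : ℕ, ¬ p ∣ k → k • R ≠ 0 ∧ D.ξ (k • R) ≠ 0 ∧
      w D.c ≤ w (D.ξ R) * w (D.ξ (k • R)) ∧ w D.c < w (D.ξ (k • R))) :
    ∀ k : ℕ, 1 ≤ k → k < p → w (D.ξ (k • R)) = w (D.ξ R) ^ k := by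
  intro k
  induction k using Nat.strong_induction_on with
  | _ k ih =>
    intro hk1 hkp
    have hnd : ∀ j : ℕ, 1 ≤ j → j < p → ¬ p ∣ j := fun j h1 h2 =>
      Nat.not_dvd_of_pos_of_lt h1 h2
    have g1 := hgood 1 (hnd 1 le_rfl (by omega))
    rw [one_nsmul] at g1
    obtain ⟨hR, hx0, hc2, hc1⟩ := g1
    rcases Nat.lt_or_ge k 2 with hk | hk
    · have : k = 1 := by omega
      subst this
      rw [one_nsmul, pow_one]
    rcases Nat.lt_or_ge k 3 with hk' | hk'
    · have : k = 2 := by omega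
      subst this
      have g2 := hgood 2 (hnd 2 (by omega) hkp)
      rw [two_nsmul] at g2 ⊢
      exact val_dbl' D w hB h4 hR g2.1 hx0 hx1 hc1 (by rw [pow_two]; exact hc2) g2.2.2.2
    · obtain ⟨j, rfl⟩ : ∃ j, k = j + 1 := ⟨k - 1, by omega⟩
      have gj := hgood j (hnd j (by omega) (by omega))
      have gj1 := hgood (j + 1) (hnd (j + 1) (by omega) hkp)
      have e1 : (j + 1) • R = j • R + R := succ_nsmul R j
      have e2 : j • R - R = (j - 1) • R := by
        obtain ⟨i, rfl⟩ : ∃ i, j = i + 1 := ⟨j - 1, by omega⟩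
        rw [succ_nsmul]; simp
      rw [e1] at gj1 ⊢
      exact D.val_step w gj.1 hR (by omega) hx0 hx1 (ih j (by omega) (by omega) (by omega))
        (by rw [e2]; exact ih (j - 1) (by omega) (by omega) (by omega)) gj.2.2.1 gj1.2.2.2

end core

section good

variable {K : Type u} [Field K] {G : Type v} [AddCommGroup G] (D : XiData K G)
  (A : ValuationSubring K)

open XiData in
/-- (M2) without any hypothesis on the residue characteristic. -/
theorem exists_good_multiple' (hB : A.valuation D.B = 1) (hc : D.c ∈ A.nonunits) (_hc0 : D.c ≠ 0)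
    {p : ℕ} (hp : p.Prime) (hp2 : p ≠ 2) {T : G} (hT : T ≠ 0) (hξT : D.ξ T = 0)
    {P : G} (hP : P ≠ 0) (hpP : p • P = 0) (hPE : D.ξ P ∈ A.nonunits) :
    ∃ n : ℕ, ¬ p ∣ n ∧ n • (P + T) ≠ 0 ∧ D.ξ (n • (P + T)) ≠ 0 ∧
      A.valuation (D.ξ (n • (P + T))) ^ p = A.valuation D.c ∧
      A.valuation D.c < A.valuation (D.ξ (n • (P + T))) := by
  have h4 : A.valuation (4 : K) ≤ 1 := (A.valuation_le_one_iff _).mpr (ofNat_mem A 4)
  have hBA : D.B ∈ A := (A.valuation_le_one_iff _).mp hB.le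
  have hTT : T + T = 0 := D.two_T hT hξT
  have hp3 : 3 ≤ p := by
    have := hp.two_le
    omega
  have hpodd : Odd p := hp.odd_of_ne_two hp2
  -- (a)
  have ha : ∀ n : ℕ, ¬ 2 * p ∣ n →
      n • (P + T) ≠ 0 ∧ D.ξ (n • (P + T)) ∈ A.nonunits := fun n hn =>
    D.not_mem_E0_of_not_dvd A hBA hc hp hp2 hT hξT hP hpP hPE hn
  have hpT : p • (P + T) = T := by
    rw [nsmul_add, hpP, zero_add, odd_nsmul_T hTT hpodd]
  have h2p : (2 * p) • (P + T) = 0 := by
    rw [mul_nsmul', hpT, two_nsmul, hTT]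
  have hper : ∀ n : ℕ, (n % (2 * p)) • (P + T) = n • (P + T) := by
    intro n
    conv_rhs => rw [← Nat.div_add_mod n (2 * p), add_nsmul, mul_nsmul, h2p, nsmul_zero, zero_add]
  have hnd : ∀ n : ℕ, ¬ p ∣ n → ¬ 2 * p ∣ n := fun n hn h =>
    hn (dvd_trans (Dvd.intro_left 2 rfl) h)
  have hnd' : ∀ n : ℕ, ¬ p ∣ n → ¬ 2 * p ∣ n + p := fun n hn h =>
    hn ((Nat.dvd_add_left (dvd_refl p)).mp (dvd_trans (Dvd.intro_left 2 rfl) h))
  -- (b)
  obtain ⟨n, hnmem, hnmax⟩ := Finset.exists_max_image (Finset.Icc 1 (2 * p - 1))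
    (fun n => A.valuation (D.ξ (n • (P + T)))) ⟨1, by rw [Finset.mem_Icc]; omega⟩
  rw [Finset.mem_Icc] at hnmem
  have hmax : ∀ k : ℕ, ¬ 2 * p ∣ k →
      A.valuation (D.ξ (k • (P + T))) ≤ A.valuation (D.ξ (n • (P + T))) := by
    intro k hk
    have h1 : k % (2 * p) ∈ Finset.Icc 1 (2 * p - 1) := by
      rw [Finset.mem_Icc]
      have h3 : k % (2 * p) < 2 * p := Nat.mod_lt _ (by omega)
      have h4 : k % (2 * p) ≠ 0 := fun h => hk (Nat.dvd_of_mod_eq_zero h)
      omega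
    have := hnmax _ h1
    simp only [hper] at this
    exact this
  -- general facts for multiples prime to `p`
  have hgen : ∀ k : ℕ, ¬ p ∣ k → k • (P + T) ≠ 0 ∧ D.ξ (k • (P + T)) ≠ 0 ∧
      D.ξ (k • (P + T) + T) * D.ξ (k • (P + T)) = D.c ∧
      A.valuation D.c ≤ A.valuation (D.ξ (n • (P + T))) * A.valuation (D.ξ (k • (P + T))) ∧
      A.valuation D.c < A.valuation (D.ξ (k • (P + T))) := by
    intro k hk
    obtain ⟨h0, -⟩ := ha k (hnd k hk)
    have hkT : k • (P + T) + T = (k + p) • (P + T) := by rw [add_nsmul, hpT]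
    obtain ⟨h0', hm'⟩ := ha (k + p) (hnd' k hk)
    have hξ0 : D.ξ (k • (P + T)) ≠ 0 := by
      intro h
      have := D.eq_T_of_ξ_eq_zero h0 hT hξT h
      apply h0'
      rw [← hkT, this, hTT]
    have htr := D.trans_formula h0 hT hξT hξ0
    have hpos : 0 < A.valuation (D.ξ (k • (P + T))) := (A.valuation.pos_iff).mpr hξ0
    refine ⟨h0, hξ0, htr, ?_, ?_⟩
    · rw [← htr, map_mul, hkT]
      exact mul_le_mul_left (hmax _ (hnd' k hk)) _
    · rw [← htr, map_mul, hkT]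
      rw [ValuationSubring.mem_nonunits_iff] at hm'
      calc _ < 1 * A.valuation (D.ξ (k • (P + T))) := mul_lt_mul_of_pos_right hm' hpos
        _ = _ := one_mul _
  have hx0 : D.ξ (n • (P + T)) ≠ 0 := by
    have h1 := (hgen 1 (by
      intro h
      have := Nat.le_of_dvd one_pos h
      omega)).2.1
    have h2 := hmax 1 (by
      intro h
      have := Nat.le_of_dvd one_pos h
      omega)
    have h3 : 0 < A.valuation (D.ξ (1 • (P + T))) := (A.valuation.pos_iff).mpr h1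
    exact (A.valuation.pos_iff).mp (lt_of_lt_of_le h3 h2)
  have hn2p : ¬ 2 * p ∣ n := by
    intro h
    have := Nat.le_of_dvd (by omega) h
    omega
  have hpn : ¬ p ∣ n := by
    intro h
    have hnP : n • P = 0 := by
      obtain ⟨m, rfl⟩ := h
      rw [mul_nsmul, hpP, nsmul_zero]
    rcases Nat.even_or_odd n with he | ho
    · apply (ha n hn2p).1
      rw [nsmul_add, hnP, even_nsmul_T hTT he, add_zero]
    · apply hx0
      rw [nsmul_add, hnP, odd_nsmul_T hTT ho, zero_add, hξT]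
  have hx1 : A.valuation (D.ξ (n • (P + T))) < 1 := (ha n hn2p).2
  have hg0 : 0 < A.valuation (D.ξ (n • (P + T))) := (A.valuation.pos_iff).mpr hx0
  -- (c)
  have hC := val_multiples' D A.valuation hB h4 (p := p) (R := n • (P + T)) hx1 (by
    intro k hk
    have hkn : ¬ p ∣ n * k := by
      rw [Nat.Prime.dvd_mul hp]; push Not; exact ⟨hpn, hk⟩
    have := hgen (n * k) hkn
    rw [mul_nsmul] at this
    exact ⟨this.1, this.2.1, this.2.2.2.1, this.2.2.2.2⟩)
  have hCp := hC (p - 1) (by omega) (by omega)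
  have hsucc : (p - 1) • (n • (P + T)) + n • (P + T) = n • T := by
    rw [← succ_nsmul, Nat.sub_add_cancel (by omega), ← mul_nsmul, mul_comm, mul_nsmul, hpT]
  refine ⟨n, hpn, (ha n hn2p).1, hx0, ?_, (hgen n hpn).2.2.2.2⟩
  rcases Nat.even_or_odd n with he | ho
  · exfalso
    rw [even_nsmul_T hTT he] at hsucc
    rw [eq_neg_of_add_eq_zero_left hsucc, D.ξ_neg] at hCp
    have : A.valuation (D.ξ (n • (P + T))) ^ (p - 1) < A.valuation (D.ξ (n • (P + T))) ^ 1 :=
      pow_lt_pow_right_of_lt_one₀ hg0 hx1 (by omega)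
    rw [← hCp, pow_one] at this
    exact lt_irrefl _ this
  · rw [odd_nsmul_T hTT ho] at hsucc
    have e : (p - 1) • (n • (P + T)) = -(n • (P + T) + T) := by
      rw [eq_sub_of_add_eq hsucc, neg_add, ← eq_neg_of_add_eq_zero_left hTT]
      abel
    rw [e, D.ξ_neg] at hCp
    have htr := (hgen n hpn).2.2.1
    rw [← htr, map_mul, hCp, ← pow_succ, Nat.sub_add_cancel (by omega)]

end good

variable {K : Type u} [Field K] [CharZero K] {G : Type v} [AddCommGroup G] (D : XiData K G)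
  (A : ValuationSubring K)

omit [CharZero K] in
lemma intCast_mem_nonunits_of_even (h2 : (2 : K) ∈ A.nonunits) {n : ℤ} (hn : Even n) :
    (n : K) ∈ A.nonunits := by
  obtain ⟨m, rfl⟩ := hn
  have : ((m + m : ℤ) : K) = 2 * (m : K) := by push_cast; ring
  rw [this]
  exact nonunits_mul_mem A h2 (intCast_mem A m)

omit [CharZero K] in
lemma valuation_intCast_of_odd (h2 : (2 : K) ∈ A.nonunits) {n : ℤ} (hn : Odd n) :
    A.valuation (n : K) = 1 := by
  obtain ⟨m, rfl⟩ := hn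
  have : ((2 * m + 1 : ℤ) : K) = 1 + 2 * (m : K) := by push_cast; ring
  rw [this]
  exact val_one_add A (nonunits_mul_mem A h2 (intCast_mem A m))

/-- a rational number that is a unit at `2` has odd numerator and denominator -/
lemma odd_num_den_of_valuation_eq_one (h2 : (2 : K) ∈ A.nonunits) {q : ℚ}
    (h : A.valuation (q : K) = 1) : Odd q.num ∧ Odd (q.den : ℤ) := by
  have hq : (q : K) = (q.num : K) / ((q.den : ℤ) : K) := by
    rw [Int.cast_natCast]; exact Rat.cast_def q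
  have hden0 : ((q.den : ℤ) : K) ≠ 0 := by
    rw [Int.cast_natCast]; exact_mod_cast q.den_nz
  rw [hq, map_div₀] at h
  have hv0 : A.valuation ((q.den : ℤ) : K) ≠ 0 := (A.valuation.ne_zero_iff).mpr hden0
  have heq : A.valuation (q.num : K) = A.valuation ((q.den : ℤ) : K) := by
    rwa [div_eq_one_iff_eq hv0] at h
  rcases Int.even_or_odd (q.den : ℤ) with hd | hd
  · exfalso
    have hn : Odd q.num := by
      by_contra hne
      rw [Int.not_odd_iff_even] at hne
      have hcop := q.reduced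
      have h2n : 2 ∣ q.num.natAbs := by
        have := hne.two_dvd
        exact Int.natCast_dvd.mp (by exact_mod_cast this)
      have h2d : 2 ∣ q.den := by
        have := hd.two_dvd
        exact_mod_cast this
      have := Nat.dvd_gcd h2n h2d
      rw [hcop] at this
      omega
    have h1 := valuation_intCast_of_odd A h2 hn
    have h3 := intCast_mem_nonunits_of_even A h2 hd
    rw [A.mem_nonunits_iff, ← heq, h1] at h3
    exact lt_irrefl _ h3
  · refine ⟨?_, hd⟩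
    by_contra hne
    rw [Int.not_odd_iff_even] at hne
    have h1 := valuation_intCast_of_odd A h2 hd
    have h3 := intCast_mem_nonunits_of_even A h2 hne
    rw [A.mem_nonunits_iff, heq, h1] at h3
    exact lt_irrefl _ h3

/-- rational numbers that are units at `2` are congruent mod `𝔪` -/
theorem ratCast_sub_mem_nonunits (h2 : (2 : K) ∈ A.nonunits) {q₁ q₂ : ℚ}
    (h₁ : A.valuation (q₁ : K) = 1) (h₂ : A.valuation (q₂ : K) = 1) :
    ((q₁ : K) - (q₂ : K)) ∈ A.nonunits := by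
  obtain ⟨hn₁, hd₁⟩ := odd_num_den_of_valuation_eq_one A h2 h₁
  obtain ⟨hn₂, hd₂⟩ := odd_num_den_of_valuation_eq_one A h2 h₂
  have hq₁ : (q₁ : K) = (q₁.num : K) / ((q₁.den : ℤ) : K) := by
    rw [Int.cast_natCast]; exact Rat.cast_def q₁
  have hq₂ : (q₂ : K) = (q₂.num : K) / ((q₂.den : ℤ) : K) := by
    rw [Int.cast_natCast]; exact Rat.cast_def q₂
  have hden₁ : ((q₁.den : ℤ) : K) ≠ 0 := by
    rw [Int.cast_natCast]; exact_mod_cast q₁.den_nz
  have hden₂ : ((q₂.den : ℤ) : K) ≠ 0 := by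
    rw [Int.cast_natCast]; exact_mod_cast q₂.den_nz
  have e : (q₁ : K) - (q₂ : K) =
      ((q₁.num * (q₂.den : ℤ) - q₂.num * (q₁.den : ℤ) : ℤ) : K) *
        ((((q₁.den : ℤ) * (q₂.den : ℤ) : ℤ) : K))⁻¹ := by
    rw [hq₁, hq₂]
    push_cast
    field_simp
  rw [e]
  refine nonunits_mul_mem A (intCast_mem_nonunits_of_even A h2 ?_)
    (inv_mem_of_val_eq_one A (valuation_intCast_of_odd A h2 (hd₁.mul hd₂)))
  exact (hn₁.mul hd₂).sub_odd (hn₂.mul hd₁)

omit [CharZero K] in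
lemma exists_pow_valuation_natCast (h2 : (2 : K) ∈ A.nonunits) {n : ℕ} (hn : n ≠ 0) :
    ∃ k : ℕ, A.valuation (n : K) = A.valuation (2 : K) ^ k := by
  obtain ⟨k, m, hm, rfl⟩ := Nat.exists_eq_two_pow_mul_odd hn
  refine ⟨k, ?_⟩
  have h1 : A.valuation ((m : ℤ) : K) = 1 :=
    valuation_intCast_of_odd A h2 (by exact_mod_cast hm)
  rw [Int.cast_natCast] at h1
  push_cast
  rw [map_mul, map_pow, h1, mul_one]

/-- the valuation of a nonzero rational number is an integral power of `v(2)` -/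
theorem exists_zpow_valuation_ratCast (h2 : (2 : K) ∈ A.nonunits) {q : ℚ} (hq : q ≠ 0) :
    ∃ k : ℤ, A.valuation (q : K) = A.valuation (2 : K) ^ k := by
  obtain ⟨a, ha⟩ := exists_pow_valuation_natCast A h2 (n := q.num.natAbs)
    (Int.natAbs_ne_zero.mpr (Rat.num_ne_zero.mpr hq))
  obtain ⟨b, hb⟩ := exists_pow_valuation_natCast A h2 (n := q.den) q.den_nz
  refine ⟨(a : ℤ) - b, ?_⟩
  have h20 : A.valuation (2 : K) ≠ 0 := (A.valuation.ne_zero_iff).mpr two_ne_zero
  have hnum : A.valuation (q.num : K) = A.valuation (2 : K) ^ a := by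
    rw [← ha]
    rcases Int.natAbs_eq q.num with h | h
    · conv_lhs => rw [h]
      rw [Int.cast_natCast]
    · conv_lhs => rw [h]
      rw [Int.cast_neg, Valuation.map_neg, Int.cast_natCast]
  rw [Rat.cast_def, map_div₀, hnum, hb, zpow_sub₀ h20, zpow_natCast, zpow_natCast]

theorem no_rational_torsion (h2 : (2 : K) ∈ A.nonunits) (hB : A.valuation D.B = 1)
    {m : ℤ} (hm : 0 < m) (hcm : A.valuation D.c = A.valuation (2 : K) ^ m)
    (G₀ : AddSubgroup G) (hG₀ : ∀ R ∈ G₀, R ≠ 0 → ∃ q : ℚ, D.ξ R = (q : K))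
    {T : G} (hT : T ≠ 0) (hξT : D.ξ T = 0) (hTG : T ∈ G₀)
    {p : ℕ} (hp : p.Prime) (hp5 : 5 ≤ p) (hpm : ¬ (p : ℤ) ∣ m)
    {P : G} (hPG : P ∈ G₀) (hP : P ≠ 0) (hpP : p • P = 0) : False := by
  have hp2 : p ≠ 2 := by omega
  have hv2lt : A.valuation (2 : K) < 1 := A.mem_nonunits_iff.mp h2
  have hv20 : A.valuation (2 : K) ≠ 0 := (A.valuation.ne_zero_iff).mpr two_ne_zero
  have hv2pos : 0 < A.valuation (2 : K) := zero_lt_iff.mpr hv20
  have hBA : D.B ∈ A := (A.valuation_le_one_iff _).mp hB.le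
  have hc : D.c ∈ A.nonunits := by
    rw [A.mem_nonunits_iff, hcm]
    exact zpow_lt_one₀ hv2pos hv2lt hm
  have hcA : D.c ∈ A := mem_of_nonunits A hc
  have hc0 : D.c ≠ 0 := by
    rw [← A.valuation.ne_zero_iff, hcm]
    exact zpow_ne_zero _ hv20
  have hpA : (p : K) ∉ A.nonunits := by
    have : A.valuation (((p : ℤ)) : K) = 1 :=
      valuation_intCast_of_odd A h2 (by exact_mod_cast hp.odd_of_ne_two hp2)
    rw [Int.cast_natCast] at this
    exact not_nonunits_of_val_eq_one A this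
  -- (1)
  have hPE : D.ξ P ∈ A.nonunits := by
    by_contra hPn
    have h2P : P + P ≠ 0 := by
      rw [← two_nsmul]; exact XiData.nsmul_ne_zero_of_lt hp hP hpP (by norm_num) (by omega)
    have h3P : (P + P) + P ≠ 0 := by
      have : (P + P) + P = 3 • P := by rw [succ_nsmul, two_nsmul]
      rw [this]; exact XiData.nsmul_ne_zero_of_lt hp hP hpP (by norm_num) (by omega)
    have hp2P : p • (P + P) = 0 := by rw [nsmul_add, hpP, add_zero]
    have hp3P : p • ((P + P) + P) = 0 := by rw [nsmul_add, hp2P, hpP, add_zero]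
    have hx : D.ξ P ∈ A := D.ξ_mem_of_torsion A hBA hcA hp hp2 hpA hP hpP
    have hx2 : D.ξ (P + P) ∈ A := D.ξ_mem_of_torsion A hBA hcA hp hp2 hpA h2P hp2P
    have hx3 : D.ξ ((P + P) + P) ∈ A := D.ξ_mem_of_torsion A hBA hcA hp hp2 hpA h3P hp3P
    have hx2n : D.ξ (P + P) ∉ A.nonunits :=
      (D.E0_add A hBA hc (Or.inr hPn) (Or.inr hPn)).resolve_left h2P
    have hv1 : A.valuation (D.ξ P) = 1 := (val_eq_one_iff A).mpr ⟨hx, hPn⟩
    have hv2 : A.valuation (D.ξ (P + P)) = 1 := (val_eq_one_iff A).mpr ⟨hx2, hx2n⟩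
    obtain ⟨q₁, hq₁⟩ := hG₀ P hPG hP
    obtain ⟨q₂, hq₂⟩ := hG₀ (P + P) (G₀.add_mem hPG hPG) h2P
    have hdiff : D.ξ (P + P) - D.ξ P ∈ A.nonunits := by
      rw [hq₁, hq₂]
      exact ratCast_sub_mem_nonunits A h2 (by rw [← hq₂]; exact hv2) (by rw [← hq₁]; exact hv1)
    by_cases hne : D.ξ (P + P) = D.ξ P
    · rcases D.eq_or_neg _ _ h2P hP hne with h | h
      · exact hP (add_eq_right.mp h)
      · apply h3P
        rw [h]; exact neg_add_cancel P
    · have hpr := D.prod_formula h2P hP hne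
      have hL : (D.ξ (P + P + P) * D.ξ (P + P - P)) * (D.ξ (P + P) - D.ξ P) ^ 2 ∈ A.nonunits := by
        refine mem_mul_nonunits A (mul_mem hx3 (by rw [add_sub_cancel_right]; exact hx)) ?_
        rw [pow_two]
        exact nonunits_mul_mem A hdiff (mem_of_nonunits A hdiff)
      rw [hpr] at hL
      have h5 := nonunits_of_pow A hL
      rw [A.mem_nonunits_iff] at h5 hc
      have h6 : A.valuation (D.ξ (P + P) * D.ξ P - D.c) = 1 := by
        have h7 : A.valuation (D.ξ (P + P) * D.ξ P) = 1 := by rw [map_mul, hv1, hv2, one_mul]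
        rw [Valuation.map_sub_eq_of_lt_left _ (by rw [h7]; exact hc), h7]
      rw [h6] at h5
      exact lt_irrefl _ h5
  -- (2)
  obtain ⟨n, -, hR0, hξR, hval, -⟩ :=
    exists_good_multiple' D A hB hc hc0 hp hp2 hT hξT hP hpP hPE
  obtain ⟨q, hq⟩ := hG₀ _ (G₀.nsmul_mem (G₀.add_mem hPG hTG) n) hR0
  have hq0 : q ≠ 0 := by
    rintro rfl
    apply hξR
    rw [hq, Rat.cast_zero]
  obtain ⟨k, hk⟩ := exists_zpow_valuation_ratCast A h2 hq0
  rw [hq, hk, hcm, ← zpow_natCast, ← zpow_mul] at hval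
  have := zpow_right_injective₀ hv2pos hv2lt.ne hval
  exact hpm ⟨k, by rw [← this]; ring⟩

end Fermat.Agent.S13
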