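import Fermat.Agent.S13.FreyFacts
import Fermat.Agent.S13.InertiaVal
import Fermat.Agent.S13.Local
import Fermat.Agent.S13.NoRat
import Fermat.Agent.S13.DivCurve
import Fermat.Agent.S51.Torsion
import Fermat.Agent.Lib.Frobenius

/-!
# (F2) the Frey curve at the prime 2
Use `D := xi0 (P.freyCurve⁄Kb) two_ne_zero (frey_b₆_Kb P)`  (ξ = x, ψ = 2y + x, B = b₂ odd, c = b₄/2 = a₄ = 2^m * odd),
`a₁ = 1`, `a₂ = a₂(E) ∈ ℤ`, `T = (0,0)` (`exists_T`).
-/

set_option autoImplicit false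

namespace Fermat.Agent.S13

open WeierstrassCurve WeierstrassCurve.Affine WeierstrassCurve.Affine.Point Fermat.Agent.S05

variable (P : FreyPackage)

/-- the `XiData` of the Frey curve over `ℚ̄` w.r.t. the 2-torsion point `(0,0)` -/
noncomputable abbrev f2_D : XiData Kb (Pt P) :=
  xi0 (P.freyCurve⁄Kb) two_ne_zero (frey_b₆_Kb P)

lemma f2_D_B : (f2_D P).B = algebraMap ℚ Kb P.freyCurve.b₂ := by
  rw [xi0_B]; exact WeierstrassCurve.map_b₂ _ _

lemma f2_D_c : (f2_D P).c = algebraMap ℚ Kb P.freyCurve.a₄ := by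
  rw [xi0_c]
  have h4 : (P.freyCurve⁄Kb).b₄ = algebraMap ℚ Kb P.freyCurve.b₄ := WeierstrassCurve.map_b₄ _ _
  have : P.freyCurve.b₄ = 2 * P.freyCurve.a₄ := by
    simp only [FreyPackage.freyCurve, WeierstrassCurve.b₄]; ring
  rw [h4, this, map_mul, map_ofNat]
  field_simp

lemma f2_D_B_eq : (f2_D P).B = (1 : Kb) ^ 2 + 4 * (P.freyCurve⁄Kb).a₂ := by
  rw [xi0_B]
  have h1 : (P.freyCurve⁄Kb).a₁ = 1 := by
    show algebraMap ℚ Kb P.freyCurve.a₁ = 1
    simp [FreyPackage.freyCurve]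
  simp only [WeierstrassCurve.b₂, h1]

lemma f2_D_c_ne_zero : (f2_D P).c ≠ 0 := by
  rw [f2_D_c]
  obtain ⟨m, u, -, -, hu, h⟩ := frey_a₄_two P
  rw [h, map_intCast]
  have hu0 : u ≠ 0 := by rintro rfl; simp at hu
  exact_mod_cast mul_ne_zero (pow_ne_zero m two_ne_zero) hu0

/-- the point `(0,0)` -/
lemma f2_exists_T : ∃ T : Pt P, T ≠ 0 ∧ (f2_D P).ξ T = 0 := by
  obtain ⟨T, hT, hx⟩ := exists_T (P.freyCurve⁄Kb) (two_ne_zero) 0 ((P.freyCurve⁄Kb).b₄ / 2)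
    (by rw [frey_b₆_Kb]; ring) (by field_simp; ring) (by
      have := f2_D_c_ne_zero P
      rwa [xi0_c] at this)
  exact ⟨T, hT, by rw [xi0_ξ, hx]⟩

lemma f2_two_mem {A : ValuationSubring Kb} (hA : A.LiesOverPrime 2) : (2 : Kb) ∈ A.nonunits := by
  have : ((2 : ℕ) : Kb) ∈ A.nonunits := hA
  simpa using this

lemma f2_val_B {A : ValuationSubring Kb} (hA : A.LiesOverPrime 2) :
    A.valuation (f2_D P).B = 1 := by
  obtain ⟨n, hn, h⟩ := frey_b₂_odd P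
  rw [f2_D_B, h, map_intCast]
  exact valuation_intCast_of_odd A (f2_two_mem hA) hn

lemma f2_val_c {A : ValuationSubring Kb} (hA : A.LiesOverPrime 2) :
    ∃ m : ℕ, 0 < m ∧ ¬ P.p ∣ m ∧ A.valuation (f2_D P).c = A.valuation (2 : Kb) ^ m := by
  obtain ⟨m, u, hm, hpm, hu, h⟩ := frey_a₄_two P
  refine ⟨m, hm, hpm, ?_⟩
  rw [f2_D_c, h, map_intCast]
  push_cast
  rw [map_mul, map_pow, valuation_intCast_of_odd A (f2_two_mem hA) hu, mul_one]

lemma f2_p_not_mem {A : ValuationSubring Kb} (hA : A.LiesOverPrime 2) :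
    (P.p : Kb) ∉ A.nonunits := by
  have : A.valuation (((P.p : ℤ)) : Kb) = 1 :=
    valuation_intCast_of_odd A (f2_two_mem hA) (by exact_mod_cast P.hp_odd)
  rw [Int.cast_natCast] at this
  exact not_nonunits_of_val_eq_one A this

lemma f2_smul_ne_zero (σ : GalQ) {Q : Pt P} (hQ : Q ≠ 0) : σ • Q ≠ 0 := by
  intro h0
  apply hQ
  apply Point.map_injective (W' := P.freyCurve) σ.toAlgHom
  rw [_root_.map_zero]
  exact h0

lemma f2_smul_add (σ : GalQ) (a b : Pt P) : σ • (a + b) = σ • a + σ • b :=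
  (Point.map (W' := P.freyCurve) σ.toAlgHom).map_add a b

lemma f2_smul_neg (σ : GalQ) (a : Pt P) : σ • (-a) = -(σ • a) :=
  (Point.map (W' := P.freyCurve) σ.toAlgHom).map_neg a

lemma f2_smul_zero (σ : GalQ) : σ • (0 : Pt P) = 0 :=
  (Point.map (W' := P.freyCurve) σ.toAlgHom).map_zero

/-- (V4) inertia at 2 acts unipotently on `E[p]`  (`loc_unipotent`). -/
theorem frey_unipotent_two (A : ValuationSubring Kb) (hA : A.LiesOverPrime 2) (σ : GalQ)
    (hσ : σ ∈ A.inertiaSubgroupIn ℚ) (Q : Pt P) (hQ : P.p • Q = 0) :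
    σ • (σ • Q - Q) = σ • Q - Q := by
  obtain ⟨T, hT, hξT⟩ := f2_exists_T P
  obtain ⟨m, hm, -, hcm⟩ := f2_val_c P hA
  have h2 := f2_two_mem hA
  have hc : (f2_D P).c ∈ A.nonunits := by
    rw [A.mem_nonunits_iff, hcm]
    exact pow_lt_one₀ zero_le (A.mem_nonunits_iff.mp h2) hm.ne'
  have hp2 : P.p ≠ 2 := by have := P.hp5; omega
  exact loc_unipotent (f2_D P) A (σ : Kb →+* Kb) (Point.map (W' := P.freyCurve) σ.toAlgHom)
    (fun a ha => inertia_sub_mem A hσ ha) (fun z => valuation_inertia_eq A hσ z)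
    (fun R _ => by rw [xi0_ξ, xi0_ξ]; exact xc_smul P σ R)
    (fun R _ => ps_smul P σ R)
    (fun R hR => f2_smul_ne_zero P σ hR)
    (a₁ := 1) (a₂ := (P.freyCurve⁄Kb).a₂) A.one_mem (frey_coeff_mem P A).2.1 (map_one _)
    (f2_D_B_eq P) (f2_val_B P hA) hc hT hξT P.pp hp2 (f2_p_not_mem P hA) hQ

/-- (V7) no nonzero point of `E[p]` is fixed by all of `Gal(ℚ̄/ℚ)`
(`no_rational_torsion` with `G₀` = Galois-fixed points; `Fermat.Agent.S51.exists_rat_of_fixed`;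
a place over 2 exists by `Fermat.Agent.Lib.Frobenius.exists_liesOverPrime`). -/
theorem frey_no_fixed (Q : Pt P) (hQ0 : Q ≠ 0) (hQ : P.p • Q = 0) : ∃ σ : GalQ, σ • Q ≠ Q := by
  by_contra hcon
  push Not at hcon
  obtain ⟨A, hA⟩ := Fermat.Agent.Lib.Frobenius.exists_liesOverPrime (K := Kb) 2 Nat.prime_two
  obtain ⟨T, hT, hξT⟩ := f2_exists_T P
  obtain ⟨m, hm, hpm, hcm⟩ := f2_val_c P hA
  let G₀ : AddSubgroup (Pt P) :=
    { carrier := {R | ∀ σ : GalQ, σ • R = R}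
      add_mem' := fun {a b} ha hb σ => by rw [f2_smul_add, ha σ, hb σ]
      zero_mem' := fun σ => f2_smul_zero P σ
      neg_mem' := fun {a} ha σ => by rw [f2_smul_neg, ha σ] }
  refine no_rational_torsion (f2_D P) A (f2_two_mem hA) (f2_val_B P hA) (m := (m : ℤ))
    (by exact_mod_cast hm) (by rw [zpow_natCast]; exact hcm) G₀ ?_ hT hξT ?_ P.pp P.hp5
    (by exact_mod_cast hpm) (P := Q) hcon hQ0 hQ
  · intro R hR _
    obtain ⟨q, hq⟩ := Fermat.Agent.S51.exists_rat_of_fixed (xc R) (fun σ => by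
      rw [← xc_smul P σ R, hR σ])
    exact ⟨q, by rw [xi0_ξ, hq]⟩
  · intro σ
    refine (f2_D P).eq_T_of_ξ_eq_zero (f2_smul_ne_zero P σ hT) hT hξT ?_
    rw [xi0_ξ] at hξT ⊢
    rw [xc_smul, hξT, _root_.map_zero]

end Fermat.Agent.S13
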