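import Fermat.Agent.S13.LinAlg

/-!
# The subgroups `H₁`, `H₂` of `Gal(ℚ̄/ℚ)` attached to a stable line
-/

set_option autoImplicit false

namespace Fermat.Agent.S13

open WeierstrassCurve WeierstrassCurve.Affine WeierstrassCurve.Affine.Point Fermat.Agent.S05

variable (P : FreyPackage)

/-- `H₁`: elements fixing `N` pointwise -/
def fixGroup (N : Submodule (ZMod P.p) (Tors P)) : Subgroup GalQ where
  carrier := {σ | ∀ x ∈ N, σ • x = x}
  mul_mem' := fun {a b} ha hb x hx => by rw [mul_smul, hb x hx, ha x hx]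
  one_mem' := fun x _ => one_smul _ x
  inv_mem' := fun {a} ha x hx => by rw [inv_smul_eq_iff, ha x hx]

/-- `H₂`: elements acting trivially on `E[p]/N` -/
def cofixGroup (N : Submodule (ZMod P.p) (Tors P)) (hN : IsGaloisStable ℚ N) : Subgroup GalQ where
  carrier := {σ | ∀ x, σ • x - x ∈ N}
  mul_mem' := fun {a b} ha hb x => by
    have : (a * b) • x - x = a • (b • x - x) + (a • x - x) := by
      rw [mul_smul, smul_sub]; abel
    rw [this]; exact N.add_mem (hN a _ (hb x)) (ha x)
  one_mem' := fun x => by rw [one_smul, sub_self]; exact N.zero_mem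
  inv_mem' := fun {a} ha x => by
    have : a⁻¹ • x - x = -(a⁻¹ • (a • x - x)) := by
      rw [smul_sub, inv_smul_smul]; abel
    rw [this]; exact N.neg_mem (hN _ _ (ha x))

lemma mem_fixGroup {N : Submodule (ZMod P.p) (Tors P)} {σ : GalQ} :
    σ ∈ fixGroup P N ↔ ∀ x ∈ N, σ • x = x := Iff.rfl

lemma mem_cofixGroup {N : Submodule (ZMod P.p) (Tors P)} {hN : IsGaloisStable ℚ N} {σ : GalQ} :
    σ ∈ cofixGroup P N hN ↔ ∀ x, σ • x - x ∈ N := Iff.rfl

lemma fixGroup_normal (N : Submodule (ZMod P.p) (Tors P)) (hN : IsGaloisStable ℚ N) :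
    (fixGroup P N).Normal := by
  refine ⟨fun n hn g x hx => ?_⟩
  rw [mul_smul, mul_smul, hn _ (hN g⁻¹ x hx), smul_inv_smul]

lemma cofixGroup_normal (N : Submodule (ZMod P.p) (Tors P)) (hN : IsGaloisStable ℚ N) :
    (cofixGroup P N hN).Normal := by
  refine ⟨fun n hn g x => ?_⟩
  have : (g * n * g⁻¹) • x - x = g • (n • (g⁻¹ • x) - g⁻¹ • x) := by
    rw [mul_smul, mul_smul, smul_sub, smul_inv_smul]
  rw [this]
  exact hN g _ (hn _)

/-- (V8) the action on `E[p]` factors through a finite extension -/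
theorem exists_finite_level (hfin : Finite (Tors P)) :
    ∃ F : IntermediateField ℚ Kb, FiniteDimensional ℚ F ∧
      ∀ σ ∈ F.fixingSubgroup, ∀ x : Tors P, σ • x = x := by
  classical
  have := Fintype.ofFinite (Tors P)
  let S : Set Kb := (Set.range fun x : Tors P => xc (x : Pt P)) ∪
    (Set.range fun x : Tors P => ps (x : Pt P))
  have hS : S.Finite := (Set.finite_range _).union (Set.finite_range _)
  refine ⟨IntermediateField.adjoin ℚ S, ?_, ?_⟩
  · have := hS.to_subtype
    exact IntermediateField.finiteDimensional_adjoin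
      (fun z _ => (Algebra.IsAlgebraic.isAlgebraic z).isIntegral)
  · intro σ hσ x
    have hfix : ∀ z ∈ S, σ z = z := fun z hz =>
      (IntermediateField.mem_fixingSubgroup_iff _ σ).mp hσ z (IntermediateField.subset_adjoin ℚ S hz)
    apply Subtype.ext
    rw [coe_smul_tors]
    by_cases hx : (x : Pt P) = 0
    · rw [hx]; exact smul_zero (A := Pt P) σ
    · have hσx : σ • (x : Pt P) ≠ 0 := fun h => hx ((smul_eq_zero_iff_eq σ).mp h)
      apply eq_of_xc_ps two_ne_zero hσx hx
      · rw [xc_smul]; exact hfix _ (Or.inl ⟨x, rfl⟩)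
      · rw [ps_smul]; exact hfix _ (Or.inr ⟨x, rfl⟩)

end Fermat.Agent.S13
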