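import Mathlib
import Fermat.Prelude.Def_FLTPrelim_Ramification
import Fermat.Agent.Lib.Frobenius

/-!
# Inertia of the prime `idealQ A` of `ℤ̄` is contained in the inertia group of the place `A`
-/

set_option autoImplicit false

open scoped Pointwise

namespace Fermat.Agent.S13

open Fermat.Agent.Lib.Frobenius

section
variable {K : Type*} [Field K] [Algebra ℚ K] [IsAlgClosure ℚ K]

theorem mem_inertiaSubgroupIn_of_mem_inertia [CharZero K] (A : ValuationSubring K) {ℓ : ℕ}
    (hℓ : ℓ.Prime) (hA : A.LiesOverPrime ℓ) (σ : K ≃ₐ[ℚ] K)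
    (hσ : σ ∈ (idealQ A).inertia (K ≃ₐ[ℚ] K)) : σ ∈ A.inertiaSubgroupIn ℚ := by
  have hσQ : σ • idealQ A = idealQ A := Ideal.inertia_le_stabilizer (idealQ A) hσ
  have hσQ' : σ⁻¹ • idealQ A = idealQ A := by
    rw [inv_smul_eq_iff, hσQ]
  have hdec : σ ∈ A.decompositionSubgroup ℚ := by
    rw [MulAction.mem_stabilizer_iff]
    ext x
    rw [ValuationSubring.mem_pointwise_smul_iff_inv_smul_mem]
    constructor
    · intro h
      have := map_mem_of_stabilizer A hℓ hA σ hσQ h
      simpa using this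
    · intro h
      exact map_mem_of_stabilizer A hℓ hA σ⁻¹ hσQ' h
  refine ⟨⟨σ, hdec⟩, ?_, rfl⟩
  show (⟨σ, hdec⟩ : A.decompositionSubgroup ℚ) ∈ A.inertiaSubgroup ℚ
  rw [ValuationSubring.inertiaSubgroup, MonoidHom.mem_ker]
  ext x
  show (⟨σ, hdec⟩ : A.decompositionSubgroup ℚ) • x = x
  obtain ⟨⟨a, ha⟩, rfl⟩ := IsLocalRing.residue_surjective x
  rw [← IsLocalRing.ResidueField.residue_smul]
  have hint : ∀ b : integralClosure ℤ K,
      IsLocalRing.residue A ((⟨σ, hdec⟩ : A.decompositionSubgroup ℚ) • incl A b) =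
        IsLocalRing.residue A (incl A b) := by
    intro b
    rw [← sub_eq_zero, ← map_sub, IsLocalRing.residue_eq_zero_iff]
    exact hσ b
  obtain ⟨b, s, hb, hs, hsn, hsx⟩ := exists_integral_fraction A hℓ hA a ha
  let s' : integralClosure ℤ K := ⟨s, hs⟩
  let b' : integralClosure ℤ K := ⟨b, hb⟩
  have hmul : incl A s' * ⟨a, ha⟩ = incl A b' := Subtype.ext hsx
  have hs1 : IsLocalRing.residue A (incl A s') ≠ 0 := by
    rw [Ne, IsLocalRing.residue_eq_zero_iff]
    intro h
    exact hsn ((mem_idealQ A s').mp h)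
  have e1 := hint b'
  rw [← hmul, smul_mul', map_mul, hint s', map_mul] at e1
  exact mul_left_cancel₀ hs1 e1

end

end Fermat.Agent.S13
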