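import Mathlib

/-!
# A Galois number field `≠ ℚ` has a prime all of whose inertia groups are non-trivial
-/

set_option autoImplicit false

open scoped Pointwise NumberField

namespace Fermat.Agent.S13

theorem exists_prime_forall_exists_inertia (F : Type*) [Field F] [NumberField F] [IsGalois ℚ F]
    (h : 1 < Module.finrank ℚ F) :
    ∃ p : ℕ, p.Prime ∧ ∀ (P : Ideal (𝓞 F)), P.IsPrime → (p : 𝓞 F) ∈ P →
      ∃ g : F ≃ₐ[ℚ] F, g ≠ 1 ∧ g ∈ P.inertia (F ≃ₐ[ℚ] F) := by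
  obtain ⟨p, hp, hP⟩ :=
    NumberField.exists_not_isUnramifiedAt_int_of_isGalois (K := F) (𝒪 := 𝓞 F) h
  refine ⟨p, hp, fun P hPp hpP => ?_⟩
  have h1 := hP P hPp hpP
  have hp' : Prime (p : ℤ) := Nat.prime_iff_prime_int.mp hp
  have hprime : (Ideal.span {(p : ℤ)}).IsPrime :=
    (Ideal.span_singleton_prime hp'.ne_zero).mpr hp'
  have hlo : P.LiesOver (Ideal.span {(p : ℤ)}) :=
    (Ideal.liesOver_span_iff Ideal.IsPrime.ne_top' hp').mpr (by simpa using hpP)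
  have : Fact p.Prime := ⟨hp⟩
  rw [← Ideal.ramificationIdx_eq_one_iff,
    ← Ideal.ramificationIdxIn_eq_ramificationIdx (Ideal.span {(p : ℤ)}) P (F ≃ₐ[ℚ] F),
    ← Ideal.card_inertia_eq_ramificationIdxIn (G := F ≃ₐ[ℚ] F) _ P] at h1
  by_contra hcon
  push Not at hcon
  apply h1
  have hbot : P.inertia (F ≃ₐ[ℚ] F) = ⊥ := by
    rw [eq_bot_iff]
    intro g hg
    by_contra hg1
    exact hcon g hg1 hg
  rw [hbot]
  simp

/-- The same statement for an arbitrary `ℚ`-algebra structure, in elementary terms. -/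
theorem exists_prime_forall_exists_inertia' (F : Type*) [Field F] [NumberField F]
    [alg : Algebra ℚ F] [IsGalois ℚ F] (h : 1 < Module.finrank ℚ F) :
    ∃ p : ℕ, p.Prime ∧ ∀ (P : Ideal (𝓞 F)), P.IsPrime → (p : 𝓞 F) ∈ P →
      ∃ g : F ≃ₐ[ℚ] F, g ≠ 1 ∧ ∀ x : 𝓞 F, ∃ y ∈ P, (y : F) = g x - x := by
  obtain rfl : alg = DivisionRing.toRatAlgebra := Subsingleton.elim _ _
  obtain ⟨p, hp, hP⟩ := exists_prime_forall_exists_inertia F h
  refine ⟨p, hp, fun P hPp hpP => ?_⟩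
  obtain ⟨g, hg1, hg⟩ := hP P hPp hpP
  exact ⟨g, hg1, fun x => ⟨g • x - x, hg x, rfl⟩⟩

end Fermat.Agent.S13
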