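import Mathlib

/-!
# Lifting inertia elements from a quotient of a profinite group
-/

set_option autoImplicit false

open scoped Pointwise

namespace Fermat.Agent.S13

section lift

universe u

variable {B : Type*} [CommRing B]
variable {G : Type u} [Group G] [MulSemiringAction G B]
variable [TopologicalSpace G] [CompactSpace G] [TotallyDisconnectedSpace G]
variable [IsTopologicalGroup G] [TopologicalSpace B] [DiscreteTopology B] [ContinuousSMul G B]

/-- If `σ₀` acts trivially modulo `Q` on the `H`-invariants (`H` closed and normal), then some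
element of the coset `H σ₀` lies in the inertia group of `Q`. -/
theorem exists_mul_mem_inertia (H : Subgroup G) [hn : H.Normal] (hH : IsClosed (H : Set G))
    (Q : Ideal B) [Q.IsPrime] (σ₀ : G)
    (h0 : ∀ x : B, (∀ h ∈ H, h • x = x) → σ₀ • x - x ∈ Q) :
    ∃ h ∈ H, h * σ₀ ∈ Q.inertia G := by
  have : CompactSpace H := isCompact_iff_compactSpace.mp hH.isCompact
  let O := FixedPoints.subalgebra ℤ B H
  have : Algebra.IsInvariant O B H := ⟨fun x h ↦ ⟨⟨x, h⟩, rfl⟩⟩
  have hfix : ∀ x : O, ∀ h ∈ H, h • (x : B) = x := fun x h hh => x.2 ⟨h, hh⟩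
  -- `σ₀⁻¹` preserves invariants
  have hinv : ∀ (τ : G) (x : B), (∀ h ∈ H, h • x = x) → (∀ h ∈ H, h • (τ • x) = τ • x) := by
    intro τ x hx h hh
    have h1 : τ⁻¹ * h * τ ∈ H := by
      have := hn.conj_mem h hh τ⁻¹
      simpa using this
    have h2 := hx _ h1
    calc h • τ • x = τ • ((τ⁻¹ * h * τ) • x) := by simp [mul_smul]
      _ = τ • x := by rw [h2]
  have hunder : (σ₀ • Q).under O = Q.under O := by
    ext x
    rw [Ideal.under_def, Ideal.under_def, Ideal.mem_comap, Ideal.mem_comap,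
      Ideal.mem_pointwise_smul_iff_inv_smul_mem]
    have h1 := h0 (σ₀⁻¹ • (x : B)) (hinv σ₀⁻¹ x (hfix x))
    rw [smul_inv_smul] at h1
    show σ₀⁻¹ • (x : B) ∈ Q ↔ (x : B) ∈ Q
    constructor
    · intro h
      have := Q.add_mem h1 h
      simpa using this
    · intro h
      have := Q.sub_mem h h1
      simpa using this
  obtain ⟨h, hh⟩ := Algebra.IsInvariant.exists_smul_of_under_eq_of_profinite (A := O) (G := H)
    (σ₀ • Q) Q hunder
  -- `σ₁ = h σ₀` stabilises `Q`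
  have hσ₁ : ((h : G) * σ₀) • Q = Q := by
    rw [mul_smul]; exact hh.symm
  have hσ₁O : ∀ x : O, ((h : G) * σ₀) • (x : B) - x ∈ Q := by
    intro x
    rw [mul_smul, hinv σ₀ x (hfix x) h h.2]
    exact h0 x (hfix x)
  let e₀ : (B ⧸ Q) ≃ₐ[ℤ ⧸ Q.under ℤ] (B ⧸ Q) :=
    Ideal.Quotient.stabilizerHom Q (Q.under ℤ) G ⟨(h : G) * σ₀, hσ₁⟩
  have he₀ : ∀ b : B, e₀ (Ideal.Quotient.mk Q b) = Ideal.Quotient.mk Q (((h : G) * σ₀) • b) :=
    fun b => rfl
  let e : (B ⧸ Q) ≃ₐ[O ⧸ Q.under O] (B ⧸ Q) :=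
    AlgEquiv.ofRingEquiv (f := e₀.toRingEquiv) (by
      intro r
      obtain ⟨x, rfl⟩ := Ideal.Quotient.mk_surjective r
      show e₀ (Ideal.Quotient.mk Q (x : B)) = Ideal.Quotient.mk Q (x : B)
      rw [he₀, Ideal.Quotient.eq]
      exact hσ₁O x)
  obtain ⟨u, hu⟩ := Ideal.Quotient.stabilizerHom_surjective_of_profinite (G := H)
    (Q.under O) Q e
  refine ⟨(u : H)⁻¹ * h, H.mul_mem (H.inv_mem (u : H).2) h.2, ?_⟩
  intro b
  have h1 : Ideal.Quotient.mk Q ((u : H) • b) = Ideal.Quotient.mk Q (((h : G) * σ₀) • b) :=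
    DFunLike.congr_fun hu (Ideal.Quotient.mk Q b)
  rw [Ideal.Quotient.eq] at h1
  have hu' : ((u : H) : G) • Q = Q := u.2
  have h2 : (((u : H) : G)⁻¹) • ((u : H) • b - ((h : G) * σ₀) • b) ∈ Q := by
    rw [← Ideal.mem_pointwise_smul_iff_inv_smul_mem, hu']
    exact h1
  have h3 : (((u : H) : G)⁻¹) • ((u : H) • b - ((h : G) * σ₀) • b) =
      - ((((((u : H)⁻¹ * h : H) : G)) * σ₀) • b - b) := by
    rw [smul_sub, Subgroup.smul_def, inv_smul_smul]
    simp [mul_smul]
  rw [h3] at h2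
  exact (Q.neg_mem_iff).mp h2

end lift

end Fermat.Agent.S13
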