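import Mathlib
import Fermat.Prelude.Def_FLTPrelim_Ramification
import Fermat.Agent.Lib.Frobenius
import Fermat.Agent.S13.MinkLift
import Fermat.Agent.S13.MinkDict
import Fermat.Agent.S13.MinkFin

/-!
# (MINK) A normal open subgroup of `Gal(ℚ̄/ℚ)` containing all inertia groups is everything
-/

set_option autoImplicit false

open scoped Pointwise NumberField

namespace Fermat.Agent.S13

open Fermat.Agent.Lib.Frobenius

section
variable {K : Type*} [Field K] [Algebra ℚ K] [IsAlgClosure ℚ K]

attribute [-instance] DivisionRing.toRatAlgebra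

/-- the inclusion of the ring of integers of a subfield in `ℤ̄`. -/
noncomputable def inclInt (F : IntermediateField ℚ K) : 𝓞 F →+* integralClosure ℤ K :=
  ((algebraMap F K).comp (algebraMap (𝓞 F) F)).codRestrict (integralClosure ℤ K).toSubring
    (fun x => (NumberField.RingOfIntegers.isIntegral_coe x).map (IsScalarTower.toAlgHom ℤ F K))

omit [IsAlgClosure ℚ K] in
@[simp] theorem coe_inclInt (F : IntermediateField ℚ K) (x : 𝓞 F) :
    ((inclInt F x : integralClosure ℤ K) : K) = ((x : F) : K) := rfl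

theorem eq_top_of_inertia_le_aux [CharZero K]
    (H : Subgroup (K ≃ₐ[ℚ] K)) (hH : H.Normal)
    (F : IntermediateField ℚ K) (hFfin : FiniteDimensional ℚ F)
    (hF : F.fixingSubgroup ≤ H)
    (hI : ∀ ℓ : ℕ, ℓ.Prime → ∀ A : ValuationSubring K, A.LiesOverPrime ℓ →
      A.inertiaSubgroupIn ℚ ≤ H) :
    H = ⊤ := by
  have hopen : IsOpen (H : Set (K ≃ₐ[ℚ] K)) := Subgroup.isOpen_mono hF F.fixingSubgroup_isOpen
  have hclosed : IsClosed (H : Set (K ≃ₐ[ℚ] K)) := Subgroup.isClosed_of_isOpen H hopen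
  let F' : IntermediateField ℚ K := IntermediateField.fixedField H
  have hfix : F'.fixingSubgroup = H := InfiniteGalois.fixingSubgroup_fixedField ⟨H, hclosed⟩
  have hle : F' ≤ F := by
    rw [← InfiniteGalois.fixedField_fixingSubgroup F]
    exact IntermediateField.fixedField_antitone hF
  have hfin' : FiniteDimensional ℚ F' :=
    Module.Finite.of_injective (IntermediateField.inclusion hle).toLinearMap
      (IntermediateField.inclusion hle).injective
  have hnf : NumberField F' :=
    { to_charZero := inferInstance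
      to_finiteDimensional := by
        have e : (DivisionRing.toRatAlgebra : Algebra ℚ F') = F'.algebra' := Subsingleton.elim _ _
        rw [e]
        exact hfin' }
  have hgal : IsGalois ℚ F' := (InfiniteGalois.normal_iff_isGalois F').mp (hfix ▸ hH)
  by_contra hne
  have hrank : 1 < Module.finrank ℚ F' := by
    by_contra hcon
    have h0 : 0 < Module.finrank ℚ F' := Module.finrank_pos
    have h1 : Module.finrank ℚ F' = 1 := by omega
    have h2 : F' = ⊥ := IntermediateField.finrank_eq_one_iff.mp h1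
    apply hne
    rw [← hfix, h2]
    simp
  obtain ⟨p, hp, hP⟩ := exists_prime_forall_exists_inertia' F' hrank
  obtain ⟨A, hA⟩ := exists_liesOverPrime (K := K) p hp
  obtain ⟨g, hg1, hg⟩ := hP ((idealQ A).comap (inclInt F')) (Ideal.comap_isPrime _ _) (by
    rw [Ideal.mem_comap, map_natCast]
    exact natCast_mem_idealQ A hA)
  obtain ⟨σ₀, rfl⟩ := AlgEquiv.restrictNormalHom_surjective K g
  let : TopologicalSpace (integralClosure ℤ K) := ⊥
  have : DiscreteTopology (integralClosure ℤ K) := ⟨rfl⟩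
  have : ContinuousSMul (K ≃ₐ[ℚ] K) (integralClosure ℤ K) := by
    rw [continuousSMul_iff_stabilizer_isOpen]
    intro b
    convert stabilizer_isOpen_of_isIntegral (K := ℚ) (b : K) using 2
    ext σ
    simp only [MulAction.mem_stabilizer_iff]
    exact Subtype.ext_iff
  obtain ⟨h, hh, hσ⟩ := exists_mul_mem_inertia H hclosed (idealQ A) σ₀ (by
    intro x hx
    have hxF : (x : K) ∈ F' := by
      intro τ
      exact congrArg Subtype.val (hx τ τ.2)
    have hxi : IsIntegral ℤ (⟨(x : K), hxF⟩ : F') := by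
      have h1 : IsIntegral ℤ (algebraMap F' K ⟨(x : K), hxF⟩) := x.2
      exact (isIntegral_algebraMap_iff (algebraMap F' K).injective).mp h1
    obtain ⟨y, hy, hyx⟩ := hg ⟨⟨(x : K), hxF⟩, hxi⟩
    rw [Ideal.mem_comap] at hy
    have e : inclInt F' y = σ₀ • x - x := by
      apply Subtype.ext
      rw [coe_inclInt, hyx]
      have h2 := AlgEquiv.restrictNormal_commutes σ₀ F' ⟨(x : K), hxF⟩
      show ((AlgEquiv.restrictNormalHom F' σ₀ ⟨(x : K), hxF⟩ - ⟨(x : K), hxF⟩ : F') : K) = _
      push_cast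
      exact congrArg (· - (x : K)) h2
    rw [← e]
    exact hy)
  have h1 := hI p hp A hA (mem_inertiaSubgroupIn_of_mem_inertia A hp hA _ hσ)
  have hσ₀ : σ₀ ∈ H := by
    have := H.mul_mem (H.inv_mem hh) h1
    simpa using this
  apply hg1
  ext x
  rw [← hfix] at hσ₀
  have h2 := AlgEquiv.restrictNormal_commutes σ₀ F' x
  have h3 : σ₀ (x : K) = x := hσ₀ x
  show ((AlgEquiv.restrictNormalHom F' σ₀ x : F') : K) = _
  exact h2.trans h3

end

theorem eq_top_of_inertia_le_alg [alg : Algebra ℚ (AlgebraicClosure ℚ)]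
    (H : Subgroup (AlgebraicClosure ℚ ≃ₐ[ℚ] AlgebraicClosure ℚ)) (hH : H.Normal)
    (F : IntermediateField ℚ (AlgebraicClosure ℚ)) (hFfin : FiniteDimensional ℚ F)
    (hF : F.fixingSubgroup ≤ H)
    (hI : ∀ ℓ : ℕ, ℓ.Prime → ∀ A : ValuationSubring (AlgebraicClosure ℚ), A.LiesOverPrime ℓ →
      A.inertiaSubgroupIn ℚ ≤ H) :
    H = ⊤ := by
  obtain rfl : alg = AlgebraicClosure.instAlgebra ℚ := Subsingleton.elim _ _
  exact @eq_top_of_inertia_le_aux (AlgebraicClosure ℚ) _ (AlgebraicClosure.instAlgebra ℚ)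
    inferInstance _ H hH F hFfin hF hI

theorem eq_top_of_inertia_le
    (H : Subgroup (AlgebraicClosure ℚ ≃ₐ[ℚ] AlgebraicClosure ℚ)) (hH : H.Normal)
    (F : IntermediateField ℚ (AlgebraicClosure ℚ)) (hFfin : FiniteDimensional ℚ F)
    (hF : F.fixingSubgroup ≤ H)
    (hI : ∀ ℓ : ℕ, ℓ.Prime → ∀ A : ValuationSubring (AlgebraicClosure ℚ), A.LiesOverPrime ℓ →
      A.inertiaSubgroupIn ℚ ≤ H) :
    H = ⊤ :=
  eq_top_of_inertia_le_alg H hH F hFfin hF hI

end Fermat.Agent.S13
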