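import Mathlib
import Fermat.Statements.S13
import Fermat.Agent.S05.CurveMain
import Fermat.Agent.S05.Inertia

/-!
# Common notation for the concrete layer of S13
-/

set_option autoImplicit false

namespace Fermat.Agent.S13

open WeierstrassCurve WeierstrassCurve.Affine WeierstrassCurve.Affine.Point Fermat.Agent.S05

/-- `ℚ̄` -/
abbrev Kb := AlgebraicClosure ℚ

/-- `Gal(ℚ̄/ℚ)` -/
abbrev GalQ := Kb ≃ₐ[ℚ] Kb

/-- points of the Frey curve over `ℚ̄` -/
noncomputable abbrev Pt (P : FreyPackage) := (P.freyCurve⁄Kb).Point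

/-- `E[p]` -/
noncomputable abbrev Tors (P : FreyPackage) := Submodule.torsionBy ℤ (P.freyCurve⁄Kb).Point P.p

theorem isAlgebraic_Kb' [alg : Algebra ℚ (AlgebraicClosure ℚ)] :
    Algebra.IsAlgebraic ℚ (AlgebraicClosure ℚ) := by
  obtain rfl : alg = AlgebraicClosure.instAlgebra ℚ := Subsingleton.elim _ _
  infer_instance

instance isAlgebraic_Kb : Algebra.IsAlgebraic ℚ Kb := isAlgebraic_Kb'

lemma mem_tors_iff (P : FreyPackage) (Q : Pt P) :
    Q ∈ Submodule.torsionBy ℤ (P.freyCurve⁄Kb).Point P.p ↔ P.p • Q = 0 := by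
  rw [Submodule.mem_torsionBy_iff, natCast_zsmul]

lemma tors_nsmul (P : FreyPackage) (x : Tors P) : P.p • (x : Pt P) = 0 :=
  (mem_tors_iff P _).mp x.2

lemma coe_smul_tors (P : FreyPackage) (σ : GalQ) (x : Tors P) :
    ((σ • x : Tors P) : Pt P) = σ • (x : Pt P) := rfl

lemma xc_smul (P : FreyPackage) (σ : GalQ) (Q : Pt P) : xc (σ • Q) = σ (xc Q) :=
  xc_map P.freyCurve σ.toAlgHom Q

lemma ps_smul (P : FreyPackage) (σ : GalQ) (Q : Pt P) : ps (σ • Q) = σ (ps Q) :=
  ps_map P.freyCurve σ.toAlgHom Q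

end Fermat.Agent.S13
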