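import Fermat.Agent.S13.Iface

/-!
# (LA) linear algebra on `E[p]` and the groups `H₁`, `H₂`
-/

set_option autoImplicit false

namespace Fermat.Agent.S13

open WeierstrassCurve WeierstrassCurve.Affine WeierstrassCurve.Affine.Point Fermat.Agent.S05

section Abstract

variable {p : ℕ} [Fact p.Prime] {M : Type*} [AddCommGroup M] [Module (ZMod p) M]

/-- a proper nonzero submodule of a module with at most `p²` elements is an atom and a coatom -/
theorem isAtom_isCoatom_of_card_le [Finite M] (hc : Nat.card M ≤ p ^ 2) (N : Submodule (ZMod p) M)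
    (hbot : N ≠ ⊥) (htop : N ≠ ⊤) : IsAtom N ∧ IsCoatom N := by
  have hp : 1 < p := (Fact.out : p.Prime).one_lt
  have h1 : Module.finrank (ZMod p) M ≤ 2 := by
    have := Module.natCard_eq_pow_finrank (K := ZMod p) (V := M)
    rw [Nat.card_zmod] at this
    rw [this] at hc
    exact (Nat.pow_le_pow_iff_right hp).mp hc
  have h2 := Submodule.finrank_lt htop
  have h3 : Module.finrank (ZMod p) N ≠ 0 := by
    intro h0
    rw [Submodule.finrank_eq_zero] at h0
    exact hbot h0
  constructor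
  · refine ⟨hbot, fun L hL => ?_⟩
    have := Submodule.finrank_lt_finrank_of_lt hL
    rw [← Submodule.finrank_eq_zero]
    omega
  · refine ⟨htop, fun L hL => ?_⟩
    have := Submodule.finrank_lt_finrank_of_lt hL
    apply Submodule.eq_top_of_finrank_eq
    have := Submodule.finrank_le L
    omega

/-- (LA2) -/
theorem fix_of_unipotent {N : Submodule (ZMod p) M} (hN : IsAtom N) (s : M →+ M)
    (hs : ∀ x ∈ N, s x ∈ N) (hu : ∀ x, s (s x - x) = s x - x) : ∀ x ∈ N, s x = x := by
  let L₀ : AddSubgroup M :=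
    { carrier := {x | x ∈ N ∧ s x = x}
      add_mem' := fun {a b} ha hb => ⟨N.add_mem ha.1 hb.1, by rw [map_add, ha.2, hb.2]⟩
      zero_mem' := ⟨N.zero_mem, _root_.map_zero s⟩
      neg_mem' := fun {a} ha => ⟨N.neg_mem ha.1, by rw [map_neg, ha.2]⟩ }
  let L := AddSubgroup.toZModSubmodule p L₀
  have hLN : L ≤ N := fun x hx => hx.1
  rcases (hN.le_iff).mp hLN with h | h
  · intro x hx
    have hy : s x - x ∈ L := ⟨N.sub_mem (hs x hx) hx, hu x⟩
    rw [h, Submodule.mem_bot] at hy
    exact sub_eq_zero.mp hy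
  · intro x hx
    rw [← h] at hx
    exact hx.2

/-- (LA3) -/
theorem cofix_of_unipotent {N : Submodule (ZMod p) M} (hN : IsCoatom N) (s : M →+ M)
    (hs : ∀ x ∈ N, s x ∈ N) (hu : ∀ x, s (s x - x) = s x - x) : ∀ x, s x - x ∈ N := by
  let L₀ : AddSubgroup M :=
    { carrier := {x | s x - x ∈ N}
      add_mem' := fun {a b} ha hb => by
        show s (a + b) - (a + b) ∈ N
        have : s (a + b) - (a + b) = (s a - a) + (s b - b) := by rw [map_add]; abel
        rw [this]; exact N.add_mem ha hb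
      zero_mem' := by show s 0 - 0 ∈ N; rw [_root_.map_zero, sub_zero]; exact N.zero_mem
      neg_mem' := fun {a} ha => by
        show s (-a) - (-a) ∈ N
        have : s (-a) - (-a) = -(s a - a) := by rw [map_neg]; abel
        rw [this]; exact N.neg_mem ha }
  let L := AddSubgroup.toZModSubmodule p L₀
  have hNL : N ≤ L := fun x hx => N.sub_mem (hs x hx) hx
  have hall : ∀ x, s x - x ∈ L := fun x => by
    show s (s x - x) - (s x - x) ∈ N
    rw [hu x, sub_self]; exact N.zero_mem
  rcases (hN.le_iff).mp hNL with h | h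
  · intro x
    have : x ∈ L := by rw [h]; exact Submodule.mem_top
    exact this
  · intro x
    have := hall x
    rwa [h] at this

/-- (LA4) -/
theorem fix_of_filtration {N : Submodule (ZMod p) M} (hN : IsAtom N) (s : M →+ M)
    (hs : ∀ x ∈ N, s x ∈ N) (V₀ V₁ : AddSubgroup M) (h0 : ∀ x, s x - x ∈ V₀)
    (h1 : ∀ x ∈ V₀, s x - x ∈ V₁) (hN1 : ∀ x ∈ N, x ∈ V₁ → x = 0) : ∀ x ∈ N, s x = x := by
  let L := N ⊓ AddSubgroup.toZModSubmodule p V₀
  have hLN : L ≤ N := inf_le_left
  rcases (hN.le_iff).mp hLN with h | h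
  · intro x hx
    have hy : s x - x ∈ L := ⟨N.sub_mem (hs x hx) hx, h0 x⟩
    rw [h, Submodule.mem_bot] at hy
    exact sub_eq_zero.mp hy
  · intro x hx
    have hx0 : x ∈ L := by rw [h]; exact hx
    exact sub_eq_zero.mp (hN1 _ (N.sub_mem (hs x hx) hx) (h1 x hx0.2))

/-- (LA5) -/
theorem cofix_of_filtration {N : Submodule (ZMod p) M} (hN : IsCoatom N) (s : M →+ M)
    (V₀ V₁ : AddSubgroup M) (h0 : ∀ x, s x - x ∈ V₀)
    (h1 : ∀ x ∈ V₀, s x - x ∈ V₁) (h10 : V₁ ≤ V₀) (hN1 : ∀ x, x ∈ V₁ ↔ x ∈ N) :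
    ∀ x, s x - x ∈ N := by
  let L := AddSubgroup.toZModSubmodule p V₀
  have hNL : N ≤ L := fun x hx => h10 ((hN1 x).mpr hx)
  rcases (hN.le_iff).mp hNL with h | h
  · intro x
    have : x ∈ L := by rw [h]; exact Submodule.mem_top
    exact (hN1 _).mp (h1 x this)
  · intro x
    have : s x - x ∈ L := h0 x
    rwa [h] at this

end Abstract

end Fermat.Agent.S13
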